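/-
PROJECT U (S34): **(FIB), `α`-side, discharged at `X₀(qM)`.**

`PM` a place of `ℚ̄(X₀(M))` with an integral `j`-value `c ∈ A` (`A` a valuation subring of `ℚ̄` over
`q`), GENERIC: `c̄^(q²) ≠ c̄` in the residue field.  Then among the places of `ℚ̄(X₀(qM))` over `PM`
(along `α`) there is exactly one at which the value of `j_q = β j` reduces to `c̄^q`
("type 1"); it is unramified over `PM`.  Without genericity: at every place over `PM` the value
`x'` of `j_q` lies in `A` and `(x̄' - c̄^q)(x̄'^q - c̄) = 0`.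

Layers: (i) Mathlib-only specialisation `Ψ ↦ Ψ(X, y)` of a two-variable integral polynomial and
Kronecker's shape; (ii) `SimpleRootLift.Congr` from the `j`-value; (iii) `SimpleRootLift.exists_place`
with `PowerBasisX0.minpoly_jl`.
-/
import Mathlib
import Fermat.Agent.S34.TwoGaussX0
import Fermat.Agent.S34.SimpleRootLift

set_option autoImplicit false

noncomputable section

namespace Fermat.Agent.S34.Generic.FibAlphaX0

open Polynomial

/-! ### (i) Specialising the second variable -/

section TwoVar

variable {R S : Type*} [CommRing R] [CommRing S]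

/-- `Ψ(X, y)` for `Ψ ∈ ℤ[Y][X]` -/
def spec (Ψ : Polynomial (Polynomial ℤ)) (y : R) : R[X] :=
  Ψ.map ((aeval y : Polynomial ℤ →ₐ[ℤ] R) : Polynomial ℤ →+* R)

theorem spec_monic {Ψ : Polynomial (Polynomial ℤ)} (hΨ : Ψ.Monic) (y : R) : (spec Ψ y).Monic :=
  hΨ.map _

theorem coeff_spec (Ψ : Polynomial (Polynomial ℤ)) (y : R) (i : ℕ) :
    (spec Ψ y).coeff i = aeval y (Ψ.coeff i) := by
  rw [spec, coeff_map]
  rfl

theorem map_spec (Ψ : Polynomial (Polynomial ℤ)) (f : R →+* S) (y : R) :
    (spec Ψ y).map f = spec Ψ (f y) := by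
  rw [spec, spec, Polynomial.map_map]
  congr 1
  apply Polynomial.ringHom_ext
  · intro a
    simp
  · simp

/-- Kronecker's shape, specialised -/
theorem spec_of_kronecker {k : Type*} [Field k] (q : ℕ) {Ψ : Polynomial (Polynomial ℤ)}
    (h : Ψ.map (Polynomial.mapRingHom (Int.castRingHom k)) = (X - C (X ^ q)) * (X ^ q - C X))
    (a : k) : spec Ψ a = (X - C (a ^ q)) * (X ^ q - C a) := by
  have hcomp : ((aeval a : Polynomial ℤ →ₐ[ℤ] k) : Polynomial ℤ →+* k) =
      (evalRingHom a).comp (Polynomial.mapRingHom (Int.castRingHom k)) := by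
    apply Polynomial.ringHom_ext
    · intro n
      simp
    · simp
  rw [spec, hcomp, ← Polynomial.map_map, h]
  simp

theorem eval_spec_of_kronecker {k : Type*} [Field k] (q : ℕ) {Ψ : Polynomial (Polynomial ℤ)}
    (h : Ψ.map (Polynomial.mapRingHom (Int.castRingHom k)) = (X - C (X ^ q)) * (X ^ q - C X))
    (a x : k) : (spec Ψ a).eval x = (x - a ^ q) * (x ^ q - a) := by
  rw [spec_of_kronecker q h]
  simp

theorem derivative_spec_of_kronecker {k : Type*} [Field k] (q : ℕ) [CharP k q]
    {Ψ : Polynomial (Polynomial ℤ)}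
    (h : Ψ.map (Polynomial.mapRingHom (Int.castRingHom k)) = (X - C (X ^ q)) * (X ^ q - C X))
    (a : k) : (spec Ψ a).derivative.eval (a ^ q) = a ^ (q ^ 2) - a := by
  rw [spec_of_kronecker q h, derivative_mul, derivative_sub, derivative_X, derivative_C, sub_zero,
    one_mul, derivative_sub, derivative_C, sub_zero, derivative_X_pow, CharP.cast_eq_zero, C_0,
    zero_mul, mul_zero, add_zero, eval_sub, eval_pow, eval_X, eval_C, ← pow_mul, ← pow_two]

theorem map_aeval_int (f : R →+* S) (y : R) (p : Polynomial ℤ) :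
    f (aeval y p) = aeval (f y) p := by
  rw [aeval_def, aeval_def, hom_eval₂]
  congr 1
  exact RingHom.ext_int _ _

end TwoVar

/-! ### (ii) The congruence `Ψ(X, j) ≡ Ψ(X, c)` modulo `𝔪_{PM}` from the `j`-value -/

section CongrSpec

open AlgebraicCurve IsLocalRing Fermat.Agent.S24.Ord Fermat.Agent.S34.SimpleRootLift

variable {L : Type*} [Field L] {FM : Type*} [Field FM] [Algebra L FM] {A : ValuationSubring L}
  {PM : Place L FM}

theorem congr_spec (Ψ : Polynomial (Polynomial ℤ)) {jP : ↥PM.toValuationSubring} {c : ↥A}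
    (hj : PM.adicValuation ((jP : FM) - algebraMap L FM (c : L)) < 1) :
    Congr PM (spec Ψ jP) (spec Ψ c) := by
  intro i
  rw [coeff_spec, coeff_spec]
  have hres : residue ↥PM.toValuationSubring jP = residue ↥PM.toValuationSubring (constA A PM c) := by
    rw [← sub_eq_zero, ← map_sub, residue_eq_zero_iff, mem_maximalIdeal_iff PM]
    exact hj
  have h1 : residue ↥PM.toValuationSubring (aeval jP (Ψ.coeff i)) =
      residue ↥PM.toValuationSubring (constA A PM (aeval c (Ψ.coeff i))) := by
    rw [map_aeval_int, map_aeval_int (constA A PM), map_aeval_int, hres]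
  rw [← sub_eq_zero, ← map_sub, residue_eq_zero_iff, mem_maximalIdeal_iff PM] at h1
  exact h1

end CongrSpec

/-! ### (iii) `X₀(qM)` -/

section X0

open ModularCurve AlgebraicCurve IsLocalRing
open Fermat.Agent.S24.DegreeAlg (jgen)
open Fermat.Agent.S34.PowerBasisX0 Fermat.Agent.S34.TwoGaussX0 Fermat.Agent.S24.Ord
  Fermat.Agent.S34.SimpleRootLift

local notation "Kb" => AlgebraicClosure ℚ

variable {q : ℕ} [hq : Fact q.Prime] {M : ℕ} [NeZero M] [NeZero q] {A : ValuationSubring Kb}
variable (hA : A.LiesOverPrime q) (hqM : ¬ q ∣ M)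

include hqM in
/-- `α` is integral -/
theorem isIntegral_alpha : (heckeAlphaBar Kb M q).toRingHom.IsIntegral :=
  fun x => isIntegral_FE hqM x

attribute [local instance] algFE

/-- `j ∈ O_{PM}` for a place with a finite `j`-value -/
theorem jgen_mem {PM : Place Kb ↥(modularFunctionFieldBar M)} {c : Kb}
    (hj : PM.adicValuation (jgen M - algebraMap Kb _ c) < 1) :
    jgen M ∈ PM.toValuationSubring := by
  have h1 : jgen M - algebraMap Kb _ c ∈ PM.toValuationSubring := (mem_iff PM _).mpr hj.le
  have : jgen M = (jgen M - algebraMap Kb _ c) + algebraMap Kb _ c := by ring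
  rw [this]
  exact PM.toValuationSubring.add_mem _ _ h1 (PM.algebraMap_mem' c)

include hqM in
/-- `Φ_q(X, j)` with coefficients in `O_{PM}` is the minimal polynomial of `j_q` -/
theorem minpoly_pbX0 {PM : Place Kb ↥(modularFunctionFieldBar M)}
    (jP : ↥PM.toValuationSubring) (hjP : (jP : ↥(modularFunctionFieldBar M)) = jgen M) :
    minpoly ↥(modularFunctionFieldBar M) (pbX0 (q := q) hqM).gen =
      (spec (modPolyZ q) jP).map (algebraMap ↥PM.toValuationSubring ↥(modularFunctionFieldBar M)) := by
  rw [pbX0_gen, map_spec]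
  have h := minpoly_jl hq.out hqM modPolyZ_monic natDegree_modPolyZ (map_evalL_modPolyZ (q := q))
    (N := M)
  rw [h]
  show modPolyF M (modPolyZ q) = spec (modPolyZ q) _
  rw [show algebraMap ↥PM.toValuationSubring ↥(modularFunctionFieldBar M) jP = jgen M from hjP]
  rfl

include hA hqM in
/-- **(FIB), `α`-side at `X₀(qM)`**: over a place `PM` of `X₀(M)` with integral generic `j`-value
there is exactly one place of `X₀(qM)` at which the value of `j_q` reduces to `c̄^q`; it is
unramified over `PM`. -/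
theorem exists_typeOne_place (PM : Place Kb ↥(modularFunctionFieldBar M)) (c : ↥A)
    (hj : PM.adicValuation (jgen M - algebraMap Kb _ (c : Kb)) < 1)
    (hgen : residue ↥A c ^ (q ^ 2) ≠ residue ↥A c) :
    ∃ P : Place Kb ↥(modularFunctionFieldBar (M * q)),
      P.restrictAlong (heckeAlphaBar Kb M q) (isIntegral_alpha hqM) = PM ∧
      P.ramificationIndexAlong (heckeAlphaBar Kb M q) = 1 ∧
      (∀ g : ↥(modularFunctionFieldBar M), P.ord (heckeAlphaBar Kb M q g) = PM.ord g) ∧
      (∃ x : ↥A, residue ↥A x = residue ↥A c ^ q ∧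
        P.adicValuation (jl M q - algebraMap Kb _ (x : Kb)) < 1) ∧
      ∀ P' : Place Kb ↥(modularFunctionFieldBar (M * q)),
        P'.restrictAlong (heckeAlphaBar Kb M q) (isIntegral_alpha hqM) = PM →
        (∃ x' : ↥A, residue ↥A x' = residue ↥A c ^ q ∧
          P'.adicValuation (jl M q - algebraMap Kb _ (x' : Kb)) < 1) → P' = P := by
  have : CharP (ResidueField ↥A) q := Fermat.Agent.S18.ResidueBasics.charP_residueField A hA
  have := isScalarTower_along (heckeAlphaBar Kb M q)
  have := isIntegral_along (heckeAlphaBar Kb M q) (isIntegral_alpha hqM)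
  set jP : ↥PM.toValuationSubring := ⟨jgen M, jgen_mem hj⟩ with hjP
  have hcongr : Congr PM (spec (modPolyZ q) jP) (spec (modPolyZ q) c) :=
    congr_spec (modPolyZ q) hj
  have hkr := map_modPolyZ_char (q := q) (ResidueField ↥A)
  have hroot : ((spec (modPolyZ q) c).map (residue ↥A)).eval (residue ↥A c ^ q) = 0 := by
    rw [map_spec, eval_spec_of_kronecker q hkr, sub_self, zero_mul]
  have hsimple : ((spec (modPolyZ q) c).map (residue ↥A)).derivative.eval (residue ↥A c ^ q) ≠ 0 := by
    rw [map_spec, derivative_spec_of_kronecker q hkr, sub_ne_zero]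
    exact hgen
  obtain ⟨P, h1, h2, h3, h4, h5⟩ := exists_place (residue ↥A) (pbX0 (q := q) hqM)
    (spec_monic modPolyZ_monic jP) (minpoly_pbX0 hqM jP rfl) hcongr
    (spec_monic modPolyZ_monic c) hroot hsimple
  rw [pbX0_gen] at h4 h5
  exact ⟨P, h1, h2, h3, h4, h5⟩

include hA hqM in
/-- **Dichotomy at the level of values** (no genericity): at every place of `X₀(qM)` over `PM`
the function `j_q` has a value `x' ∈ A`, a root of `Φ_q(X, c)`, and
`(x̄' - c̄^q)(x̄'^q - c̄) = 0`. -/
theorem exists_value_of_restrict (PM : Place Kb ↥(modularFunctionFieldBar M)) (c : ↥A)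
    (hj : PM.adicValuation (jgen M - algebraMap Kb _ (c : Kb)) < 1)
    (P' : Place Kb ↥(modularFunctionFieldBar (M * q)))
    (hP' : P'.restrictAlong (heckeAlphaBar Kb M q) (isIntegral_alpha hqM) = PM) :
    ∃ x' : ↥A, (spec (modPolyZ q) c).eval x' = 0 ∧
      (residue ↥A x' - residue ↥A c ^ q) * (residue ↥A x' ^ q - residue ↥A c) = 0 ∧
      P'.adicValuation (jl M q - algebraMap Kb _ (x' : Kb)) < 1 := by
  have : CharP (ResidueField ↥A) q := Fermat.Agent.S18.ResidueBasics.charP_residueField A hA
  have := isScalarTower_along (heckeAlphaBar Kb M q)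
  have := isIntegral_along (heckeAlphaBar Kb M q) (isIntegral_alpha hqM)
  set jP : ↥PM.toValuationSubring := ⟨jgen M, jgen_mem hj⟩ with hjP
  have hcongr : Congr PM (spec (modPolyZ q) jP) (spec (modPolyZ q) c) :=
    congr_spec (modPolyZ q) hj
  have hkr := map_modPolyZ_char (q := q) (ResidueField ↥A)
  have hcomap : P'.toValuationSubring.comap
      (algebraMap ↥(modularFunctionFieldBar M) ↥(modularFunctionFieldBar (M * q))) =
      PM.toValuationSubring := by
    rw [← hP']
    rfl
  obtain ⟨x', h1, h2, h3⟩ := exists_value (residue ↥A) (pbX0 (q := q) hqM)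
    (spec_monic modPolyZ_monic jP) (minpoly_pbX0 hqM jP rfl) hcongr
    (spec_monic modPolyZ_monic c)
    (Fermat.Agent.S24.Ord.deg_eq_one (Fermat.Agent.S24.Degree.isFF (M * q)) P') hcomap
  rw [pbX0_gen] at h3
  rw [map_spec, eval_spec_of_kronecker q hkr] at h2
  exact ⟨x', h1, h2, h3⟩

end X0

end Fermat.Agent.S34.Generic.FibAlphaX0
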