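/-
PROJECT U (S34): **(FIB), `β`-side, discharged at `X₀(qM)`** — the twin of `Generic/FibAlphaX0`.

`ℚ̄(X₀(qM))` is now seen as an extension of `ℚ̄(X₀(M))` along `β`, with primitive element `α j`,
whose minimal polynomial is again `Φ_q(X, j)` (`PowerBasisX0Beta.minpoly_alpha_jgen`, helper22).
`PM` a place of `ℚ̄(X₀(M))` with integral GENERIC `j`-value `c ∈ A`.  Among the places `P` of
`ℚ̄(X₀(qM))` with `P ∘ β = PM` there is exactly one at which the value of `α j` reduces to `c̄^q`;
it is unramified over `PM` (along `β`).  Without genericity: at every place over `PM` the value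
`x'` of `α j` lies in `A` and `(x̄' - c̄^q)(x̄'^q - c̄) = 0`.
-/
import Mathlib
import Fermat.Agent.S34.PowerBasisX0Beta
import Fermat.Agent.S34.Generic.FibAlphaX0

set_option autoImplicit false

noncomputable section

namespace Fermat.Agent.S34.Generic.FibBetaX0

open Polynomial ModularCurve AlgebraicCurve IsLocalRing
open Fermat.Agent.S24.DegreeAlg (jgen)
open Fermat.Agent.S34.PowerBasisX0 Fermat.Agent.S34.PowerBasisX0Beta Fermat.Agent.S34.TwoGaussX0
  Fermat.Agent.S24.Ord Fermat.Agent.S34.SimpleRootLift Fermat.Agent.S34.Generic.FibAlphaX0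

local notation "Kb" => AlgebraicClosure ℚ

variable {q : ℕ} [hq : Fact q.Prime] {M : ℕ} [NeZero M] [NeZero q] {A : ValuationSubring Kb}
variable (hA : A.LiesOverPrime q) (hqM : ¬ q ∣ M)

/-- `β` is integral -/
theorem isIntegral_beta (M q : ℕ) [NeZero M] [NeZero q] :
    (heckeBetaBar Kb M q).toRingHom.IsIntegral :=
  Fermat.Agent.S37.Hecke.Integral.betaIntegral M q

/-- the algebra structure of `E = ℚ̄(X₀(M q))` over `F = ℚ̄(X₀(M))` along `β` -/
@[reducible] def algFEβ (M q : ℕ) [NeZero M] [NeZero q] :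
    Algebra ↥(modularFunctionFieldBar M) ↥(modularFunctionFieldBar (M * q)) :=
  algebraAlong (heckeBetaBar Kb M q)

attribute [local instance] algFEβ

include hqM in
/-- `Φ_q(X, j)` with coefficients in `O_{PM}` is the minimal polynomial of `α j` along `β` -/
theorem minpoly_pbX0Beta {PM : Place Kb ↥(modularFunctionFieldBar M)}
    (jP : ↥PM.toValuationSubring) (hjP : (jP : ↥(modularFunctionFieldBar M)) = jgen M) :
    minpoly ↥(modularFunctionFieldBar M) (pbX0Beta (N := M) hq.out hqM).gen =
      (spec (modPolyZ q) jP).map (algebraMap ↥PM.toValuationSubring ↥(modularFunctionFieldBar M)) := by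
  rw [pbX0Beta_gen, map_spec]
  have h := minpoly_alpha_jgen hq.out hqM modPolyZ_monic natDegree_modPolyZ
    (map_evalL_modPolyZ (q := q)) (N := M)
  rw [h]
  show modPolyF M (modPolyZ q) = spec (modPolyZ q) _
  rw [show algebraMap ↥PM.toValuationSubring ↥(modularFunctionFieldBar M) jP = jgen M from hjP]
  rfl

include hA hqM in
/-- **(FIB), `β`-side at `X₀(qM)`**: over a place `PM` of `X₀(M)` with integral generic `j`-value
there is exactly one place `P` of `X₀(qM)` with `P ∘ β = PM` at which the value of `α j` reduces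
to `c̄^q`; it is unramified over `PM`. -/
theorem exists_typeTwo_place (PM : Place Kb ↥(modularFunctionFieldBar M)) (c : ↥A)
    (hj : PM.adicValuation (jgen M - algebraMap Kb _ (c : Kb)) < 1)
    (hgen : residue ↥A c ^ (q ^ 2) ≠ residue ↥A c) :
    ∃ P : Place Kb ↥(modularFunctionFieldBar (M * q)),
      P.restrictAlong (heckeBetaBar Kb M q) (isIntegral_beta M q) = PM ∧
      P.ramificationIndexAlong (heckeBetaBar Kb M q) = 1 ∧
      (∀ g : ↥(modularFunctionFieldBar M), P.ord (heckeBetaBar Kb M q g) = PM.ord g) ∧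
      (∃ x : ↥A, residue ↥A x = residue ↥A c ^ q ∧
        P.adicValuation (heckeAlphaBar Kb M q (jgen M) - algebraMap Kb _ (x : Kb)) < 1) ∧
      ∀ P' : Place Kb ↥(modularFunctionFieldBar (M * q)),
        P'.restrictAlong (heckeBetaBar Kb M q) (isIntegral_beta M q) = PM →
        (∃ x' : ↥A, residue ↥A x' = residue ↥A c ^ q ∧
          P'.adicValuation (heckeAlphaBar Kb M q (jgen M) - algebraMap Kb _ (x' : Kb)) < 1) →
        P' = P := by
  have : CharP (ResidueField ↥A) q := Fermat.Agent.S18.ResidueBasics.charP_residueField A hA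
  have := isScalarTower_along (heckeBetaBar Kb M q)
  have := isIntegral_along (heckeBetaBar Kb M q) (isIntegral_beta M q)
  set jP : ↥PM.toValuationSubring := ⟨jgen M, jgen_mem hj⟩ with hjP
  have hcongr : Congr PM (spec (modPolyZ q) jP) (spec (modPolyZ q) c) :=
    congr_spec (modPolyZ q) hj
  have hkr := map_modPolyZ_char (q := q) (ResidueField ↥A)
  have hroot : ((spec (modPolyZ q) c).map (residue ↥A)).eval (residue ↥A c ^ q) = 0 := by
    rw [map_spec, eval_spec_of_kronecker q hkr, sub_self, zero_mul]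
  have hsimple : ((spec (modPolyZ q) c).map (residue ↥A)).derivative.eval (residue ↥A c ^ q) ≠ 0 := by
    rw [map_spec, derivative_spec_of_kronecker q hkr, sub_ne_zero]
    exact hgen
  obtain ⟨P, h1, h2, h3, h4, h5⟩ := exists_place (residue ↥A) (pbX0Beta (N := M) hq.out hqM)
    (spec_monic modPolyZ_monic jP) (minpoly_pbX0Beta hqM jP rfl) hcongr
    (spec_monic modPolyZ_monic c) hroot hsimple
  rw [pbX0Beta_gen] at h4 h5
  exact ⟨P, h1, h2, h3, h4, h5⟩

include hA hqM in
/-- **Dichotomy at the level of values**, `β`-side (no genericity). -/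
theorem exists_value_of_restrict (PM : Place Kb ↥(modularFunctionFieldBar M)) (c : ↥A)
    (hj : PM.adicValuation (jgen M - algebraMap Kb _ (c : Kb)) < 1)
    (P' : Place Kb ↥(modularFunctionFieldBar (M * q)))
    (hP' : P'.restrictAlong (heckeBetaBar Kb M q) (isIntegral_beta M q) = PM) :
    ∃ x' : ↥A, (spec (modPolyZ q) c).eval x' = 0 ∧
      (residue ↥A x' - residue ↥A c ^ q) * (residue ↥A x' ^ q - residue ↥A c) = 0 ∧
      P'.adicValuation (heckeAlphaBar Kb M q (jgen M) - algebraMap Kb _ (x' : Kb)) < 1 := by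
  have : CharP (ResidueField ↥A) q := Fermat.Agent.S18.ResidueBasics.charP_residueField A hA
  have := isScalarTower_along (heckeBetaBar Kb M q)
  have := isIntegral_along (heckeBetaBar Kb M q) (isIntegral_beta M q)
  set jP : ↥PM.toValuationSubring := ⟨jgen M, jgen_mem hj⟩ with hjP
  have hcongr : Congr PM (spec (modPolyZ q) jP) (spec (modPolyZ q) c) :=
    congr_spec (modPolyZ q) hj
  have hkr := map_modPolyZ_char (q := q) (ResidueField ↥A)
  have hcomap : P'.toValuationSubring.comap
      (algebraMap ↥(modularFunctionFieldBar M) ↥(modularFunctionFieldBar (M * q))) =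
      PM.toValuationSubring := by
    rw [← hP']
    rfl
  obtain ⟨x', h1, h2, h3⟩ := exists_value (residue ↥A) (pbX0Beta (N := M) hq.out hqM)
    (spec_monic modPolyZ_monic jP) (minpoly_pbX0Beta hqM jP rfl) hcongr
    (spec_monic modPolyZ_monic c)
    (Fermat.Agent.S24.Ord.deg_eq_one (Fermat.Agent.S24.Degree.isFF (M * q)) P') hcomap
  rw [pbX0Beta_gen] at h3
  rw [map_spec, eval_spec_of_kronecker q hkr] at h2
  exact ⟨x', h1, h2, h3⟩

end Fermat.Agent.S34.Generic.FibBetaX0
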