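/-
PROJECT U (S34), helper10: COMPATIBILITY `ord_Q (red₁ u) = ∑_{P type 1 over Q} ord_P u` AT A GENERIC
PLACE `Q` OF THE SPECIAL FIBRE, BY A GLOBAL ARGUMENT (no chart, no completion, no power series).

Abstract setting (hypotheses first).  `R : S18.CoreDefs.RedDatum A π r` is a reduction datum of the
function field `FM / L` (level `M`, good reduction, with its place map `r` and `compat`).
`α β : FM →+* F` are two embeddings into a second function field `F / L` (level `qM`), with
restriction data `ra rb` for places.  `G.O` is a valuation ring of `F` with reduction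
`G.red : G.O → Fk` extending `R.red` along `α`.

Fix places `Q`, `FQ` ("`Fr Q`"), `Qm` ("`Fr⁻¹ Q`") of `Fk`, `FQ ≠ Qm`.  A place `P` of `F` with
`r (P ∘ α) = Q` is of TYPE 1 if `r (P ∘ β) = FQ` and of TYPE 2 if `r (P ∘ β) = Qm`.  Hypotheses
(`GenericAt`): dichotomy, the two fibre statements (unique unramified type-1 place over every
point of the level-`M` disc of `Q` along `α`, unique unramified type-2 place over every point of
the disc of `Qm` along `β`), good parameters at level `M`, and pole control `pc` along `α`.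

Main result `ord_red_eq_sum`: for every unit `u` of `G.O`,
`ord_Q (G.red u) = ∑_{P ∈ T} ord_P u`, `T` any finite set of type-1 places containing all zeros and
poles of `u` of type 1 over `Q`.
-/
import Mathlib
import Fermat.Agent.S18.Disc.Eval

set_option autoImplicit false
set_option linter.unusedSectionVars false

noncomputable section

namespace Fermat.Agent.S34.Generic.Compat

open AlgebraicCurve Fermat.Agent.S24.Ord Fermat.Agent.S18.CoreDefs Fermat.Agent.S18.Disc

variable {L : Type*} [Field L] {FM : Type*} [Field FM] [Algebra L FM]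
variable {k : Type*} [Field k] {Fk : Type*} [Field Fk] [Algebra k Fk]
variable {A : ValuationSubring L} {π : A →+* k} {r : Place L FM → Place k Fk}
variable {F : Type*} [Field F] [Algebra L F]

/-- restriction of places of `F` along a field embedding `a : FM → F`, with ramification indices -/
structure Restr (L : Type*) [Field L] {FM : Type*} [Field FM] [Algebra L FM]
    {F : Type*} [Field F] [Algebra L F] (a : FM →+* F) where
  /-- the place below -/
  res : Place L F → Place L FM
  /-- the ramification index -/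
  e : Place L F → ℕ
  e_pos : ∀ P, 0 < e P
  ord_map : ∀ (P : Place L F) (g : FM), P.ord (a g) = (e P : ℤ) * (res P).ord g

/-- a valuation ring of `F` with a reduction map extending `R.red` along `α`, and containing
`β (R.O)` -/
structure RedOne (R : RedDatum A π r) (α β : FM →+* F) where
  /-- the valuation ring -/
  O : ValuationSubring F
  /-- the reduction map -/
  red : O →+* Fk
  red_eq_zero_iff : ∀ u : O, red u = 0 ↔ ¬ IsUnit u
  α_mem : ∀ g : R.O, α (g : FM) ∈ O
  red_α : ∀ g : R.O, red ⟨α (g : FM), α_mem g⟩ = R.red g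
  β_mem : ∀ g : R.O, β (g : FM) ∈ O

variable {R : RedDatum A π r} {α β : FM →+* F}

/-- the hypotheses at a generic place `Q` (with `FQ = Fr Q`, `Qm = Fr⁻¹ Q`) -/
structure GenericAt (ra : Restr L α) (rb : Restr L β) (G : RedOne R α β)
    (Q FQ Qm : Place k Fk) : Prop where
  ne : FQ ≠ Qm
  /-- a place over the disc of `Q` along `α` is of type 1 or of type 2 -/
  dich : ∀ P : Place L F, r (ra.res P) = Q → r (rb.res P) = FQ ∨ r (rb.res P) = Qm
  /-- unique unramified type-1 place over every point of the disc of `Q` (along `α`) -/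
  fibα : ∀ PM : Place L FM, r PM = Q → ∃ P : Place L F, ra.res P = PM ∧ r (rb.res P) = FQ ∧
    ra.e P = 1 ∧ ∀ P' : Place L F, ra.res P' = PM → r (rb.res P') = FQ → P' = P
  /-- unique unramified type-2 place over every point of the disc of `Qm` (along `β`) -/
  fibβ : ∀ PM : Place L FM, r PM = Qm → ∃ P : Place L F, rb.res P = PM ∧ r (ra.res P) = Q ∧
    rb.e P = 1 ∧ ∀ P' : Place L F, rb.res P' = PM → r (ra.res P') = Q → P' = P
  /-- good parameters at `Q` with a prescribed zero -/
  gpa : ∀ PM : Place L FM, r PM = Q → ∃ g : R.O, IsGoodParam R g Q ∧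
    PM.adicValuation (g : FM) < 1
  /-- good parameters at `Qm` with a prescribed zero and no zero or pole over `FQ` -/
  gpb : ∀ PM : Place L FM, r PM = Qm → ∃ g : R.O, IsGoodParam R g Qm ∧
    PM.adicValuation (g : FM) < 1 ∧ RegOn r (g : FM) FQ ∧ FQ.ord (R.red g) = 0
  /-- `red (β g)` has neither zero nor pole at `Q` if `red g` has none at `FQ` -/
  red_β : ∀ g : R.O, R.red g ≠ 0 → FQ.ord (R.red g) = 0 →
    G.red ⟨β (g : FM), G.β_mem g⟩ ≠ 0 ∧ Q.ord (G.red ⟨β (g : FM), G.β_mem g⟩) = 0
  /-- pole control along `α` -/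
  pc : ∀ h : G.O, (∀ P : Place L F, r (ra.res P) = Q → P.adicValuation (h : F) ≤ 1) →
    Q.adicValuation (G.red h) ≤ 1

/-! ### The two homomorphisms `Oˣ → ℤ` -/

/-- `ord_P` as a homomorphism on the units of a field -/
def ordHom {K E : Type*} [Field K] [Field E] [Algebra K E] (P : Place K E) :
    Eˣ →* Multiplicative ℤ where
  toFun u := Multiplicative.ofAdd (P.ord (u : E))
  map_one' := by simp [Place.ord_one]
  map_mul' u v := by
    rw [Units.val_mul, P.ord_mul u.ne_zero v.ne_zero, ofAdd_add]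

@[simp] theorem ordHom_apply {K E : Type*} [Field K] [Field E] [Algebra K E] (P : Place K E)
    (u : Eˣ) : Multiplicative.toAdd (ordHom P u) = P.ord (u : E) := rfl

variable (G : RedOne R α β)

/-- `u ↦ ord_P u` on the units of `G.O` -/
def vHom (P : Place L F) : G.Oˣ →* Multiplicative ℤ :=
  (ordHom P).comp (Units.map (G.O.subtype : G.O →* F))

theorem vHom_apply (P : Place L F) (u : G.Oˣ) :
    Multiplicative.toAdd (vHom G P u) = P.ord (((u : G.O) : F)) := rfl

/-- `u ↦ ord_Q (red u)` on the units of `G.O` -/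
def wHom (Q : Place k Fk) : G.Oˣ →* Multiplicative ℤ :=
  (ordHom Q).comp (Units.map (G.red : G.O →* Fk))

theorem wHom_apply (Q : Place k Fk) (u : G.Oˣ) :
    Multiplicative.toAdd (wHom G Q u) = Q.ord (G.red (u : G.O)) := rfl

theorem red_unit_ne_zero (u : G.Oˣ) : G.red (u : G.O) ≠ 0 := by
  intro h
  exact ((G.red_eq_zero_iff _).mp h) u.isUnit

theorem coe_unit_ne_zero (u : G.Oˣ) : (((u : G.O) : F)) ≠ 0 := by
  intro h
  have : (u : G.O) = 0 := Subtype.ext h
  exact u.ne_zero this

/-- the unit of `G.O` attached to an element with nonzero reduction -/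
def unitOf (x : G.O) (hx : G.red x ≠ 0) : G.Oˣ :=
  (not_not.mp (fun h => hx ((G.red_eq_zero_iff x).mpr h)) : IsUnit x).unit

@[simp] theorem coe_unitOf (x : G.O) (hx : G.red x ≠ 0) : ((unitOf G x hx : G.Oˣ) : G.O) = x :=
  IsUnit.unit_spec _

variable {G}
variable {ra : Restr L α} {rb : Restr L β} {Q FQ Qm : Place k Fk}

/-! ### Lemma A: a unit without zeros or poles over the disc of `Q` -/

theorem coe_inv_unit (u : G.Oˣ) : (((u⁻¹ : G.Oˣ) : G.O) : F) = (((u : G.O) : F))⁻¹ := by
  have h : (((u : G.O) : F)) * (((u⁻¹ : G.Oˣ) : G.O) : F) = 1 := by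
    have h1 : ((u : G.O) * ((u⁻¹ : G.Oˣ) : G.O) : G.O) = 1 := u.mul_inv
    have h2 := congrArg (fun z : G.O => (z : F)) h1
    simpa only [MulMemClass.coe_mul, OneMemClass.coe_one] using h2
  exact eq_inv_of_mul_eq_one_right h

theorem wHom_eq_one_of_clean (H : GenericAt ra rb G Q FQ Qm) (u : G.Oˣ)
    (hu : ∀ P : Place L F, r (ra.res P) = Q → P.ord (((u : G.O) : F)) = 0) :
    wHom G Q u = 1 := by
  have h1 : Q.adicValuation (G.red (u : G.O)) ≤ 1 := by
    apply H.pc
    intro P hP
    exact (ord_nonneg_iff P (coe_unit_ne_zero G u)).mp (le_of_eq (hu P hP).symm)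
  have h2 : Q.adicValuation (G.red ((u⁻¹ : G.Oˣ) : G.O)) ≤ 1 := by
    apply H.pc
    intro P hP
    have hne : ((((u⁻¹ : G.Oˣ) : G.O) : F)) ≠ 0 := coe_unit_ne_zero G u⁻¹
    refine (ord_nonneg_iff P hne).mp ?_
    rw [coe_inv_unit, P.ord_inv, hu P hP, neg_zero]
  have hn1 := red_unit_ne_zero G u
  have hn2 := red_unit_ne_zero G u⁻¹
  have o1 : 0 ≤ Q.ord (G.red (u : G.O)) := (ord_nonneg_iff Q hn1).mpr h1
  have o2 : 0 ≤ Q.ord (G.red ((u⁻¹ : G.Oˣ) : G.O)) := (ord_nonneg_iff Q hn2).mpr h2
  have hmul : G.red (u : G.O) * G.red ((u⁻¹ : G.Oˣ) : G.O) = 1 := by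
    rw [← map_mul, ← Units.val_mul, mul_inv_cancel, Units.val_one, map_one]
  have o3 : Q.ord (G.red (u : G.O)) + Q.ord (G.red ((u⁻¹ : G.Oˣ) : G.O)) = 0 := by
    rw [← Q.ord_mul hn1 hn2, hmul, Place.ord_one]
  have : Q.ord (G.red (u : G.O)) = 0 := by omega
  apply Multiplicative.toAdd.injective
  rw [wHom_apply, this]
  rfl

/-! ### Lemma B: the test functions `α g` -/

/-- the unit `α g` of `G.O`, for `g` a unit of `R.O` -/
def unitα (G : RedOne R α β) (g : R.O) (hg : R.red g ≠ 0) : G.Oˣ :=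
  unitOf G ⟨α (g : FM), G.α_mem g⟩ (by rw [G.red_α]; exact hg)

theorem coe_unitα (g : R.O) (hg : R.red g ≠ 0) :
    (((unitα G g hg : G.Oˣ) : G.O) : F) = α (g : FM) := by
  rw [unitα, coe_unitOf]

theorem wHom_unitα (g : R.O) (hg : R.red g ≠ 0) (Q : Place k Fk) :
    Multiplicative.toAdd (wHom G Q (unitα G g hg)) = Q.ord (R.red g) := by
  rw [wHom_apply, unitα, coe_unitOf, G.red_α]

theorem vHom_unitα (ra : Restr L α) (g : R.O) (hg : R.red g ≠ 0) (P : Place L F) :
    Multiplicative.toAdd (vHom G P (unitα G g hg)) = (ra.e P : ℤ) * (ra.res P).ord (g : FM) := by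
  rw [vHom_apply, coe_unitα, ra.ord_map]

/-- the unit `β g` of `G.O`, for `g` a unit of `R.O` with no zero or pole at `FQ` -/
def unitβ (H : GenericAt ra rb G Q FQ Qm) (g : R.O) (hg : R.red g ≠ 0)
    (h0 : FQ.ord (R.red g) = 0) : G.Oˣ :=
  unitOf G ⟨β (g : FM), G.β_mem g⟩ (H.red_β g hg h0).1

theorem coe_unitβ (H : GenericAt ra rb G Q FQ Qm) (g : R.O) (hg : R.red g ≠ 0)
    (h0 : FQ.ord (R.red g) = 0) :
    (((unitβ H g hg h0 : G.Oˣ) : G.O) : F) = β (g : FM) := by
  rw [unitβ, coe_unitOf]

theorem wHom_unitβ (H : GenericAt ra rb G Q FQ Qm) (g : R.O) (hg : R.red g ≠ 0)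
    (h0 : FQ.ord (R.red g) = 0) : wHom G Q (unitβ H g hg h0) = 1 := by
  apply Multiplicative.toAdd.injective
  rw [wHom_apply, unitβ, coe_unitOf, (H.red_β g hg h0).2]
  rfl

theorem vHom_unitβ (H : GenericAt ra rb G Q FQ Qm) (g : R.O) (hg : R.red g ≠ 0)
    (h0 : FQ.ord (R.red g) = 0) (P : Place L F) :
    Multiplicative.toAdd (vHom G P (unitβ H g hg h0)) =
      (rb.e P : ℤ) * (rb.res P).ord (g : FM) := by
  rw [vHom_apply, coe_unitβ, rb.ord_map]

section Main

variable [HasPrincipalDivisors L FM]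

open Classical in
/-- a good parameter at `Q` with its zero at `PM`: orders on the disc of `Q` -/
theorem ord_goodParam {g : R.O} {Q' : Place k Fk} (hg : IsGoodParam R g Q') {PM : Place L FM}
    (hPM : r PM = Q') (hz : PM.adicValuation (g : FM) < 1) (P' : Place L FM) (hP' : r P' = Q') :
    P'.ord (g : FM) = if P' = PM then 1 else 0 := by
  classical
  exact hg.ord_eq_ite hPM hz P' hP'

/-- no zero or pole on a disc where the function is regular and its reduction is a unit -/
theorem ord_eq_zero_of_regOn {g : R.O} (hg : R.red g ≠ 0) {Q' : Place k Fk}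
    (hreg : RegOn r (g : FM) Q') (h0 : Q'.ord (R.red g) = 0) (P' : Place L FM) (hP' : r P' = Q') :
    P'.ord (g : FM) = 0 := by
  have h1 := ord_le_ord_red R g hg Q' hreg P' hP'
  have h2 := hreg.ord_nonneg P' hP'
  omega

open Classical in
/-- **Lemma B**: for every type-1 place `P` over `Q` there is a unit `a` of `G.O` with
`ord_Q (red a) = 1`, a simple zero at `P`, and no other zero or pole of type 1 over `Q`. -/
theorem exists_testα (H : GenericAt ra rb G Q FQ Qm) (P : Place L F)
    (hP : r (ra.res P) = Q) (hP1 : r (rb.res P) = FQ) :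
    ∃ a : G.Oˣ, Multiplicative.toAdd (wHom G Q a) = 1 ∧
      (∀ P' : Place L F, r (ra.res P') = Q → r (rb.res P') = FQ →
        Multiplicative.toAdd (vHom G P' a) = if P' = P then 1 else 0) := by
  classical
  obtain ⟨g, hg, hz⟩ := H.gpa (ra.res P) hP
  obtain ⟨P₁, hP₁res, hP₁FQ, hP₁e, hP₁uniq⟩ := H.fibα (ra.res P) hP
  have hPP₁ : P = P₁ := hP₁uniq P rfl hP1
  refine ⟨unitα G g hg.red_ne_zero, ?_, ?_⟩
  · rw [wHom_unitα, hg.ord_one]
  · intro P' hP' hP'1
    rw [vHom_unitα ra, ord_goodParam hg hP hz (ra.res P') hP']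
    by_cases hres : ra.res P' = ra.res P
    · have hP'P₁ : P' = P₁ := hP₁uniq P' hres hP'1
      have : P' = P := hP'P₁.trans hPP₁.symm
      rw [if_pos hres, if_pos this, this, hPP₁, hP₁e]
      simp
    · have hne : P' ≠ P := fun h => hres (by rw [h])
      rw [if_neg hres, if_neg hne, mul_zero]

open Classical in
/-- **Lemma C**: for every type-2 place `P` (over `Qm`, with `r (P ∘ α) = Q`) there is a unit `b`
of `G.O` with `ord_Q (red b) = 0`, a simple zero at `P`, and no other zero or pole over the disc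
of `Q` along `α`. -/
theorem exists_testβ (H : GenericAt ra rb G Q FQ Qm) (P : Place L F)
    (hP : r (ra.res P) = Q) (hP2 : r (rb.res P) = Qm) :
    ∃ b : G.Oˣ, wHom G Q b = 1 ∧
      (∀ P' : Place L F, r (ra.res P') = Q →
        Multiplicative.toAdd (vHom G P' b) = if P' = P then 1 else 0) := by
  classical
  obtain ⟨g, hg, hz, hreg, h0⟩ := H.gpb (rb.res P) hP2
  obtain ⟨P₂, hP₂res, hP₂Q, hP₂e, hP₂uniq⟩ := H.fibβ (rb.res P) hP2
  have hPP₂ : P = P₂ := hP₂uniq P rfl hP
  refine ⟨unitβ H g hg.red_ne_zero h0, wHom_unitβ H g hg.red_ne_zero h0, ?_⟩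
  intro P' hP'
  rw [vHom_unitβ H]
  rcases H.dich P' hP' with h1 | h2
  · -- type 1: `g` has no zero or pole over `FQ`
    have hne : P' ≠ P := by
      intro h
      rw [h, hP2] at h1
      exact H.ne h1.symm
    rw [ord_eq_zero_of_regOn hg.red_ne_zero hreg h0 (rb.res P') h1, mul_zero, if_neg hne]
  · rw [ord_goodParam hg hP2 hz (rb.res P') h2]
    by_cases hres : rb.res P' = rb.res P
    · have hP'P₂ : P' = P₂ := hP₂uniq P' hres hP'
      have : P' = P := hP'P₂.trans hPP₂.symm
      rw [if_pos hres, if_pos this, this, hPP₂, hP₂e]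
      simp
    · have hne : P' ≠ P := fun h => hres (by rw [h])
      rw [if_neg hres, if_neg hne, mul_zero]

variable [HasPrincipalDivisors L F]

/-- the zeros and poles of a unit form a finite set -/
theorem exists_finset_support (u : G.Oˣ) :
    ∃ s : Finset (Place L F), ∀ P : Place L F, P.ord (((u : G.O) : F)) ≠ 0 → P ∈ s := by
  obtain ⟨D, hD, -⟩ := HasPrincipalDivisors.exists_divisor (K := L) (((u : G.O) : F))
    (coe_unit_ne_zero G u)
  refine ⟨D.support, fun P hP => ?_⟩
  rw [Finsupp.mem_support_iff, hD]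
  exact hP

theorem toAdd_prod_zpow {ι : Type*} (s : Finset ι) (f : G.Oˣ →* Multiplicative ℤ)
    (a : ι → G.Oˣ) (n : ι → ℤ) :
    Multiplicative.toAdd (f (∏ i ∈ s, a i ^ n i)) =
      ∑ i ∈ s, n i * Multiplicative.toAdd (f (a i)) := by
  rw [map_prod, toAdd_prod]
  refine Finset.sum_congr rfl fun i _ => ?_
  rw [map_zpow, toAdd_zpow, smul_eq_mul]

/-- **Stage 1**: a unit without zero or pole of type 1 over `Q` has `ord_Q (red u) = 0`. -/
theorem wHom_eq_one_of_typeOne_clean (H : GenericAt ra rb G Q FQ Qm) (u : G.Oˣ)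
    (hu : ∀ P : Place L F, r (ra.res P) = Q → r (rb.res P) = FQ →
      P.ord (((u : G.O) : F)) = 0) :
    wHom G Q u = 1 := by
  classical
  obtain ⟨s, hs⟩ := exists_finset_support u
  -- the type-2 zeros and poles
  set T : Finset (Place L F) := s.filter fun P => r (ra.res P) = Q ∧ r (rb.res P) = Qm with hT
  have hTmem : ∀ P ∈ T, r (ra.res P) = Q ∧ r (rb.res P) = Qm := fun P hP =>
    (Finset.mem_filter.mp hP).2
  choose! b hbw hbv using fun P (hP : r (ra.res P) = Q ∧ r (rb.res P) = Qm) =>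
    exists_testβ H P hP.1 hP.2
  set n : Place L F → ℤ := fun P => P.ord (((u : G.O) : F)) with hn
  set u' : G.Oˣ := u * (∏ P ∈ T, b P ^ n P)⁻¹ with hu'
  have hclean : ∀ P : Place L F, r (ra.res P) = Q → P.ord ((((u' : G.Oˣ) : G.O) : F)) = 0 := by
    intro P hP
    have h1 : Multiplicative.toAdd (vHom G P u') =
        P.ord (((u : G.O) : F)) - ∑ P' ∈ T, n P' * Multiplicative.toAdd (vHom G P (b P')) := by
      rw [hu', map_mul, map_inv, toAdd_mul, toAdd_inv, toAdd_prod_zpow, vHom_apply]
      ring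
    rw [← vHom_apply, h1]
    have h2 : ∑ P' ∈ T, n P' * Multiplicative.toAdd (vHom G P (b P')) =
        ∑ P' ∈ T, if P = P' then n P' else 0 := by
      refine Finset.sum_congr rfl fun P' hP' => ?_
      rw [hbv P' (hTmem P' hP') P hP]
      split_ifs <;> simp
    rw [h2, Finset.sum_ite_eq]
    by_cases hPT : P ∈ T
    · rw [if_pos hPT]; simp [hn]
    · rw [if_neg hPT, sub_zero]
      by_contra hne
      rcases H.dich P hP with h1' | h2'
      · exact hne (hu P hP h1')
      · exact hPT (Finset.mem_filter.mpr ⟨hs P hne, hP, h2'⟩)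
  have hw' := wHom_eq_one_of_clean H u' hclean
  have hw : wHom G Q u = wHom G Q u' * wHom G Q (∏ P ∈ T, b P ^ n P) := by
    rw [hu', map_mul, map_inv, inv_mul_cancel_right]
  rw [hw, hw', one_mul]
  apply Multiplicative.toAdd.injective
  rw [toAdd_prod_zpow]
  simp only [toAdd_one]
  refine Finset.sum_eq_zero fun P hP => ?_
  rw [hbw P (hTmem P hP)]
  simp

/-- **(C1) at a generic place**: for every unit `u` of `G.O`, `ord_Q (red u)` is the sum of the
orders of `u` at the type-1 places over `Q`. -/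
theorem ord_red_eq_sum (H : GenericAt ra rb G Q FQ Qm) (u : G.Oˣ) (T : Finset (Place L F))
    (hT : ∀ P ∈ T, r (ra.res P) = Q ∧ r (rb.res P) = FQ)
    (hT' : ∀ P : Place L F, r (ra.res P) = Q → r (rb.res P) = FQ →
      P.ord (((u : G.O) : F)) ≠ 0 → P ∈ T) :
    Q.ord (G.red (u : G.O)) = ∑ P ∈ T, P.ord (((u : G.O) : F)) := by
  classical
  choose! a haw hav using fun P (hP : r (ra.res P) = Q ∧ r (rb.res P) = FQ) =>
    exists_testα H P hP.1 hP.2
  set n : Place L F → ℤ := fun P => P.ord (((u : G.O) : F)) with hn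
  set u' : G.Oˣ := u * (∏ P ∈ T, a P ^ n P)⁻¹ with hu'
  have hclean : ∀ P : Place L F, r (ra.res P) = Q → r (rb.res P) = FQ →
      P.ord ((((u' : G.Oˣ) : G.O) : F)) = 0 := by
    intro P hP hP1
    have h1 : Multiplicative.toAdd (vHom G P u') =
        P.ord (((u : G.O) : F)) - ∑ P' ∈ T, n P' * Multiplicative.toAdd (vHom G P (a P')) := by
      rw [hu', map_mul, map_inv, toAdd_mul, toAdd_inv, toAdd_prod_zpow, vHom_apply]
      ring
    rw [← vHom_apply, h1]
    have h2 : ∑ P' ∈ T, n P' * Multiplicative.toAdd (vHom G P (a P')) =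
        ∑ P' ∈ T, if P = P' then n P' else 0 := by
      refine Finset.sum_congr rfl fun P' hP' => ?_
      rw [hav P' (hT P' hP') P hP hP1]
      split_ifs <;> simp
    rw [h2, Finset.sum_ite_eq]
    by_cases hPT : P ∈ T
    · rw [if_pos hPT]; simp [hn]
    · rw [if_neg hPT, sub_zero]
      by_contra hne
      exact hPT (hT' P hP hP1 hne)
  have hw' := wHom_eq_one_of_typeOne_clean H u' hclean
  have hw : wHom G Q u = wHom G Q u' * wHom G Q (∏ P ∈ T, a P ^ n P) := by
    rw [hu', map_mul, map_inv, inv_mul_cancel_right]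
  rw [← wHom_apply, hw, hw', one_mul, toAdd_prod_zpow]
  refine Finset.sum_congr rfl fun P hP => ?_
  rw [haw P (hT P hP), mul_one]

end Main

end Fermat.Agent.S34.Generic.Compat
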