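/-
PROJECT U (S34), helper10: the restriction data `Restr L φ` of `Generic/Compat.lean` for an
integral `L`-algebra embedding `φ : FM →ₐ[L] F` of function fields, from the Prelude's
`Place.restrict` / `Place.ramificationIndex` (along `algebraAlong φ`).
-/
import Mathlib
import Fermat.Agent.S34.Generic.Compat
import Fermat.Prelude.Def_AlgebraicCurve_Correspondence

set_option autoImplicit false
set_option linter.style.haveILetI false

noncomputable section

namespace Fermat.Agent.S34.Generic.RestrAlong

open AlgebraicCurve Fermat.Agent.S34.Generic.Compat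

variable {L : Type*} [Field L] {FM : Type*} [Field FM] [Algebra L FM]
variable {F : Type*} [Field F] [Algebra L F]

/-- the place of `FM` below a place of `F`, along `φ` -/
def resAlong (φ : FM →ₐ[L] F) (hφ : φ.toRingHom.IsIntegral) (P : Place L F) : Place L FM :=
  letI := algebraAlong φ
  haveI := isScalarTower_along φ
  haveI := isIntegral_along φ hφ
  P.restrict FM

/-- the ramification index of a place of `F` along `φ` -/
def eAlong (φ : FM →ₐ[L] F) (P : Place L F) : ℕ :=
  letI := algebraAlong φ
  P.ramificationIndex FM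

theorem mem_resAlong_iff (φ : FM →ₐ[L] F) (hφ : φ.toRingHom.IsIntegral) (P : Place L F)
    (g : FM) : g ∈ (resAlong φ hφ P).toValuationSubring ↔ φ g ∈ P.toValuationSubring :=
  Iff.rfl

/-- the restriction data along an integral embedding -/
def restrAlong (φ : FM →ₐ[L] F) (hφ : φ.toRingHom.IsIntegral) : Restr L (φ : FM →+* F) where
  res := resAlong φ hφ
  e := eAlong φ
  e_pos P := by
    letI := algebraAlong φ
    haveI := isScalarTower_along φ
    haveI := isIntegral_along φ hφ
    exact P.ramificationIndex_pos (F := FM)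
  ord_map P g := by
    letI := algebraAlong φ
    haveI := isScalarTower_along φ
    haveI := isIntegral_along φ hφ
    exact P.ord_restrict (F := FM) g

@[simp] theorem restrAlong_res (φ : FM →ₐ[L] F) (hφ : φ.toRingHom.IsIntegral) (P : Place L F) :
    (restrAlong φ hφ).res P = resAlong φ hφ P := rfl

/-- valuation of `φ g` at `P` vs valuation of `g` at the place below: `≤ 1` -/
theorem adicValuation_map_le_one_iff (φ : FM →ₐ[L] F) (hφ : φ.toRingHom.IsIntegral)
    (P : Place L F) (g : FM) :
    P.adicValuation (φ g) ≤ 1 ↔ (resAlong φ hφ P).adicValuation g ≤ 1 := by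
  rw [← Fermat.Agent.S24.Ord.mem_iff, ← Fermat.Agent.S24.Ord.mem_iff]
  exact (mem_resAlong_iff φ hφ P g).symm

/-- valuation of `φ g` at `P` vs valuation of `g` at the place below: `< 1` -/
theorem adicValuation_map_lt_one_iff (φ : FM →ₐ[L] F) (hφ : φ.toRingHom.IsIntegral)
    (P : Place L F) (g : FM) :
    P.adicValuation (φ g) < 1 ↔ (resAlong φ hφ P).adicValuation g < 1 := by
  rcases eq_or_ne g 0 with rfl | hg
  · simp
  have hφg : φ g ≠ 0 := (map_ne_zero_iff φ φ.toRingHom.injective).mpr hg
  have h1 := (restrAlong φ hφ).ord_map P g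
  have he := (restrAlong φ hφ).e_pos P
  rw [← Fermat.Agent.S24.Ord.ord_pos_iff P hφg, ← Fermat.Agent.S24.Ord.ord_pos_iff _ hg]
  change P.ord (φ g) = _ at h1
  rw [h1]
  constructor
  · intro h
    have he' : (0 : ℤ) < ((restrAlong φ hφ).e P : ℤ) := by exact_mod_cast he
    exact (mul_pos_iff_of_pos_left he').mp h
  · intro h
    exact mul_pos (by exact_mod_cast he) h

end Fermat.Agent.S34.Generic.RestrAlong
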