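/-
PROJECT U (S34), helper10: FROM `GenericAt` AT ALL GOOD PLACES TO helper9's `NodalDefs.SmoothRed`.

Setting of `Generic/Compat.lean`.  `B₁ : NodalDefs.Branch A π F Fk` is a branch of the level-`qM`
function field `F`, compatible with the level-`M` reduction datum `R` along `α` (`α (R.O) ⊆ B₁.O`,
`red₁ ∘ α = red`, `β (R.O) ⊆ B₁.O`).  If `GenericAt` holds at every place `Q` of a set `good`
(with `FQ = Fr Q`, `Qm = Frm Q`), then `B₁` with the PARTIAL specialisation map

  `r₁ P := some (r (P ∘ α))` if `r (P ∘ α) ∈ good` and `r (P ∘ β) = Fr (r (P ∘ α))`, `none` otherwise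

is a `SmoothRed` (compatibility `(r₁)_* div u = div (red₁ u)` at the good places).

Second part: transport of a `SmoothRed` along an `L`-automorphism `w` of `F` (for the second
component, `w = w_q`): `O := O₁.comap w`, `red := red₁ ∘ w`, `r P := r₁ (w • P)`.
-/
import Mathlib
import Fermat.Agent.S34.Generic.Compat
import Fermat.Agent.S34.NodalDefs
import Fermat.Prelude.Def_AlgebraicCurve_BaseChangeGalois

set_option autoImplicit false
set_option linter.unusedSectionVars false

noncomputable section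

namespace Fermat.Agent.S34.Generic.SmoothRedOfGeneric

open AlgebraicCurve Fermat.Agent.S24.Ord Fermat.Agent.S18.CoreDefs Fermat.Agent.S18.Disc
  Fermat.Agent.S34.Generic.Compat Fermat.Agent.S34.NodalDefs

variable {L : Type*} [Field L] {FM : Type*} [Field FM] [Algebra L FM]
variable {k : Type*} [Field k] {Fk : Type*} [Field Fk] [Algebra k Fk]
variable {A : ValuationSubring L} {π : A →+* k} {r : Place L FM → Place k Fk}
variable {F : Type*} [Field F] [Algebra L F]
variable {R : RedDatum A π r} {α β : FM →+* F}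

/-- the `RedOne` structure of a branch compatible with `R` along `α` -/
def redOneOfBranch (B₁ : Branch A π F Fk) (hα : ∀ g : R.O, α (g : FM) ∈ B₁.O)
    (hredα : ∀ g : R.O, B₁.red ⟨α (g : FM), hα g⟩ = R.red g)
    (hβ : ∀ g : R.O, β (g : FM) ∈ B₁.O) : RedOne R α β where
  O := B₁.O
  red := B₁.red
  red_eq_zero_iff := B₁.red_eq_zero_iff
  α_mem := hα
  red_α := hredα
  β_mem := hβ

open Classical in
/-- the partial specialisation map onto the type-1 generic discs -/
def rOne (r : Place L FM → Place k Fk) (ra : Restr L α) (rb : Restr L β)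
    (Fr : Place k Fk → Place k Fk) (good : Set (Place k Fk)) (P : Place L F) :
    Option (Place k Fk) :=
  if r (ra.res P) ∈ good ∧ r (rb.res P) = Fr (r (ra.res P)) then some (r (ra.res P)) else none

theorem rOne_eq_some_iff (ra : Restr L α) (rb : Restr L β) (Fr : Place k Fk → Place k Fk)
    (good : Set (Place k Fk)) (P : Place L F) (Q : Place k Fk) :
    rOne r ra rb Fr good P = some Q ↔ Q ∈ good ∧ r (ra.res P) = Q ∧ r (rb.res P) = Fr Q := by
  classical
  unfold rOne
  split_ifs with h
  · constructor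
    · intro hQ
      have : r (ra.res P) = Q := Option.some.inj hQ
      rw [← this]
      exact ⟨h.1, rfl, h.2⟩
    · rintro ⟨-, h2, -⟩
      rw [h2]
  · constructor
    · intro hQ
      exact absurd hQ (by simp)
    · rintro ⟨h1, h2, h3⟩
      exact absurd ⟨h2 ▸ h1, h2 ▸ h3⟩ h

variable [HasPrincipalDivisors L FM] [HasPrincipalDivisors L F]

/-- **the first component as a `SmoothRed`** -/
def smoothRedOfGeneric (B₁ : Branch A π F Fk) (hα : ∀ g : R.O, α (g : FM) ∈ B₁.O)
    (hredα : ∀ g : R.O, B₁.red ⟨α (g : FM), hα g⟩ = R.red g)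
    (hβ : ∀ g : R.O, β (g : FM) ∈ B₁.O) (ra : Restr L α) (rb : Restr L β)
    (Fr Frm : Place k Fk → Place k Fk) (good : Set (Place k Fk))
    (hgen : ∀ Q ∈ good, GenericAt ra rb (redOneOfBranch B₁ hα hredα hβ) Q (Fr Q) (Frm Q)) :
    SmoothRed A π F Fk where
  toBranch := B₁
  r := rOne r ra rb Fr good
  good := good
  compat u D hD Q hQ := by
    classical
    rw [Fermat.Agent.S18.Disc.mapDomain_apply_eq_sum]
    have key := ord_red_eq_sum (hgen Q hQ) u
      (D.support.filter fun P => rOne r ra rb Fr good P = some Q)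
      (fun P hP => by
        have h := (rOne_eq_some_iff ra rb Fr good P Q).mp (Finset.mem_filter.mp hP).2
        exact ⟨h.2.1, h.2.2⟩)
      (fun P hP hP1 hne => by
        rw [Finset.mem_filter, Finsupp.mem_support_iff, hD]
        exact ⟨hne, (rOne_eq_some_iff ra rb Fr good P Q).mpr ⟨hQ, hP, hP1⟩⟩)
    rw [show B₁.red (u : B₁.O) = (redOneOfBranch B₁ hα hredα hβ).red (u : B₁.O) from rfl, key]
    exact Finset.sum_congr rfl fun P _ => hD P

@[simp] theorem smoothRedOfGeneric_r (B₁ : Branch A π F Fk) (hα : ∀ g : R.O, α (g : FM) ∈ B₁.O)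
    (hredα : ∀ g : R.O, B₁.red ⟨α (g : FM), hα g⟩ = R.red g)
    (hβ : ∀ g : R.O, β (g : FM) ∈ B₁.O) (ra : Restr L α) (rb : Restr L β)
    (Fr Frm : Place k Fk → Place k Fk) (good : Set (Place k Fk))
    (hgen : ∀ Q ∈ good, GenericAt ra rb (redOneOfBranch B₁ hα hredα hβ) Q (Fr Q) (Frm Q)) :
    (smoothRedOfGeneric B₁ hα hredα hβ ra rb Fr Frm good hgen).r = rOne r ra rb Fr good := rfl

@[simp] theorem smoothRedOfGeneric_good (B₁ : Branch A π F Fk)
    (hα : ∀ g : R.O, α (g : FM) ∈ B₁.O)
    (hredα : ∀ g : R.O, B₁.red ⟨α (g : FM), hα g⟩ = R.red g)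
    (hβ : ∀ g : R.O, β (g : FM) ∈ B₁.O) (ra : Restr L α) (rb : Restr L β)
    (Fr Frm : Place k Fk → Place k Fk) (good : Set (Place k Fk))
    (hgen : ∀ Q ∈ good, GenericAt ra rb (redOneOfBranch B₁ hα hredα hβ) Q (Fr Q) (Frm Q)) :
    (smoothRedOfGeneric B₁ hα hredα hβ ra rb Fr Frm good hgen).good = good := rfl

@[simp] theorem smoothRedOfGeneric_toBranch (B₁ : Branch A π F Fk)
    (hα : ∀ g : R.O, α (g : FM) ∈ B₁.O)
    (hredα : ∀ g : R.O, B₁.red ⟨α (g : FM), hα g⟩ = R.red g)
    (hβ : ∀ g : R.O, β (g : FM) ∈ B₁.O) (ra : Restr L α) (rb : Restr L β)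
    (Fr Frm : Place k Fk → Place k Fk) (good : Set (Place k Fk))
    (hgen : ∀ Q ∈ good, GenericAt ra rb (redOneOfBranch B₁ hα hredα hβ) Q (Fr Q) (Frm Q)) :
    (smoothRedOfGeneric B₁ hα hredα hβ ra rb Fr Frm good hgen).toBranch = B₁ := rfl

/-! ### Transport along an automorphism -/

section Transport

variable {F' : Type*} [Field F'] [Algebra L F']

/-- the ring isomorphism `O.comap w ≃ O` induced by an automorphism `w` -/
def comapEquiv (O : ValuationSubring F') (w : F' ≃ₐ[L] F') :
    (O.comap (w : F' →+* F')) ≃+* O where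
  toFun x := ⟨w (x : F'), x.2⟩
  invFun y := ⟨w.symm (y : F'), by
    rw [ValuationSubring.mem_comap]
    simp⟩
  left_inv x := by ext; simp
  right_inv y := by ext; simp
  map_mul' x y := by ext; simp
  map_add' x y := by ext; simp

@[simp] theorem coe_comapEquiv (O : ValuationSubring F') (w : F' ≃ₐ[L] F')
    (x : O.comap (w : F' →+* F')) : ((comapEquiv O w x : O) : F') = w (x : F') := rfl

@[simp] theorem coe_comapEquiv_symm (O : ValuationSubring F') (w : F' ≃ₐ[L] F') (y : O) :
    (((comapEquiv O w).symm y : O.comap (w : F' →+* F')) : F') = w.symm (y : F') := rfl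

/-- transport of a branch along an automorphism -/
def branchComap (B : Branch A π F' Fk) (w : F' ≃ₐ[L] F') : Branch A π F' Fk where
  O := B.O.comap (w : F' →+* F')
  red := B.red.comp (comapEquiv B.O w : _ →+* _)
  algebraMap_mem a := by
    rw [ValuationSubring.mem_comap]
    have : (w : F' →+* F') (algebraMap L F' (a : L)) = algebraMap L F' (a : L) := w.commutes _
    rw [this]
    exact B.algebraMap_mem a
  red_algebraMap a := by
    rw [RingHom.comp_apply, ← B.red_algebraMap a]
    congr 1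
    apply Subtype.ext
    exact w.commutes _
  red_eq_zero_iff u := by
    rw [RingHom.comp_apply, B.red_eq_zero_iff]
    exact not_congr (MulEquiv.isUnit_map (comapEquiv B.O w))
  exists_const_mul_unit f hf := by
    obtain ⟨c, hc, u, hu⟩ := B.exists_const_mul_unit (w f) ((map_ne_zero w).mpr hf)
    refine ⟨c, hc, Units.map ((comapEquiv B.O w).symm : B.O →* _) u, ?_⟩
    have h1 : f = w.symm (w f) := (w.symm_apply_apply f).symm
    rw [h1, hu, map_mul, w.symm.commutes]
    rfl
  mem_of_algebraMap_mem c hc := by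
    apply B.mem_of_algebraMap_mem c
    rw [ValuationSubring.mem_comap] at hc
    have : (w : F' →+* F') (algebraMap L F' c) = algebraMap L F' c := w.commutes _
    rwa [this] at hc

/-- the compatibility of the transported datum -/
theorem compat_comap (R₁ : SmoothRed A π F' Fk) (w : F' ≃ₐ[L] F')
    (u : ((branchComap R₁.toBranch w).O)ˣ) (D : Divisor L F')
    (hD : ∀ P : Place L F', D P = P.ord ((u : (branchComap R₁.toBranch w).O) : F'))
    (Q : Place k Fk) (hQ : Q ∈ R₁.good) :
    Finsupp.mapDomain (fun P => R₁.r (SemilinearAut.ofAlgAut w • P)) D (some Q) =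
      Q.ord ((branchComap R₁.toBranch w).red (u : (branchComap R₁.toBranch w).O)) := by
  set gw : SemilinearAut L F' := SemilinearAut.ofAlgAut w with hgw
  set u' : (R₁.O)ˣ := Units.map
    (((comapEquiv R₁.O w : (R₁.O.comap (w : F' →+* F')) ≃+* R₁.O) :
      (R₁.O.comap (w : F' →+* F')) →+* R₁.O) : (R₁.O.comap (w : F' →+* F')) →* R₁.O) u with hu'
  have hu'coe : (((u' : R₁.O)) : F') = w ((u : (branchComap R₁.toBranch w).O) : F') := rfl
  have hD' : ∀ P' : Place L F', (gw • D) P' = P'.ord (((u' : R₁.O)) : F') := by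
    intro P'
    rw [SemilinearAut.divisor_smul_apply, hD, hu'coe]
    have h2 := SemilinearAut.ord_smul gw (gw⁻¹ • P')
      ((u : (branchComap R₁.toBranch w).O) : F')
    rw [smul_inv_smul] at h2
    rw [← h2]
    rfl
  have h1 := R₁.compat u' (gw • D) hD' Q hQ
  rw [SemilinearAut.divisor_smul_def, ← Finsupp.mapDomain_comp] at h1
  exact h1

/-- **transport of a `SmoothRed` along an automorphism** (`r P := r₁ (w • P)`) -/
def smoothRedComap (R₁ : SmoothRed A π F' Fk) (w : F' ≃ₐ[L] F') : SmoothRed A π F' Fk where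
  toBranch := branchComap R₁.toBranch w
  r P := R₁.r (SemilinearAut.ofAlgAut w • P)
  good := R₁.good
  compat u D hD Q hQ := compat_comap R₁ w u D hD Q hQ

@[simp] theorem smoothRedComap_r (R₁ : SmoothRed A π F' Fk) (w : F' ≃ₐ[L] F') (P : Place L F') :
    (smoothRedComap R₁ w).r P = R₁.r (SemilinearAut.ofAlgAut w • P) := rfl

@[simp] theorem smoothRedComap_good (R₁ : SmoothRed A π F' Fk) (w : F' ≃ₐ[L] F') :
    (smoothRedComap R₁ w).good = R₁.good := rfl

theorem smoothRedComap_O (R₁ : SmoothRed A π F' Fk) (w : F' ≃ₐ[L] F') :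
    (smoothRedComap R₁ w).O = R₁.O.comap (w : F' →+* F') := rfl

theorem smoothRedComap_red (R₁ : SmoothRed A π F' Fk) (w : F' ≃ₐ[L] F')
    (x : (smoothRedComap R₁ w).O) :
    (smoothRedComap R₁ w).red x = R₁.red ⟨w (x : F'), x.2⟩ := rfl

end Transport

end Fermat.Agent.S34.Generic.SmoothRedOfGeneric
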