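import Mathlib
import Fermat.Agent.S34.Generic.SmoothRedOfGeneric
import Fermat.Agent.S34.Generic.RestrAlong
import Fermat.Agent.S34.WqGalois

/-!
# PROJECT U (S34): the swap of the two components under an involution `w` (`w = w_q`)

Setting of `Generic/SmoothRedOfGeneric.lean` (helper10): the first component is
`R₁ = smoothRedOfGeneric …` with partial specialisation map `rOne r ra rb Fr good`, the second one
is `R₂ = smoothRedComap R₁ w`.  Here `ra = restrAlong a ha`, `rb = restrAlong b hb` for two
integral embeddings `a b : FM →ₐ[L] F` and `w : F ≃ₐ[L] F` exchanges them: `w ∘ a = b`,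
`w ∘ b = a`.

* `resAlong_smul` : `resAlong a (w • P) = resAlong b P` (if `w ∘ b = a`);
* `rOne_smul` : `rOne r ra rb Fr good (w • P) = rOne r rb ra Fr good P`: the second component's
  map is the first one with the roles of `a` and `b` exchanged;
* `smoothRedComap_r_eq_some_iff` : `R₂.r P = some Q ↔ Q ∈ good ∧ r (P ∘ b) = Q ∧ r (P ∘ a) = Fr Q`;
* `excl_of_swap` : the field `excl` of `NodalDefs.GNodalDatum` for `(R₁, R₂)`, from
  `Fr (Fr Q) ≠ Q` on `good`;
* `rOne_eq_of_res`, `smoothRedComap_r_eq_of_res` : invariance of the two maps under a map of places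
  `τ` preserving `r ∘ res_a` and `r ∘ res_b` (hypotheses `hr1 hr2` of
  `GlueGNodal.glueG_of_inertia`);
* the instances at `w = w_q`, `a = heckeAlphaBar`, `b = heckeBetaBar`.
-/

set_option autoImplicit false
set_option linter.unusedSectionVars false

noncomputable section

namespace Fermat.Agent.S34.Generic.SwapX0

open AlgebraicCurve Fermat.Agent.S18.CoreDefs
open Fermat.Agent.S34.NodalDefs Fermat.Agent.S34.Generic.Compat
open Fermat.Agent.S34.Generic.RestrAlong Fermat.Agent.S34.Generic.SmoothRedOfGeneric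
open scoped Pointwise

variable {L : Type*} [Field L] {FM : Type*} [Field FM] [Algebra L FM]
variable {F : Type*} [Field F] [Algebra L F]
variable {k : Type*} [Field k] {Fk : Type*} [Field Fk] [Algebra k Fk]

/-! ### restriction of places and the involution -/

theorem mem_ofAlgAut_smul_iff (w : F ≃ₐ[L] F) (P : Place L F) (x : F) :
    x ∈ (SemilinearAut.ofAlgAut w • P).toValuationSubring ↔ w.symm x ∈ P.toValuationSubring := by
  rw [SemilinearAut.smul_toValuationSubring,
    ValuationSubring.mem_pointwise_smul_iff_inv_smul_mem]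
  rfl

/-- the place below `w • P` along `a` is the place below `P` along `b`, if `w ∘ b = a` -/
theorem resAlong_smul (a b : FM →ₐ[L] F) (ha : a.toRingHom.IsIntegral)
    (hb : b.toRingHom.IsIntegral) (w : F ≃ₐ[L] F) (hwb : ∀ g : FM, w (b g) = a g)
    (P : Place L F) :
    resAlong a ha (SemilinearAut.ofAlgAut w • P) = resAlong b hb P := by
  apply Place.ext
  ext g
  rw [mem_resAlong_iff, mem_resAlong_iff, mem_ofAlgAut_smul_iff, ← hwb g, AlgEquiv.symm_apply_apply]

variable (r : Place L FM → Place k Fk)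

/-- the partial specialisation map of the second component is that of the first one with the
roles of `a` and `b` exchanged -/
theorem rOne_smul (a b : FM →ₐ[L] F) (ha : a.toRingHom.IsIntegral)
    (hb : b.toRingHom.IsIntegral) (w : F ≃ₐ[L] F) (hwa : ∀ g : FM, w (a g) = b g)
    (hwb : ∀ g : FM, w (b g) = a g) (Fr : Place k Fk → Place k Fk) (good : Set (Place k Fk))
    (P : Place L F) :
    rOne r (restrAlong a ha) (restrAlong b hb) Fr good (SemilinearAut.ofAlgAut w • P) =
      rOne r (restrAlong b hb) (restrAlong a ha) Fr good P := by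
  unfold rOne
  rw [restrAlong_res, restrAlong_res, restrAlong_res, restrAlong_res,
    resAlong_smul a b ha hb w hwb P, resAlong_smul b a hb ha w hwa P]

theorem rOne_smul_eq_some_iff (a b : FM →ₐ[L] F) (ha : a.toRingHom.IsIntegral)
    (hb : b.toRingHom.IsIntegral) (w : F ≃ₐ[L] F) (hwa : ∀ g : FM, w (a g) = b g)
    (hwb : ∀ g : FM, w (b g) = a g) (Fr : Place k Fk → Place k Fk) (good : Set (Place k Fk))
    (P : Place L F) (Q : Place k Fk) :
    rOne r (restrAlong a ha) (restrAlong b hb) Fr good (SemilinearAut.ofAlgAut w • P) = some Q ↔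
      Q ∈ good ∧ r (resAlong b hb P) = Q ∧ r (resAlong a ha P) = Fr Q := by
  rw [rOne_smul r a b ha hb w hwa hwb Fr good P, rOne_eq_some_iff]
  rfl

/-! ### exclusivity -/

/-- a place cannot be of type 1 over a good place and of type 2 over a good place -/
theorem excl_of_rOne {a b : FM →+* F} (ra : Restr L a) (rb : Restr L b)
    (Fr : Place k Fk → Place k Fk) (good : Set (Place k Fk))
    (hFr : ∀ Q ∈ good, Fr (Fr Q) ≠ Q) (P : Place L F) (Q1 Q2 : Place k Fk)
    (h1 : rOne r ra rb Fr good P = some Q1) (h2 : rOne r rb ra Fr good P = some Q2) : False := by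
  obtain ⟨hg1, ha1, hb1⟩ := (rOne_eq_some_iff ra rb Fr good P Q1).mp h1
  obtain ⟨-, hb2, ha2⟩ := (rOne_eq_some_iff rb ra Fr good P Q2).mp h2
  apply hFr Q1 hg1
  rw [← hb1, hb2, ← ha2, ha1]

/-- **the field `excl` of `NodalDefs.GNodalDatum`** for `R₁` with `R₁.r = rOne …` and
`R₂ = smoothRedComap R₁ w` -/
theorem excl_of_swap {A : ValuationSubring L} {π : A →+* k} (a b : FM →ₐ[L] F)
    (ha : a.toRingHom.IsIntegral) (hb : b.toRingHom.IsIntegral) (w : F ≃ₐ[L] F)
    (hwa : ∀ g : FM, w (a g) = b g) (hwb : ∀ g : FM, w (b g) = a g)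
    (Fr : Place k Fk → Place k Fk) (good : Set (Place k Fk))
    (hFr : ∀ Q ∈ good, Fr (Fr Q) ≠ Q) (R₁ : SmoothRed A π F Fk)
    (hr : R₁.r = rOne r (restrAlong a ha) (restrAlong b hb) Fr good)
    (P : Place L F) (Q1 Q2 : Place k Fk) (h1 : R₁.r P = some Q1)
    (h2 : (smoothRedComap R₁ w).r P = some Q2) : False := by
  rw [hr] at h1
  rw [smoothRedComap_r, hr, rOne_smul r a b ha hb w hwa hwb Fr good P] at h2
  exact excl_of_rOne r _ _ Fr good hFr P Q1 Q2 h1 h2

/-- the second component's map in closed form -/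
theorem smoothRedComap_r_eq_some_iff {A : ValuationSubring L} {π : A →+* k} (a b : FM →ₐ[L] F)
    (ha : a.toRingHom.IsIntegral) (hb : b.toRingHom.IsIntegral) (w : F ≃ₐ[L] F)
    (hwa : ∀ g : FM, w (a g) = b g) (hwb : ∀ g : FM, w (b g) = a g)
    (Fr : Place k Fk → Place k Fk) (good : Set (Place k Fk)) (R₁ : SmoothRed A π F Fk)
    (hr : R₁.r = rOne r (restrAlong a ha) (restrAlong b hb) Fr good)
    (P : Place L F) (Q : Place k Fk) :
    (smoothRedComap R₁ w).r P = some Q ↔
      Q ∈ good ∧ r (resAlong b hb P) = Q ∧ r (resAlong a ha P) = Fr Q := by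
  rw [smoothRedComap_r, hr]
  exact rOne_smul_eq_some_iff r a b ha hb w hwa hwb Fr good P Q

/-! ### invariance under a map of places preserving the two specialisations -/

theorem rOne_eq_of_res {a b : FM →+* F} (ra : Restr L a) (rb : Restr L b)
    (Fr : Place k Fk → Place k Fk) (good : Set (Place k Fk)) (P P' : Place L F)
    (h1 : r (ra.res P') = r (ra.res P)) (h2 : r (rb.res P') = r (rb.res P)) :
    rOne r ra rb Fr good P' = rOne r ra rb Fr good P := by
  unfold rOne
  rw [h1, h2]

theorem smoothRedComap_r_eq_of_res {A : ValuationSubring L} {π : A →+* k} (a b : FM →ₐ[L] F)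
    (ha : a.toRingHom.IsIntegral) (hb : b.toRingHom.IsIntegral) (w : F ≃ₐ[L] F)
    (hwa : ∀ g : FM, w (a g) = b g) (hwb : ∀ g : FM, w (b g) = a g)
    (Fr : Place k Fk → Place k Fk) (good : Set (Place k Fk)) (R₁ : SmoothRed A π F Fk)
    (hr : R₁.r = rOne r (restrAlong a ha) (restrAlong b hb) Fr good) (P P' : Place L F)
    (h1 : r (resAlong a ha P') = r (resAlong a ha P))
    (h2 : r (resAlong b hb P') = r (resAlong b hb P)) :
    (smoothRedComap R₁ w).r P' = (smoothRedComap R₁ w).r P := by
  rw [smoothRedComap_r, smoothRedComap_r, hr, rOne_smul r a b ha hb w hwa hwb Fr good P,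
    rOne_smul r a b ha hb w hwa hwb Fr good P']
  exact rOne_eq_of_res r _ _ Fr good P P' h2 h1

/-! ### the instance `w = w_q` at `X₀(qM)` -/

section X0

open ModularCurve Fermat.Agent.S34.WqGalois

local notation "Kb" => AlgebraicClosure ℚ

variable {M q : ℕ} [NeZero M] [NeZero q] (hq : q.Prime) (hqM : ¬ q ∣ M)

theorem resAlong_alpha_wq (ha : (heckeAlphaBar Kb M q).toRingHom.IsIntegral)
    (hb : (heckeBetaBar Kb M q).toRingHom.IsIntegral)
    (P : Place Kb ↥(modularFunctionFieldBar (M * q))) :
    resAlong (heckeAlphaBar Kb M q) ha (SemilinearAut.ofAlgAut (wq M q hq hqM) • P) =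
      resAlong (heckeBetaBar Kb M q) hb P :=
  resAlong_smul _ _ ha hb _ (fun g => wq_beta hq hqM g) P

theorem resAlong_beta_wq (ha : (heckeAlphaBar Kb M q).toRingHom.IsIntegral)
    (hb : (heckeBetaBar Kb M q).toRingHom.IsIntegral)
    (P : Place Kb ↥(modularFunctionFieldBar (M * q))) :
    resAlong (heckeBetaBar Kb M q) hb (SemilinearAut.ofAlgAut (wq M q hq hqM) • P) =
      resAlong (heckeAlphaBar Kb M q) ha P :=
  resAlong_smul _ _ hb ha _ (fun g => wq_alpha hq hqM g) P

end X0

end Fermat.Agent.S34.Generic.SwapX0
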