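/-
PROJECT U (S34), slice (I3) (helper18): THE DICHOTOMY AT A GENERIC PLACE AND THE TYPE CRITERION,
abstract form (hypotheses first), for helper10's `Generic/Compat.GenericAt`.

Setting of `Generic/Compat.lean`: `R : RedDatum A π r` at level `M`, two embeddings
`α β : FM →+* F` with restriction data `ra rb`, two valuation rings `O₁ O₂` of `F`.

* Part A: the calculus of values `HasVal P y c` (`y(P) = c`).
* Part B: values at level `M` (`RegOn` ⟹ value in `A`, reduction of the value).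
* Part C: `dich`: for `P` over the `α`-disc of a generic `Q`, `r (P ∘ β) = Fr Q` or `Fr⁻¹ Q`.
* Part D: `type_iff`: the type is read off from the value of `β g` at `P`.
* Part E: the two auxiliary hypotheses `hm12` (`𝔪₁ ∩ 𝔪₂ = 𝔪_A (O₁ ∩ O₂)`) and `hval` (values in `A`)
  from the value groups and from helper10's `hint`.
-/
import Mathlib
import Fermat.Agent.S34.Generic.Compat
import Fermat.Agent.S18.CoreOrd

set_option autoImplicit false
set_option linter.unusedSectionVars false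

noncomputable section

namespace Fermat.Agent.S34.Generic.Dich

open AlgebraicCurve Fermat.Agent.S24.Ord Fermat.Agent.S18.CoreDefs
  Fermat.Agent.S18.Disc Fermat.Agent.S34.Generic.Compat

/-! ## Part A: values -/

section HasVal

variable {K E : Type*} [Field K] [Field E] [Algebra K E]

/-- `y(P) = c`: the function `y` is regular at `P` with value `c` -/
def HasVal (P : Place K E) (y : E) (c : K) : Prop :=
  P.adicValuation (y - algebraMap K E c) < 1

theorem hasVal_const (P : Place K E) (c : K) : HasVal P (algebraMap K E c) c := by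
  unfold HasVal
  rw [sub_self, map_zero]
  exact zero_lt_one

theorem hasVal_zero (P : Place K E) : HasVal P (0 : E) 0 := by
  have := hasVal_const P (0 : K)
  rwa [map_zero] at this

theorem hasVal_one (P : Place K E) : HasVal P (1 : E) 1 := by
  have := hasVal_const P (1 : K)
  rwa [map_one] at this

theorem adicValuation_const_le_one (P : Place K E) (c : K) :
    P.adicValuation (algebraMap K E c) ≤ 1 := (mem_iff P _).mp (P.algebraMap_mem' c)

variable {P : Place K E} {y z : E} {c d : K}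

theorem HasVal.le_one (h : HasVal P y c) : P.adicValuation y ≤ 1 := by
  have h1 : y = (y - algebraMap K E c) + algebraMap K E c := by ring
  rw [h1]
  exact (P.adicValuation.map_add _ _).trans (max_le h.le (adicValuation_const_le_one P c))

theorem HasVal.add (h : HasVal P y c) (h' : HasVal P z d) : HasVal P (y + z) (c + d) := by
  unfold HasVal at *
  have h1 : y + z - algebraMap K E (c + d)
      = (y - algebraMap K E c) + (z - algebraMap K E d) := by rw [map_add]; ring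
  rw [h1]
  exact (P.adicValuation.map_add _ _).trans_lt (max_lt h h')

theorem HasVal.neg (h : HasVal P y c) : HasVal P (-y) (-c) := by
  unfold HasVal at *
  have h1 : -y - algebraMap K E (-c) = -(y - algebraMap K E c) := by rw [map_neg]; ring
  rw [h1, Valuation.map_neg]
  exact h

theorem HasVal.sub (h : HasVal P y c) (h' : HasVal P z d) : HasVal P (y - z) (c - d) := by
  rw [sub_eq_add_neg, sub_eq_add_neg]
  exact h.add h'.neg

theorem HasVal.mul (h : HasVal P y c) (h' : HasVal P z d) : HasVal P (y * z) (c * d) := by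
  have hz := h'.le_one
  unfold HasVal at *
  have h1 : y * z - algebraMap K E (c * d)
      = (y - algebraMap K E c) * z + algebraMap K E c * (z - algebraMap K E d) := by
    rw [map_mul]; ring
  rw [h1]
  refine (P.adicValuation.map_add _ _).trans_lt (max_lt ?_ ?_)
  · rw [map_mul]
    calc P.adicValuation (y - algebraMap K E c) * P.adicValuation z
        ≤ P.adicValuation (y - algebraMap K E c) * 1 := mul_le_mul' le_rfl hz
      _ < 1 := by rwa [mul_one]
  · rw [map_mul]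
    calc P.adicValuation (algebraMap K E c) * P.adicValuation (z - algebraMap K E d)
        ≤ 1 * P.adicValuation (z - algebraMap K E d) :=
          mul_le_mul' (adicValuation_const_le_one P c) le_rfl
      _ < 1 := by rwa [one_mul]

theorem HasVal.pow (h : HasVal P y c) (n : ℕ) : HasVal P (y ^ n) (c ^ n) := by
  induction n with
  | zero => simpa using hasVal_one P
  | succ n ih => rw [pow_succ, pow_succ]; exact ih.mul h

theorem HasVal.const_mul (e : K) (h : HasVal P y c) : HasVal P (algebraMap K E e * y) (e * c) :=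
  (hasVal_const P e).mul h

theorem HasVal.sum {ι : Type*} (s : Finset ι) (f : ι → E) (g : ι → K)
    (h : ∀ i ∈ s, HasVal P (f i) (g i)) : HasVal P (∑ i ∈ s, f i) (∑ i ∈ s, g i) := by
  classical
  induction s using Finset.induction_on with
  | empty => simpa using hasVal_zero P
  | insert a s ha ih =>
    rw [Finset.sum_insert ha, Finset.sum_insert ha]
    exact (h a (Finset.mem_insert_self a s)).add
      (ih fun i hi => h i (Finset.mem_insert_of_mem hi))

/-- a constant with a zero is zero -/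
theorem const_eq_zero_of_lt_one (P : Place K E) {c : K}
    (h : P.adicValuation (algebraMap K E c) < 1) : c = 0 := by
  by_contra hc
  rw [adicValuation_algebraMap P hc] at h
  exact lt_irrefl _ h

/-- the value is unique -/
theorem HasVal.unique (h : HasVal P y c) (h' : HasVal P y d) : c = d := by
  have h1 := h'.sub h
  unfold HasVal at h1
  rw [sub_self, zero_sub, Valuation.map_neg] at h1
  have := const_eq_zero_of_lt_one P h1
  exact (sub_eq_zero.mp this).symm

theorem HasVal.congr {y' : E} (h : HasVal P y c) (hy : y = y') : HasVal P y' c := hy ▸ h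

/-- a regular function at a place of degree one has a value -/
theorem exists_hasVal (P : Place K E) (hP : P.deg = 1) {y : E} (hy : P.adicValuation y ≤ 1) :
    ∃ c : K, HasVal P y c := by
  rcases eq_or_ne y 0 with rfl | hy0
  · exact ⟨0, hasVal_zero P⟩
  have h0 : 0 ≤ P.ord y := (ord_nonneg_iff P hy0).mpr hy
  obtain ⟨c, hc | hc⟩ := Fermat.Agent.S18.CoreOrd.exists_value P hP h0
  · exact ⟨c, hc ▸ hasVal_const P c⟩
  · refine ⟨c, ?_⟩
    have hne : y - algebraMap K E c ≠ 0 := by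
      intro h
      rw [h, Place.ord_zero] at hc
      exact lt_irrefl _ hc
    exact (ord_pos_iff P hne).mp hc

/-- the value function (junk value `0` if there is no value) -/
def valAt (P : Place K E) (y : E) : K := by
  classical
  exact if h : ∃ c, HasVal P y c then h.choose else 0

theorem HasVal.valAt_eq (h : HasVal P y c) : valAt P y = c := by
  classical
  have hex : ∃ c, HasVal P y c := ⟨c, h⟩
  unfold valAt
  rw [dif_pos hex]
  exact hex.choose_spec.unique h

end HasVal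

/-! ## Part B: values at level `M`, and transfer along a restriction -/

variable {L : Type*} [Field L] {FM : Type*} [Field FM] [Algebra L FM]
variable {k : Type*} [Field k] {Fk : Type*} [Field Fk] [Algebra k Fk]
variable {A : ValuationSubring L} {π : A →+* k} {r : Place L FM → Place k Fk}
variable {F : Type*} [Field F] [Algebra L F]
variable [HasPrincipalDivisors L FM]

/-- a Gauss-integral function regular on the disc of `Q` has, at every point of the disc, a value
in `A`, and the reduction of the value is the value of the reduction -/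
theorem exists_hasVal_of_regOn (R : RedDatum A π r) (hdeg : ∀ P : Place L FM, P.deg = 1)
    (g : R.O) {Q : Place k Fk} (hreg : RegOn r (g : FM) Q) {P : Place L FM} (hP : r P = Q) :
    ∃ a : A, HasVal P (g : FM) (a : L) ∧ HasVal Q (R.red g) (π a) := by
  obtain ⟨c, hc⟩ := exists_hasVal P (hdeg P) (hreg P hP)
  have hcA : c ∈ A := value_mem' R g Q hreg P hP c hc
  exact ⟨⟨c, hcA⟩, hc, red_value R g Q hreg P hP ⟨c, hcA⟩ hc⟩

/-- the reduction of a function regular on the disc of `Q` has a value at `Q` -/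
theorem exists_hasVal_red (R : RedDatum A π r) (hdegk : ∀ Q : Place k Fk, Q.deg = 1)
    (g : R.O) {Q : Place k Fk} (hreg : RegOn r (g : FM) Q) :
    ∃ γ : k, HasVal Q (R.red g) γ :=
  exists_hasVal Q (hdegk Q) (red_regular R g Q hreg)

/-- transfer of values along a restriction of places -/
theorem hasVal_of_restr {a : FM →+* F} (ra : Restr L a)
    (ha : ∀ c : L, a (algebraMap L FM c) = algebraMap L F c) {P : Place L F} {g : FM} {c : L}
    (h : HasVal (ra.res P) g c) : HasVal P (a g) c := by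
  unfold HasVal at *
  have h1 : a g - algebraMap L F c = a (g - algebraMap L FM c) := by rw [map_sub, ha]
  rw [h1]
  rcases eq_or_ne (g - algebraMap L FM c) 0 with h0 | h0
  · rw [h0, map_zero, map_zero]; exact zero_lt_one
  · have h2 : 0 < (ra.res P).ord (g - algebraMap L FM c) := (ord_pos_iff _ h0).mpr h
    have h3 : a (g - algebraMap L FM c) ≠ 0 := (map_ne_zero a).mpr h0
    rw [← ord_pos_iff P h3, ra.ord_map]
    exact mul_pos (by exact_mod_cast ra.e_pos P) h2

/-! ## Part C: the dichotomy -/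

theorem mul_mem_nonunits' {E : Type*} [Field E] (V : ValuationSubring E) {a c : E} (ha : a ∈ V)
    (hc : c ∈ V.nonunits) : a * c ∈ V.nonunits := by
  rw [V.mem_nonunits_iff, map_mul]
  have h3 : V.valuation a ≤ 1 := (V.valuation_le_one_iff _).mpr ha
  have h4 : V.valuation c < 1 := V.mem_nonunits_iff.mp hc
  calc V.valuation a * V.valuation c ≤ 1 * V.valuation c := mul_le_mul' h3 le_rfl
    _ < 1 := by rwa [one_mul]

/-- the hypotheses of the dichotomy, for an abstract pair `(α, O₁)`, `(β, O₂)` -/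
structure DichHyp (R : RedDatum A π r) (α β : FM →+* F) (ra : Restr L α) (rb : Restr L β)
    (O₁ O₂ : ValuationSubring F) (φ : Fk →+* Fk) (Fr : Place k Fk → Place k Fk)
    (NC : Set (Place k Fk)) (B : Set R.O) : Prop where
  /-- `α`, `β` are `L`-linear -/
  α_const : ∀ c : L, α (algebraMap L FM c) = algebraMap L F c
  β_const : ∀ c : L, β (algebraMap L FM c) = algebraMap L F c
  /-- all places have degree one -/
  degM : ∀ P : Place L FM, P.deg = 1
  degk : ∀ Q : Place k Fk, Q.deg = 1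
  /-- the good ("non-cuspidal") places are stable under `Fr`, `Fr` is injective -/
  nc_fr : ∀ Q ∈ NC, Fr Q ∈ NC
  fr_inj : Function.Injective Fr
  /-- a place whose `α`-restriction is in a good disc has its `β`-restriction in a good disc -/
  nc_β : ∀ P : Place L F, r (ra.res P) ∈ NC → r (rb.res P) ∈ NC
  /-- the test functions: an additive family, regular on all good discs, stable under lifting of
  `φ`, whose reductions separate the good places -/
  B_add : ∀ g ∈ B, ∀ g' ∈ B, g + g' ∈ B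
  B_reg : ∀ g ∈ B, ∀ Q ∈ NC, RegOn r ((g : R.O) : FM) Q
  B_φ : ∀ g ∈ B, ∃ g' ∈ B, R.red g' = φ (R.red g)
  B_sep : ∀ Q₁ ∈ NC, ∀ Q₂ ∈ NC,
    (∀ g ∈ B, ∀ γ : k, HasVal Q₁ (R.red g) γ → HasVal Q₂ (R.red g) γ) → Q₁ = Q₂
  /-- the value rule `(φ y)(Q) = y(Fr Q)` -/
  φ_val : ∀ Q ∈ NC, ∀ (y : Fk) (γ : k), HasVal (Fr Q) y γ → HasVal Q (φ y) γ
  /-- the reduction dictionary, in congruence form -/
  α_mem₁ : ∀ g : R.O, α (g : FM) ∈ O₁
  β_mem₁ : ∀ g : R.O, β (g : FM) ∈ O₁
  α_mem₂ : ∀ g : R.O, α (g : FM) ∈ O₂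
  β_mem₂ : ∀ g : R.O, β (g : FM) ∈ O₂
  cong₁ : ∀ g g' : R.O, R.red g' = φ (R.red g) → β (g : FM) - α (g' : FM) ∈ O₁.nonunits
  cong₂ : ∀ g g' : R.O, R.red g' = φ (R.red g) → α (g : FM) - β (g' : FM) ∈ O₂.nonunits
  /-- `𝔪₁ ∩ 𝔪₂ = 𝔪_A (O₁ ∩ O₂)` -/
  hm12 : ∀ h₀ : F, h₀ ∈ O₁.nonunits → h₀ ∈ O₂.nonunits →
    ∃ c : A, π c = 0 ∧ ∃ h : F, h ∈ O₁ ∧ h ∈ O₂ ∧ h₀ = algebraMap L F (c : L) * h

variable {R : RedDatum A π r} {α β : FM →+* F} {ra : Restr L α} {rb : Restr L β}
  {O₁ O₂ : ValuationSubring F} {φ : Fk →+* Fk} {Fr : Place k Fk → Place k Fk}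
  {NC : Set (Place k Fk)} {B : Set R.O}

/-- the four values of a test pair at a place over a good disc -/
theorem DichHyp.exists_values (H : DichHyp R α β ra rb O₁ O₂ φ Fr NC B) {Q : Place k Fk}
    (hQ : Q ∈ NC) {g g' : R.O} (hg : g ∈ B) (hg' : g' ∈ B) {P : Place L F}
    (hP : r (ra.res P) = Q) :
    ∃ a a' b b' : A,
      HasVal P (α (g : FM)) (a : L) ∧ HasVal P (α (g' : FM)) (a' : L) ∧
      HasVal P (β (g : FM)) (b : L) ∧ HasVal P (β (g' : FM)) (b' : L) ∧
      HasVal Q (R.red g) (π a) ∧ HasVal Q (R.red g') (π a') ∧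
      HasVal (r (rb.res P)) (R.red g) (π b) ∧ HasVal (r (rb.res P)) (R.red g') (π b') := by
  have hQ' : r (rb.res P) ∈ NC := H.nc_β P (hP ▸ hQ)
  obtain ⟨a, ha1, ha2⟩ := exists_hasVal_of_regOn R H.degM g (H.B_reg g hg Q hQ) hP
  obtain ⟨a', ha'1, ha'2⟩ := exists_hasVal_of_regOn R H.degM g' (H.B_reg g' hg' Q hQ) hP
  obtain ⟨b, hb1, hb2⟩ := exists_hasVal_of_regOn R H.degM g (H.B_reg g hg _ hQ') rfl
  obtain ⟨b', hb'1, hb'2⟩ := exists_hasVal_of_regOn R H.degM g' (H.B_reg g' hg' _ hQ') rfl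
  exact ⟨a, a', b, b', hasVal_of_restr ra H.α_const ha1, hasVal_of_restr ra H.α_const ha'1,
    hasVal_of_restr rb H.β_const hb1, hasVal_of_restr rb H.β_const hb'1, ha2, ha'2, hb2, hb'2⟩

/-- **the key identity**: for a test pair `(g, g')`, `red g' = φ (red g)`, the product
`(g(Q') - g(Fr Q)) (g(Q) - g(Fr Q'))` vanishes, `Q' = r (P ∘ β)` -/
theorem DichHyp.key (H : DichHyp R α β ra rb O₁ O₂ φ Fr NC B) {Q : Place k Fk} (hQ : Q ∈ NC)
    (hval : ∀ h : F, h ∈ O₁ → h ∈ O₂ →
      (∀ P' : Place L F, r (ra.res P') = Q → P'.adicValuation h ≤ 1) →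
      ∀ P : Place L F, r (ra.res P) = Q → ∃ d : A, HasVal P h (d : L))
    {P : Place L F} (hP : r (ra.res P) = Q) {g : R.O} (hg : g ∈ B) :
    (valAt (r (rb.res P)) (R.red g) - valAt (Fr Q) (R.red g)) *
      (valAt Q (R.red g) - valAt (Fr (r (rb.res P))) (R.red g)) = 0 := by
  obtain ⟨g', hg', hφ⟩ := H.B_φ g hg
  have hQ' : r (rb.res P) ∈ NC := H.nc_β P (hP ▸ hQ)
  set h₀ : F := (β (g : FM) - α (g' : FM)) * (α (g : FM) - β (g' : FM)) with hh₀
  -- `h₀` has a value at every place over the disc of `Q`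
  have hval₀ : ∀ P' : Place L F, r (ra.res P') = Q → ∃ a a' b b' : A,
      HasVal P' h₀ (((b : L) - a') * ((a : L) - b')) ∧
      HasVal Q (R.red g) (π a) ∧ HasVal Q (R.red g') (π a') ∧
      HasVal (r (rb.res P')) (R.red g) (π b) ∧ HasVal (r (rb.res P')) (R.red g') (π b') := by
    intro P' hP'
    obtain ⟨a, a', b, b', h1, h2, h3, h4, h5, h6, h7, h8⟩ := H.exists_values hQ hg hg' hP'
    exact ⟨a, a', b, b', (h3.sub h2).mul (h1.sub h4), h5, h6, h7, h8⟩
  obtain ⟨a, a', b, b', hv, h5, h6, h7, h8⟩ := hval₀ P hP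
  -- `h₀ ∈ 𝔪₁ ∩ 𝔪₂`
  have hm1 : h₀ ∈ O₁.nonunits := by
    rw [hh₀, mul_comm]
    exact mul_mem_nonunits' O₁ (sub_mem (H.α_mem₁ g) (H.β_mem₁ g')) (H.cong₁ g g' hφ)
  have hm2 : h₀ ∈ O₂.nonunits :=
    mul_mem_nonunits' O₂ (sub_mem (H.β_mem₂ g) (H.α_mem₂ g')) (H.cong₂ g g' hφ)
  obtain ⟨c, hc, h, hh1, hh2, hh₀c⟩ := H.hm12 h₀ hm1 hm2
  -- the product of the values lies in `𝔪_A`
  have hprod : (π b - π a') * (π a - π b') = 0 := by
    rcases eq_or_ne (c : L) 0 with hc0 | hc0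
    · have h0 : h₀ = 0 := by rw [hh₀c, hc0, map_zero, zero_mul]
      have h1 := (hv.congr h0).unique (hasVal_zero P)
      have h2 : ((b - a') * (a - b') : A) = 0 := Subtype.ext (by push_cast; exact h1)
      have h3 := congrArg π h2
      simpa using h3
    · have hcF : algebraMap L F (c : L) ≠ 0 := (map_ne_zero _).mpr hc0
      have hh : h = h₀ * (algebraMap L F (c : L))⁻¹ := by
        rw [hh₀c]; field_simp
      have hreg : ∀ P' : Place L F, r (ra.res P') = Q → P'.adicValuation h ≤ 1 := by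
        intro P' hP'
        obtain ⟨_, _, _, _, hv', -⟩ := hval₀ P' hP'
        rw [hh, map_mul, map_inv₀, adicValuation_algebraMap P' hc0, inv_one, mul_one]
        exact hv'.le_one
      obtain ⟨d, hd⟩ := hval h hh1 hh2 hreg P hP
      have h1 : HasVal P h₀ ((c : L) * d) := (hd.const_mul (c : L)).congr hh₀c.symm
      have h2 := hv.unique h1
      have h3 : ((b - a') * (a - b') : A) = c * d := Subtype.ext (by push_cast; exact h2)
      have h4 := congrArg π h3
      rw [map_mul, map_mul, hc, zero_mul] at h4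
      simpa using h4
  -- identification of the four values
  have e1 : valAt (r (rb.res P)) (R.red g) = π b := h7.valAt_eq
  have e3 : valAt Q (R.red g) = π a := h5.valAt_eq
  have e2 : valAt (Fr Q) (R.red g) = π a' := by
    obtain ⟨γ, hγ⟩ := exists_hasVal_red R H.degk g (H.B_reg g hg _ (H.nc_fr Q hQ))
    have h1 := H.φ_val Q hQ _ _ hγ
    rw [← hφ] at h1
    rw [hγ.valAt_eq]
    exact h1.unique h6
  have e4 : valAt (Fr (r (rb.res P))) (R.red g) = π b' := by
    obtain ⟨γ, hγ⟩ := exists_hasVal_red R H.degk g (H.B_reg g hg _ (H.nc_fr _ hQ'))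
    have h1 := H.φ_val _ hQ' _ _ hγ
    rw [← hφ] at h1
    rw [hγ.valAt_eq]
    exact h1.unique h8
  rw [e1, e2, e3, e4]
  exact hprod

/-- additivity of the value of the reduction on the test family -/
theorem DichHyp.valAt_add (H : DichHyp R α β ra rb O₁ O₂ φ Fr NC B) {Q : Place k Fk}
    (hQ : Q ∈ NC) {g₁ g₂ : R.O} (h₁ : g₁ ∈ B) (h₂ : g₂ ∈ B) :
    valAt Q (R.red (g₁ + g₂)) = valAt Q (R.red g₁) + valAt Q (R.red g₂) := by
  obtain ⟨γ₁, hγ₁⟩ := exists_hasVal_red R H.degk g₁ (H.B_reg g₁ h₁ Q hQ)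
  obtain ⟨γ₂, hγ₂⟩ := exists_hasVal_red R H.degk g₂ (H.B_reg g₂ h₂ Q hQ)
  have h := hγ₁.add hγ₂
  rw [← map_add] at h
  rw [h.valAt_eq, hγ₁.valAt_eq, hγ₂.valAt_eq]

/-- two places of the good set at which all test functions take the same values are equal -/
theorem DichHyp.eq_of_valAt_eq (H : DichHyp R α β ra rb O₁ O₂ φ Fr NC B) {Q₁ Q₂ : Place k Fk}
    (h₁ : Q₁ ∈ NC) (h₂ : Q₂ ∈ NC)
    (h : ∀ g ∈ B, valAt Q₁ (R.red g) = valAt Q₂ (R.red g)) : Q₁ = Q₂ := by
  refine H.B_sep Q₁ h₁ Q₂ h₂ fun g hg γ hγ => ?_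
  obtain ⟨γ', hγ'⟩ := exists_hasVal_red R H.degk g (H.B_reg g hg Q₂ h₂)
  have := h g hg
  rw [hγ.valAt_eq, hγ'.valAt_eq] at this
  rw [this]
  exact hγ'

/-- **THE DICHOTOMY**: for `P` over the `α`-disc of a good place `Q`, the place `Q' = r (P ∘ β)`
satisfies `Q' = Fr Q` (type 1) or `Fr Q' = Q` (type 2). -/
theorem DichHyp.dich' (H : DichHyp R α β ra rb O₁ O₂ φ Fr NC B) {Q : Place k Fk} (hQ : Q ∈ NC)
    (hval : ∀ h : F, h ∈ O₁ → h ∈ O₂ →
      (∀ P' : Place L F, r (ra.res P') = Q → P'.adicValuation h ≤ 1) →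
      ∀ P : Place L F, r (ra.res P) = Q → ∃ d : A, HasVal P h (d : L))
    (P : Place L F) (hP : r (ra.res P) = Q) :
    r (rb.res P) = Fr Q ∨ Fr (r (rb.res P)) = Q := by
  have hQ' : r (rb.res P) ∈ NC := H.nc_β P (hP ▸ hQ)
  set Q' := r (rb.res P) with hQ'def
  -- the two additive functionals
  set e₁ : R.O → k := fun g => valAt Q' (R.red g) - valAt (Fr Q) (R.red g) with he₁
  set e₂ : R.O → k := fun g => valAt Q (R.red g) - valAt (Fr Q') (R.red g) with he₂
  have hkey : ∀ g ∈ B, e₁ g * e₂ g = 0 := fun g hg => H.key hQ hval hP hg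
  have hadd₁ : ∀ g₁ ∈ B, ∀ g₂ ∈ B, e₁ (g₁ + g₂) = e₁ g₁ + e₁ g₂ := by
    intro g₁ h₁ g₂ h₂
    simp only [he₁]
    rw [H.valAt_add hQ' h₁ h₂, H.valAt_add (H.nc_fr Q hQ) h₁ h₂]
    ring
  have hadd₂ : ∀ g₁ ∈ B, ∀ g₂ ∈ B, e₂ (g₁ + g₂) = e₂ g₁ + e₂ g₂ := by
    intro g₁ h₁ g₂ h₂
    simp only [he₂]
    rw [H.valAt_add hQ h₁ h₂, H.valAt_add (H.nc_fr Q' hQ') h₁ h₂]
    ring
  have hor : (∀ g ∈ B, e₁ g = 0) ∨ (∀ g ∈ B, e₂ g = 0) := by
    by_contra hcon
    rw [not_or] at hcon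
    obtain ⟨hn1, hn2⟩ := hcon
    push Not at hn1 hn2
    obtain ⟨g₁, hg₁, h1⟩ := hn1
    obtain ⟨g₂, hg₂, h2⟩ := hn2
    have h1' : e₂ g₁ = 0 := (mul_eq_zero.mp (hkey g₁ hg₁)).resolve_left h1
    have h2' : e₁ g₂ = 0 := (mul_eq_zero.mp (hkey g₂ hg₂)).resolve_right h2
    have h3 := hkey (g₁ + g₂) (H.B_add g₁ hg₁ g₂ hg₂)
    rw [hadd₁ g₁ hg₁ g₂ hg₂, hadd₂ g₁ hg₁ g₂ hg₂, h1', h2', add_zero, zero_add] at h3
    exact (mul_ne_zero h1 h2) h3
  rcases hor with h | h
  · left
    exact H.eq_of_valAt_eq hQ' (H.nc_fr Q hQ) fun g hg => sub_eq_zero.mp (h g hg)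
  · right
    exact (H.eq_of_valAt_eq hQ (H.nc_fr Q' hQ') fun g hg => sub_eq_zero.mp (h g hg)).symm

/-- the dichotomy in the shape of `Generic/Compat.GenericAt.dich`: `FQ = Fr Q`, `Fr Qm = Q` -/
theorem DichHyp.dich (H : DichHyp R α β ra rb O₁ O₂ φ Fr NC B) {Q FQ Qm : Place k Fk}
    (hQ : Q ∈ NC) (hFQ : Fr Q = FQ) (hQm : Fr Qm = Q)
    (hval : ∀ h : F, h ∈ O₁ → h ∈ O₂ →
      (∀ P' : Place L F, r (ra.res P') = Q → P'.adicValuation h ≤ 1) →
      ∀ P : Place L F, r (ra.res P) = Q → ∃ d : A, HasVal P h (d : L)) :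
    ∀ P : Place L F, r (ra.res P) = Q → r (rb.res P) = FQ ∨ r (rb.res P) = Qm := by
  intro P hP
  rcases H.dich' hQ hval P hP with h | h
  · left; rw [h, hFQ]
  · right; exact H.fr_inj (h.trans hQm.symm)

/-! ## Part D: the type is read off from the value of `β g` at `P` -/

/-- the value of `β g` at `P` reduces to the value of `red g` at `r (P ∘ β)` -/
theorem DichHyp.hasVal_red_of_hasVal_β (H : DichHyp R α β ra rb O₁ O₂ φ Fr NC B)
    {Q : Place k Fk} (hQ : Q ∈ NC) {P : Place L F} (hP : r (ra.res P) = Q) {g : R.O}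
    (hg : g ∈ B) {b : A} (hb : HasVal P (β (g : FM)) (b : L)) :
    HasVal (r (rb.res P)) (R.red g) (π b) := by
  have hQ' : r (rb.res P) ∈ NC := H.nc_β P (hP ▸ hQ)
  obtain ⟨b', hb'1, hb'2⟩ := exists_hasVal_of_regOn R H.degM g (H.B_reg g hg _ hQ') rfl
  have h1 := hasVal_of_restr rb H.β_const hb'1
  have h2 : (b' : L) = b := h1.unique hb
  have h3 : b' = b := Subtype.ext h2
  rw [← h3]
  exact hb'2

/-- `β g` has a value in `A` at every place over a good `α`-disc -/
theorem DichHyp.exists_hasVal_β (H : DichHyp R α β ra rb O₁ O₂ φ Fr NC B)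
    {Q : Place k Fk} (hQ : Q ∈ NC) {P : Place L F} (hP : r (ra.res P) = Q) {g : R.O}
    (hg : g ∈ B) : ∃ b : A, HasVal P (β (g : FM)) (b : L) := by
  have hQ' : r (rb.res P) ∈ NC := H.nc_β P (hP ▸ hQ)
  obtain ⟨b', hb'1, -⟩ := exists_hasVal_of_regOn R H.degM g (H.B_reg g hg _ hQ') rfl
  exact ⟨b', hasVal_of_restr rb H.β_const hb'1⟩

/-- **THE TYPE CRITERION**: let `g` be a test function whose reduction takes different values
`γF ≠ γm` at `FQ` and `Qm`.  For `P` over the `α`-disc of `Q` and `b` the value of `β g` at `P`: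
`P` is of type 1 iff `b ≡ γF` modulo `𝔪_A`. -/
theorem DichHyp.type_iff (H : DichHyp R α β ra rb O₁ O₂ φ Fr NC B) {Q FQ Qm : Place k Fk}
    (hQ : Q ∈ NC) (hFQ : Fr Q = FQ) (hQm : Fr Qm = Q)
    (hval : ∀ h : F, h ∈ O₁ → h ∈ O₂ →
      (∀ P' : Place L F, r (ra.res P') = Q → P'.adicValuation h ≤ 1) →
      ∀ P : Place L F, r (ra.res P) = Q → ∃ d : A, HasVal P h (d : L))
    {g : R.O} (hg : g ∈ B) {γF γm : k} (hγF : HasVal FQ (R.red g) γF)
    (hγm : HasVal Qm (R.red g) γm) (hne : γF ≠ γm)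
    {P : Place L F} (hP : r (ra.res P) = Q) {b : A} (hb : HasVal P (β (g : FM)) (b : L)) :
    r (rb.res P) = FQ ↔ π b = γF := by
  have h1 := H.hasVal_red_of_hasVal_β hQ hP hg hb
  constructor
  · intro h
    rw [h] at h1
    exact h1.unique hγF
  · intro h
    rcases H.dich hQ hFQ hQm hval P hP with h2 | h2
    · exact h2
    · exfalso
      rw [h2] at h1
      exact hne (h ▸ (h1.unique hγm))

/-- the same with the value left implicit: type 1 iff SOME (equivalently every) value `b ∈ A` of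
`β g` at `P` reduces to `γF` -/
theorem DichHyp.type_iff_exists (H : DichHyp R α β ra rb O₁ O₂ φ Fr NC B) {Q FQ Qm : Place k Fk}
    (hQ : Q ∈ NC) (hFQ : Fr Q = FQ) (hQm : Fr Qm = Q)
    (hval : ∀ h : F, h ∈ O₁ → h ∈ O₂ →
      (∀ P' : Place L F, r (ra.res P') = Q → P'.adicValuation h ≤ 1) →
      ∀ P : Place L F, r (ra.res P) = Q → ∃ d : A, HasVal P h (d : L))
    {g : R.O} (hg : g ∈ B) {γF γm : k} (hγF : HasVal FQ (R.red g) γF)
    (hγm : HasVal Qm (R.red g) γm) (hne : γF ≠ γm)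
    {P : Place L F} (hP : r (ra.res P) = Q) :
    r (rb.res P) = FQ ↔ ∃ b : A, HasVal P (β (g : FM)) (b : L) ∧ π b = γF := by
  constructor
  · intro h
    obtain ⟨b, hb⟩ := H.exists_hasVal_β hQ hP hg
    exact ⟨b, hb, (H.type_iff hQ hFQ hQm hval hg hγF hγm hne hP hb).mp h⟩
  · rintro ⟨b, hb, hπ⟩
    exact (H.type_iff hQ hFQ hQm hval hg hγF hγm hne hP hb).mpr hπ

/-! ## Part E: the auxiliary hypotheses `hm12` and `hval` -/

/-- one half of `hm12_of_valuation` -/
theorem hm12_aux (R : RedDatum A π r) (O₁ O₂ : ValuationSubring F)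
    (hA₁ : ∀ c : L, algebraMap L F c ∈ O₁ ↔ c ∈ A)
    (hA₂ : ∀ c : L, algebraMap L F c ∈ O₂ ↔ c ∈ A) {h₀ : F} (h0 : h₀ ≠ 0)
    (hm1 : h₀ ∈ O₁.nonunits) {c₁ c₂ : L}
    (hc₁ : O₁.valuation h₀ = O₁.valuation (algebraMap L F c₁))
    (hc₂ : O₂.valuation h₀ = O₂.valuation (algebraMap L F c₂)) (hdiv : c₂ / c₁ ∈ A) :
    ∃ c : A, π c = 0 ∧ ∃ h : F, h ∈ O₁ ∧ h ∈ O₂ ∧ h₀ = algebraMap L F (c : L) * h := by
  have hc₁0 : c₁ ≠ 0 := by
    rintro rfl
    rw [map_zero, map_zero] at hc₁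
    exact h0 ((Valuation.zero_iff _).mp hc₁)
  have hc₁F : algebraMap L F c₁ ≠ 0 := (map_ne_zero _).mpr hc₁0
  have hlt : O₁.valuation (algebraMap L F c₁) < 1 := by
    rw [← hc₁]; exact O₁.mem_nonunits_iff.mp hm1
  have hc₁A : c₁ ∈ A := (hA₁ c₁).mp ((O₁.valuation_le_one_iff _).mp hlt.le)
  have hmax : (⟨c₁, hc₁A⟩ : A) ∈ IsLocalRing.maximalIdeal A := by
    rw [IsLocalRing.mem_maximalIdeal, mem_nonunits_iff]
    rintro ⟨u, hu⟩
    have h1 : ((u⁻¹ : Aˣ) : A) * ⟨c₁, hc₁A⟩ = 1 := by rw [← hu]; exact u.inv_mul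
    have h2 : (((u⁻¹ : Aˣ) : A) : L) * c₁ = 1 := by
      have := congrArg (fun x : A => (x : L)) h1
      simpa using this
    have h3 : algebraMap L F (((u⁻¹ : Aˣ) : A) : L) ∈ O₁ :=
      (hA₁ _).mpr ((u⁻¹ : Aˣ) : A).2
    have h4 : O₁.valuation (algebraMap L F (((u⁻¹ : Aˣ) : A) : L)) ≤ 1 :=
      (O₁.valuation_le_one_iff _).mpr h3
    have h5 : O₁.valuation (algebraMap L F (((u⁻¹ : Aˣ) : A) : L))
        * O₁.valuation (algebraMap L F c₁) = 1 := by
      rw [← map_mul, ← map_mul, h2, map_one, map_one]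
    have h6 : O₁.valuation (algebraMap L F (((u⁻¹ : Aˣ) : A) : L))
        * O₁.valuation (algebraMap L F c₁) < 1 :=
      calc _ ≤ 1 * O₁.valuation (algebraMap L F c₁) := mul_le_mul' h4 le_rfl
        _ < 1 := by rwa [one_mul]
    rw [h5] at h6
    exact lt_irrefl _ h6
  refine ⟨⟨c₁, hc₁A⟩, (pi_eq_zero_iff R _).mpr hmax, h₀ * (algebraMap L F c₁)⁻¹, ?_, ?_, ?_⟩
  · rw [← O₁.valuation_le_one_iff, map_mul, map_inv₀, hc₁,
      mul_inv_cancel₀ ((Valuation.ne_zero_iff _).mpr hc₁F)]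
  · rw [← O₂.valuation_le_one_iff, map_mul, map_inv₀, hc₂, ← map_inv₀, ← map_mul, ← map_inv₀,
      ← map_mul, ← div_eq_mul_inv, O₂.valuation_le_one_iff]
    exact (hA₂ _).mpr hdiv
  · show h₀ = algebraMap L F c₁ * (h₀ * (algebraMap L F c₁)⁻¹)
    field_simp

/-- **`𝔪₁ ∩ 𝔪₂ = 𝔪_A (O₁ ∩ O₂)`** when both value groups are attained on constants and
`O_i ∩ L = A` -/
theorem hm12_of_valuation (R : RedDatum A π r) (O₁ O₂ : ValuationSubring F)
    (hv₁ : ∀ f : F, f ≠ 0 → ∃ c : L, O₁.valuation f = O₁.valuation (algebraMap L F c))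
    (hv₂ : ∀ f : F, f ≠ 0 → ∃ c : L, O₂.valuation f = O₂.valuation (algebraMap L F c))
    (hA₁ : ∀ c : L, algebraMap L F c ∈ O₁ ↔ c ∈ A)
    (hA₂ : ∀ c : L, algebraMap L F c ∈ O₂ ↔ c ∈ A) :
    ∀ h₀ : F, h₀ ∈ O₁.nonunits → h₀ ∈ O₂.nonunits →
      ∃ c : A, π c = 0 ∧ ∃ h : F, h ∈ O₁ ∧ h ∈ O₂ ∧ h₀ = algebraMap L F (c : L) * h := by
  intro h₀ hm1 hm2
  rcases eq_or_ne h₀ 0 with rfl | h0
  · exact ⟨0, map_zero π, 0, O₁.zero_mem, O₂.zero_mem, by simp⟩
  obtain ⟨c₁, hc₁⟩ := hv₁ h₀ h0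
  obtain ⟨c₂, hc₂⟩ := hv₂ h₀ h0
  have hc₁0 : c₁ ≠ 0 := by
    rintro rfl
    rw [map_zero, map_zero] at hc₁
    exact h0 ((Valuation.zero_iff _).mp hc₁)
  have hc₂0 : c₂ ≠ 0 := by
    rintro rfl
    rw [map_zero, map_zero] at hc₂
    exact h0 ((Valuation.zero_iff _).mp hc₂)
  rcases A.mem_or_inv_mem (c₂ / c₁) with h | h
  · exact hm12_aux R O₁ O₂ hA₁ hA₂ h0 hm1 hc₁ hc₂ h
  · rw [inv_div] at h
    obtain ⟨c, hc, y, hy2, hy1, hy⟩ := hm12_aux R O₂ O₁ hA₂ hA₁ h0 hm2 hc₂ hc₁ h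
    exact ⟨c, hc, y, hy1, hy2, hy⟩

open Polynomial in
/-- **values in `A`** from helper10's integrality hypothesis `hint` -/
theorem hval_of_hint (R : RedDatum A π r) {α : FM →+* F} (ra : Restr L α)
    (hα : ∀ c : L, α (algebraMap L FM c) = algebraMap L F c)
    (hdegM : ∀ P : Place L FM, P.deg = 1) (hdegF : ∀ P : Place L F, P.deg = 1)
    (O₁ O₂ : ValuationSubring F) (Q : Place k Fk)
    (hint : ∀ h : F, h ∈ O₁ → h ∈ O₂ →
      (∀ P : Place L F, r (ra.res P) = Q → P.adicValuation h ≤ 1) →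
      ∃ p : (R.O)[X], p.Monic ∧ (∀ i, RegOn r ((p.coeff i : R.O) : FM) Q) ∧
        Polynomial.eval₂ (α.comp R.O.subtype) h p = 0) :
    ∀ h : F, h ∈ O₁ → h ∈ O₂ →
      (∀ P' : Place L F, r (ra.res P') = Q → P'.adicValuation h ≤ 1) →
      ∀ P : Place L F, r (ra.res P) = Q → ∃ d : A, HasVal P h (d : L) := by
  intro h h1 h2 hreg P hP
  obtain ⟨p, hp, hpreg, hroot⟩ := hint h h1 h2 hreg
  obtain ⟨d, hd⟩ := exists_hasVal P (hdegF P) (hreg P hP)
  -- values of the coefficients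
  have hex : ∀ i : ℕ, ∃ a : A, HasVal (ra.res P) ((p.coeff i : R.O) : FM) (a : L) := fun i => by
    obtain ⟨a, ha, -⟩ := exists_hasVal_of_regOn R hdegM (p.coeff i) (hpreg i) hP
    exact ⟨a, ha⟩
  choose a ha using hex
  set n := p.natDegree with hn
  have han : a n = 1 := by
    have h1 : p.coeff n = 1 := hp.coeff_natDegree
    have h2 := ha n
    rw [h1] at h2
    have h3 : HasVal (ra.res P) (((1 : R.O) : FM)) (1 : L) := by
      have := hasVal_one (ra.res P) (K := L) (E := FM)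
      simpa using this
    exact Subtype.ext (h2.unique h3)
  -- the equation for the value `d`
  have hsum : ∑ i ∈ Finset.range (n + 1), ((a i : A) : L) * d ^ i = 0 := by
    have h1 : HasVal P (Polynomial.eval₂ (α.comp R.O.subtype) h p)
        (∑ i ∈ Finset.range (n + 1), ((a i : A) : L) * d ^ i) := by
      rw [Polynomial.eval₂_eq_sum_range]
      refine HasVal.sum _ _ _ fun i _ => ?_
      exact (hasVal_of_restr ra hα (ha i)).mul (hd.pow i)
    rw [hroot] at h1
    exact (h1.unique (hasVal_zero P))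
  rw [Finset.sum_range_succ, han] at hsum
  have hdn : d ^ n = -∑ i ∈ Finset.range n, ((a i : A) : L) * d ^ i := by
    have : ((1 : A) : L) * d ^ n = d ^ n := by simp
    rw [this] at hsum
    exact eq_neg_of_add_eq_zero_right hsum
  -- `d ∈ A`
  by_contra hcon
  push Not at hcon
  have hdA : d ∉ A := fun hdA => hcon ⟨d, hdA⟩ hd
  have hv : 1 < A.valuation d := by
    rw [← not_le, A.valuation_le_one_iff]; exact hdA
  rcases Nat.eq_zero_or_pos n with hn0 | hnpos
  · rw [hn0] at hdn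
    simp at hdn
  · have hle : A.valuation (d ^ n) ≤ A.valuation d ^ (n - 1) := by
      rw [hdn, Valuation.map_neg]
      refine A.valuation.map_sum_le fun i hi => ?_
      rw [map_mul, map_pow]
      have h3 : A.valuation ((a i : A) : L) ≤ 1 := (A.valuation_le_one_iff _).mpr (a i).2
      have h4 : i ≤ n - 1 := Nat.le_sub_one_of_lt (Finset.mem_range.mp hi)
      calc A.valuation ((a i : A) : L) * A.valuation d ^ i
          ≤ 1 * A.valuation d ^ (n - 1) :=
            mul_le_mul' h3 (pow_le_pow_right₀ hv.le h4)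
        _ = A.valuation d ^ (n - 1) := one_mul _
    rw [map_pow] at hle
    have hlt : A.valuation d ^ (n - 1) < A.valuation d ^ n :=
      pow_lt_pow_right₀ hv (Nat.sub_lt hnpos one_pos)
    exact absurd hle (not_le.mpr hlt)

end Fermat.Agent.S34.Generic.Dich
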