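/-
PROJECT U (S34), ROUTE G, line (I2) of the integration checklist (helper24):
**INERTIA AT `q` ACTS TRIVIALLY ON THE SPECIALISATION OF THE PLACES OF `ℚ̄(X₀(M q))`.**

`A` a valuation ring of `ℚ̄` over a prime `q ∤ M`, `k = κ(A)`, `r` a place reduction of
`F = ℚ̄(X₀(M))` along `A` (`IsPlaceReductionAlong A (residue A) M r`, e.g. `r = placeMap H` for
Deuring's hypotheses `H : Hyp (gaussDatum M A hA hqM) gL gk`), `E = ℚ̄(X₀(M q))`, `α β : F → E` the two
degeneracy maps, `res_α`, `res_β` the restriction of places of `E` along them (`RestrAlong.resAlong`,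
definitionally the Prelude's `Place.restrictAlong`).  For `σ` in the inertia group of `A`,
`σ_E = arithmeticGalois (modularFunctionFieldFull (M q)) σ`, and every place `P` of `E`:

* `sp_smul_inertia` : `r (σ_F • P') = r P'` at level `M`;
* `sp_resAlpha_smul` : `r (res_α (σ_E • P)) = r (res_α P)`;
* `sp_resBeta_smul` : `r (res_β (σ_E • P)) = r (res_β P)`;
* `eAlong_alpha_smul`, `eAlong_beta_smul` : the ramification indices along `α`, `β` are invariant;
* `pair_smul` : every function of the pair `(r (res_α P), r (res_β P))` is invariant;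
* `partialSp`, `partialSp_smul`, `partialSp_eq_some_iff` : the PARTIAL specialisation map of type
  "`(Q, Fr Q)`, `Q` good" (the shape of `NodalDefs.SmoothRed.r` on the two components: component 1 is
  `partialSp r res_α res_β good Fr`, component 2 is `partialSp r res_β res_α good Fr`) is invariant;
* `placeMap_*` : the same for `r = placeMap H`.

The abstract part (`resAlong_smul`, `eAlong_smul`, `partialSp_smul_of_eq`) is stated for any pair of
intertwined semilinear automorphisms.
-/
import Mathlib
import Fermat.Agent.S34.Generic.RestrAlong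
import Fermat.Agent.S30.Arith.CorrEquivariant
import Fermat.Agent.S30.Arith.HeckeGalois
import Fermat.Agent.S37.Equivariance.PlaceEquiv
import Fermat.Agent.S37.ReductionInputs
import Fermat.Agent.S37.Gauss.Datum

set_option autoImplicit false
set_option linter.unusedSectionVars false
set_option linter.style.haveILetI false

noncomputable section

namespace Fermat.Agent.S34.Generic.InertiaSp

open AlgebraicCurve ModularCurve IsLocalRing
open Fermat.Agent.S34.Generic.RestrAlong

/-! ### Abstract part: restriction of places and intertwined automorphisms -/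

section Abstract

variable {L : Type*} [Field L] {FM : Type*} [Field FM] [Algebra L FM]
variable {F : Type*} [Field F] [Algebra L F]

/-- `resAlong` is the Prelude's `Place.restrictAlong` -/
theorem resAlong_eq_restrictAlong (φ : FM →ₐ[L] F) (hφ : φ.toRingHom.IsIntegral) (P : Place L F) :
    resAlong φ hφ P = P.restrictAlong φ hφ := rfl

/-- `eAlong` is the Prelude's `Place.ramificationIndexAlong` -/
theorem eAlong_eq_ramificationIndexAlong (φ : FM →ₐ[L] F) (P : Place L F) :
    eAlong φ P = Place.ramificationIndexAlong φ P := rfl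

/-- restriction of places commutes with intertwined semilinear automorphisms -/
theorem resAlong_smul (φ : FM →ₐ[L] F) (hφ : φ.toRingHom.IsIntegral)
    {g : SemilinearAut L FM} {g' : SemilinearAut L F}
    (h : ∀ x : FM, g' • φ x = φ (g • x)) (P : Place L F) :
    resAlong φ hφ (g' • P) = g • resAlong φ hφ P :=
  Fermat.Agent.S30.Arith.CorrEquivariant.restrictAlong_smul φ hφ (g := g) (g' := g') h P

/-- the ramification index is invariant under intertwined semilinear automorphisms -/
theorem eAlong_smul (φ : FM →ₐ[L] F) {g : SemilinearAut L FM} {g' : SemilinearAut L F}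
    (h : ∀ x : FM, g' • φ x = φ (g • x)) (P : Place L F) :
    eAlong φ (g' • P) = eAlong φ P :=
  Fermat.Agent.S30.Arith.CorrEquivariant.ramificationIndexAlong_smul φ (g := g) (g' := g') h P

end Abstract

/-! ### The partial specialisation maps -/

section PartialSp

variable {PE PM Pk : Type*}

open Classical in
/-- **The partial specialisation map of type "`(Q, Fr Q)` with `Q` good"**: `P ↦ some Q` if
`r (ra P) = Q` is good and `r (rb P) = Fr Q`, and `none` otherwise. -/
def partialSp (r : PM → Pk) (ra rb : PE → PM) (good : Set Pk) (Fr : Pk → Pk) (P : PE) :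
    Option Pk :=
  if r (ra P) ∈ good ∧ r (rb P) = Fr (r (ra P)) then some (r (ra P)) else none

theorem partialSp_eq_some_iff (r : PM → Pk) (ra rb : PE → PM) (good : Set Pk) (Fr : Pk → Pk)
    (P : PE) (Q : Pk) :
    partialSp r ra rb good Fr P = some Q ↔ r (ra P) = Q ∧ r (rb P) = Fr Q ∧ Q ∈ good := by
  classical
  unfold partialSp
  split_ifs with h
  · constructor
    · intro hQ
      have hQ' : r (ra P) = Q := Option.some.inj hQ
      exact ⟨hQ', hQ' ▸ h.2, hQ' ▸ h.1⟩
    · rintro ⟨h1, -, -⟩
      rw [h1]
  · constructor
    · intro hQ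
      exact absurd hQ (by simp)
    · rintro ⟨h1, h2, h3⟩
      exact absurd ⟨h1 ▸ h3, h1 ▸ h2⟩ h

theorem partialSp_eq_none_iff (r : PM → Pk) (ra rb : PE → PM) (good : Set Pk) (Fr : Pk → Pk)
    (P : PE) :
    partialSp r ra rb good Fr P = none ↔ ¬ (r (ra P) ∈ good ∧ r (rb P) = Fr (r (ra P))) := by
  classical
  unfold partialSp
  split_ifs with h
  · simp [h]
  · simp [h]

/-- the partial specialisation map only depends on the pair `(r (ra P), r (rb P))` -/
theorem partialSp_congr (r : PM → Pk) (ra rb : PE → PM) (good : Set Pk) (Fr : Pk → Pk)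
    {P P' : PE} (h1 : r (ra P') = r (ra P)) (h2 : r (rb P') = r (rb P)) :
    partialSp r ra rb good Fr P' = partialSp r ra rb good Fr P := by
  unfold partialSp
  rw [h1, h2]

end PartialSp

/-! ### Level `M`: inertia acts trivially on the specialisation of places -/

section X0

local notation "Kb" => AlgebraicClosure ℚ

open Fermat.Agent.S37.Equivariance.GaussEquiv Fermat.Agent.S37.Equivariance.CoeffAut
open Fermat.Agent.S37.Equivariance.PlaceEquiv
open Fermat.Agent.S37.Gauss.Datum Fermat.Agent.S37.Deuring.Core

set_option synthInstance.maxHeartbeats 400000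

/-- instance shortcut (as in `S37/Equivariance/PlaceEquiv`) -/
noncomputable local instance algShortcut (A : ValuationSubring Kb) (N : ℕ) [NeZero N] :
    Algebra (ResidueField A) ↥(modularFunctionFieldFullC (ResidueField A) N) :=
  SubalgebraClass.toAlgebra (modularFunctionFieldFullC (ResidueField A) N)

variable {q : ℕ} [hq : Fact q.Prime] {M : ℕ} [NeZero M] {A : ValuationSubring Kb}
variable {r : Place Kb ↥(modularFunctionFieldBar M) →
  Place (ResidueField A) ↥(modularFunctionFieldFullC (ResidueField A) M)}

/-- **Inertia acts trivially on the specialisation of the places of `ℚ̄(X₀(M))`.** -/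
theorem sp_smul_inertia (hA : A.LiesOverPrime q) (hqM : ¬ q ∣ M)
    (hr : IsPlaceReductionAlong A (residue A) M r)
    (hgen : PrincipalGeneratedByIntegral A (residue A) M)
    {σ : Kb ≃ₐ[ℚ] Kb} (hσ : σ ∈ A.inertiaSubgroupIn ℚ)
    (P : Place Kb ↥(modularFunctionFieldBar M)) :
    r (arithmeticGalois (modularFunctionFieldFull M) σ • P) = r P := by
  obtain ⟨g, rfl, hg⟩ := exists_of_mem_inertiaSubgroupIn A hσ
  rw [placeMap_smul hA hqM hr hgen g P, hg, map_one, one_smul]

variable [NeZero q]

/-- the coefficientwise Galois actions on `E` and `F` are intertwined by `α` -/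
theorem smul_alpha (σ : Kb ≃ₐ[ℚ] Kb) (x : ↥(modularFunctionFieldBar M)) :
    arithmeticGalois (modularFunctionFieldFull (M * q)) σ • heckeAlphaBar Kb M q x =
      heckeAlphaBar Kb M q (arithmeticGalois (modularFunctionFieldFull M) σ • x) :=
  Fermat.Agent.S30.Arith.HeckeGalois.intertwines_alpha (L := Kb) M q σ x

/-- the coefficientwise Galois actions on `E` and `F` are intertwined by `β` -/
theorem smul_beta (σ : Kb ≃ₐ[ℚ] Kb) (x : ↥(modularFunctionFieldBar M)) :
    arithmeticGalois (modularFunctionFieldFull (M * q)) σ • heckeBetaBar Kb M q x =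
      heckeBetaBar Kb M q (arithmeticGalois (modularFunctionFieldFull M) σ • x) :=
  Fermat.Agent.S30.Arith.HeckeGalois.intertwines_beta (L := Kb) M q σ x

/-- `res_α (σ_E • P) = σ_F • res_α P` -/
theorem resAlpha_smul (hα : (heckeAlphaBar Kb M q).toRingHom.IsIntegral) (σ : Kb ≃ₐ[ℚ] Kb)
    (P : Place Kb ↥(modularFunctionFieldBar (M * q))) :
    resAlong (heckeAlphaBar Kb M q) hα (arithmeticGalois (modularFunctionFieldFull (M * q)) σ • P) =
      arithmeticGalois (modularFunctionFieldFull M) σ • resAlong (heckeAlphaBar Kb M q) hα P :=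
  resAlong_smul (heckeAlphaBar Kb M q) hα (smul_alpha σ) P

/-- `res_β (σ_E • P) = σ_F • res_β P` -/
theorem resBeta_smul (hβ : (heckeBetaBar Kb M q).toRingHom.IsIntegral) (σ : Kb ≃ₐ[ℚ] Kb)
    (P : Place Kb ↥(modularFunctionFieldBar (M * q))) :
    resAlong (heckeBetaBar Kb M q) hβ (arithmeticGalois (modularFunctionFieldFull (M * q)) σ • P) =
      arithmeticGalois (modularFunctionFieldFull M) σ • resAlong (heckeBetaBar Kb M q) hβ P :=
  resAlong_smul (heckeBetaBar Kb M q) hβ (smul_beta σ) P

/-- the ramification index along `α` is Galois invariant -/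
theorem eAlong_alpha_smul (σ : Kb ≃ₐ[ℚ] Kb) (P : Place Kb ↥(modularFunctionFieldBar (M * q))) :
    eAlong (heckeAlphaBar Kb M q) (arithmeticGalois (modularFunctionFieldFull (M * q)) σ • P) =
      eAlong (heckeAlphaBar Kb M q) P :=
  eAlong_smul (heckeAlphaBar Kb M q) (smul_alpha σ) P

/-- the ramification index along `β` is Galois invariant -/
theorem eAlong_beta_smul (σ : Kb ≃ₐ[ℚ] Kb) (P : Place Kb ↥(modularFunctionFieldBar (M * q))) :
    eAlong (heckeBetaBar Kb M q) (arithmeticGalois (modularFunctionFieldFull (M * q)) σ • P) =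
      eAlong (heckeBetaBar Kb M q) P :=
  eAlong_smul (heckeBetaBar Kb M q) (smul_beta σ) P

section Level

variable (hA : A.LiesOverPrime q) (hqM : ¬ q ∣ M)
variable (hr : IsPlaceReductionAlong A (residue A) M r)
variable (hgen : PrincipalGeneratedByIntegral A (residue A) M)
variable (hα : (heckeAlphaBar Kb M q).toRingHom.IsIntegral)
variable (hβ : (heckeBetaBar Kb M q).toRingHom.IsIntegral)
variable {σ : Kb ≃ₐ[ℚ] Kb} (hσ : σ ∈ A.inertiaSubgroupIn ℚ)

include hA hqM hr hgen hσ

/-- **(I2), `α`-side**: `r (res_α (σ_E • P)) = r (res_α P)` for `σ` in the inertia group. -/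
theorem sp_resAlpha_smul (P : Place Kb ↥(modularFunctionFieldBar (M * q))) :
    r (resAlong (heckeAlphaBar Kb M q) hα
        (arithmeticGalois (modularFunctionFieldFull (M * q)) σ • P)) =
      r (resAlong (heckeAlphaBar Kb M q) hα P) := by
  rw [resAlpha_smul hα σ P, sp_smul_inertia hA hqM hr hgen hσ]

/-- **(I2), `β`-side**: `r (res_β (σ_E • P)) = r (res_β P)` for `σ` in the inertia group. -/
theorem sp_resBeta_smul (P : Place Kb ↥(modularFunctionFieldBar (M * q))) :
    r (resAlong (heckeBetaBar Kb M q) hβ
        (arithmeticGalois (modularFunctionFieldFull (M * q)) σ • P)) =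
      r (resAlong (heckeBetaBar Kb M q) hβ P) := by
  rw [resBeta_smul hβ σ P, sp_smul_inertia hA hqM hr hgen hσ]

/-- every function of the pair `(r (res_α P), r (res_β P))` is invariant under inertia -/
theorem pair_smul {X : Sort*}
    (Φ : Place (ResidueField A) ↥(modularFunctionFieldFullC (ResidueField A) M) →
      Place (ResidueField A) ↥(modularFunctionFieldFullC (ResidueField A) M) → X)
    (P : Place Kb ↥(modularFunctionFieldBar (M * q))) :
    Φ (r (resAlong (heckeAlphaBar Kb M q) hα
          (arithmeticGalois (modularFunctionFieldFull (M * q)) σ • P)))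
        (r (resAlong (heckeBetaBar Kb M q) hβ
          (arithmeticGalois (modularFunctionFieldFull (M * q)) σ • P))) =
      Φ (r (resAlong (heckeAlphaBar Kb M q) hα P)) (r (resAlong (heckeBetaBar Kb M q) hβ P)) := by
  rw [sp_resAlpha_smul hA hqM hr hgen hα hσ P, sp_resBeta_smul hA hqM hr hgen hβ hσ P]

/-- **(I2) for the first component**: the partial specialisation map
"`r (res_α P) = Q` good, `r (res_β P) = Fr Q`" is invariant under inertia. -/
theorem partialSp_one_smul
    (good : Set (Place (ResidueField A) ↥(modularFunctionFieldFullC (ResidueField A) M)))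
    (Fr : Place (ResidueField A) ↥(modularFunctionFieldFullC (ResidueField A) M) →
      Place (ResidueField A) ↥(modularFunctionFieldFullC (ResidueField A) M))
    (P : Place Kb ↥(modularFunctionFieldBar (M * q))) :
    partialSp r (resAlong (heckeAlphaBar Kb M q) hα) (resAlong (heckeBetaBar Kb M q) hβ) good Fr
        (arithmeticGalois (modularFunctionFieldFull (M * q)) σ • P) =
      partialSp r (resAlong (heckeAlphaBar Kb M q) hα) (resAlong (heckeBetaBar Kb M q) hβ) good Fr
        P :=
  partialSp_congr r _ _ good Fr (sp_resAlpha_smul hA hqM hr hgen hα hσ P)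
    (sp_resBeta_smul hA hqM hr hgen hβ hσ P)

/-- **(I2) for the second component**: the partial specialisation map
"`r (res_β P) = Q` good, `r (res_α P) = Fr Q`" is invariant under inertia. -/
theorem partialSp_two_smul
    (good : Set (Place (ResidueField A) ↥(modularFunctionFieldFullC (ResidueField A) M)))
    (Fr : Place (ResidueField A) ↥(modularFunctionFieldFullC (ResidueField A) M) →
      Place (ResidueField A) ↥(modularFunctionFieldFullC (ResidueField A) M))
    (P : Place Kb ↥(modularFunctionFieldBar (M * q))) :
    partialSp r (resAlong (heckeBetaBar Kb M q) hβ) (resAlong (heckeAlphaBar Kb M q) hα) good Fr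
        (arithmeticGalois (modularFunctionFieldFull (M * q)) σ • P) =
      partialSp r (resAlong (heckeBetaBar Kb M q) hβ) (resAlong (heckeAlphaBar Kb M q) hα) good Fr
        P :=
  partialSp_congr r _ _ good Fr (sp_resBeta_smul hA hqM hr hgen hβ hσ P)
    (sp_resAlpha_smul hA hqM hr hgen hα hσ P)

end Level

/-! ### The instance `r = placeMap H` (Deuring's place map of the Gauss datum at level `M`) -/

section PlaceMap

variable (hA : A.LiesOverPrime q) (hqM : ¬ q ∣ M) {gL gk : ℕ}

/-- Deuring's place map of the Gauss datum of `X₀(M)` at `q ∤ M` is a place reduction -/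
theorem isPlaceReductionAlong_placeMap
    [HasPrincipalDivisors Kb ↥(modularFunctionFieldBar M)]
    [HasPrincipalDivisors (ResidueField A) ↥(modularFunctionFieldFullC (ResidueField A) M)]
    [Infinite (ResidueField A)]
    (H : Hyp (gaussDatum M A hA hqM) gL gk) :
    IsPlaceReductionAlong A (residue A) M (placeMap H) :=
  Fermat.Agent.S37.ReductionInputs.isPlaceReductionAlong_of_hyp (hasRep M A hA hqM)
    (gaussDatum M A hA hqM) (fun _ => Iff.rfl) (fun _ _ _ => rfl) H

include hA hqM in
/-- principal divisors of `ℚ̄(X₀(M))` are generated by the divisors of integral functions -/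
theorem principalGeneratedByIntegral_X0
    [HasPrincipalDivisors Kb ↥(modularFunctionFieldBar M)] :
    PrincipalGeneratedByIntegral A (residue A) M :=
  Fermat.Agent.S37.ReductionInputs.principalGeneratedByIntegral_of_hasRep (hasRep M A hA hqM)

variable [HasPrincipalDivisors Kb ↥(modularFunctionFieldBar M)]
variable [HasPrincipalDivisors (ResidueField A) ↥(modularFunctionFieldFullC (ResidueField A) M)]
variable [Infinite (ResidueField A)]
variable (H : Hyp (gaussDatum M A hA hqM) gL gk)
variable (hα : (heckeAlphaBar Kb M q).toRingHom.IsIntegral)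
variable (hβ : (heckeBetaBar Kb M q).toRingHom.IsIntegral)
variable {σ : Kb ≃ₐ[ℚ] Kb} (hσ : σ ∈ A.inertiaSubgroupIn ℚ)

include hσ

/-- inertia acts trivially on Deuring's place map at level `M` -/
theorem placeMap_smul_inertia (P : Place Kb ↥(modularFunctionFieldBar M)) :
    placeMap H (arithmeticGalois (modularFunctionFieldFull M) σ • P) = placeMap H P :=
  sp_smul_inertia hA hqM (isPlaceReductionAlong_placeMap hA hqM H)
    (principalGeneratedByIntegral_X0 hA hqM) hσ P

/-- (I2), `α`-side, for Deuring's place map -/
theorem placeMap_resAlpha_smul (P : Place Kb ↥(modularFunctionFieldBar (M * q))) :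
    placeMap H (resAlong (heckeAlphaBar Kb M q) hα
        (arithmeticGalois (modularFunctionFieldFull (M * q)) σ • P)) =
      placeMap H (resAlong (heckeAlphaBar Kb M q) hα P) :=
  sp_resAlpha_smul hA hqM (isPlaceReductionAlong_placeMap hA hqM H)
    (principalGeneratedByIntegral_X0 hA hqM) hα hσ P

/-- (I2), `β`-side, for Deuring's place map -/
theorem placeMap_resBeta_smul (P : Place Kb ↥(modularFunctionFieldBar (M * q))) :
    placeMap H (resAlong (heckeBetaBar Kb M q) hβ
        (arithmeticGalois (modularFunctionFieldFull (M * q)) σ • P)) =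
      placeMap H (resAlong (heckeBetaBar Kb M q) hβ P) :=
  sp_resBeta_smul hA hqM (isPlaceReductionAlong_placeMap hA hqM H)
    (principalGeneratedByIntegral_X0 hA hqM) hβ hσ P

/-- (I2) for the first component, for Deuring's place map -/
theorem placeMap_partialSp_one_smul
    (good : Set (Place (ResidueField A) ↥(modularFunctionFieldFullC (ResidueField A) M)))
    (Fr : Place (ResidueField A) ↥(modularFunctionFieldFullC (ResidueField A) M) →
      Place (ResidueField A) ↥(modularFunctionFieldFullC (ResidueField A) M))
    (P : Place Kb ↥(modularFunctionFieldBar (M * q))) :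
    partialSp (placeMap H) (resAlong (heckeAlphaBar Kb M q) hα)
        (resAlong (heckeBetaBar Kb M q) hβ) good Fr
        (arithmeticGalois (modularFunctionFieldFull (M * q)) σ • P) =
      partialSp (placeMap H) (resAlong (heckeAlphaBar Kb M q) hα)
        (resAlong (heckeBetaBar Kb M q) hβ) good Fr P :=
  partialSp_one_smul hA hqM (isPlaceReductionAlong_placeMap hA hqM H)
    (principalGeneratedByIntegral_X0 hA hqM) hα hβ hσ good Fr P

/-- (I2) for the second component, for Deuring's place map -/
theorem placeMap_partialSp_two_smul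
    (good : Set (Place (ResidueField A) ↥(modularFunctionFieldFullC (ResidueField A) M)))
    (Fr : Place (ResidueField A) ↥(modularFunctionFieldFullC (ResidueField A) M) →
      Place (ResidueField A) ↥(modularFunctionFieldFullC (ResidueField A) M))
    (P : Place Kb ↥(modularFunctionFieldBar (M * q))) :
    partialSp (placeMap H) (resAlong (heckeBetaBar Kb M q) hβ)
        (resAlong (heckeAlphaBar Kb M q) hα) good Fr
        (arithmeticGalois (modularFunctionFieldFull (M * q)) σ • P) =
      partialSp (placeMap H) (resAlong (heckeBetaBar Kb M q) hβ)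
        (resAlong (heckeAlphaBar Kb M q) hα) good Fr P :=
  partialSp_two_smul hA hqM (isPlaceReductionAlong_placeMap hA hqM H)
    (principalGeneratedByIntegral_X0 hA hqM) hα hβ hσ good Fr P

end PlaceMap

end X0

end Fermat.Agent.S34.Generic.InertiaSp
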