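/-
PROJECT U (S34), ROUTE G (helper24): **the fields `r1_smul`, `r2_smul` of `CoreZX0Datum.X0Datum`**,
literally, for the two components built by helper10/helper9:

* `R₁` any `SmoothRed` of `E = ℚ̄(X₀(M q))` whose partial specialisation map is
  `rOne r (restrAlong α hα) (restrAlong β hβ) Fr good` (e.g. `smoothRedOfGeneric …`, for which this
  is `rfl`), `r` any place reduction of `ℚ̄(X₀(M))` along `A` (`q ∤ M`);
* `R₂ = smoothRedComap R₁ (wq M q hq hqM)`.

`r1_smul`, `r2_smul` : for `σ` in the inertia group of `A` and every place `P` of `E`,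
`R_i.r (σ_E • P) = R_i.r P`.  (`Generic/InertiaSp` + `Generic/SwapX0`.)
-/
import Mathlib
import Fermat.Agent.S34.Generic.InertiaSp
import Fermat.Agent.S34.Generic.SwapX0

set_option autoImplicit false
set_option linter.unusedSectionVars false
set_option linter.style.haveILetI false

noncomputable section

namespace Fermat.Agent.S34.Generic.InertiaSpSwap

open AlgebraicCurve ModularCurve IsLocalRing
open Fermat.Agent.S34.NodalDefs Fermat.Agent.S34.Generic.Compat
open Fermat.Agent.S34.Generic.RestrAlong Fermat.Agent.S34.Generic.SmoothRedOfGeneric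
open Fermat.Agent.S34.Generic.InertiaSp Fermat.Agent.S34.WqGalois

local notation "Kb" => AlgebraicClosure ℚ

set_option synthInstance.maxHeartbeats 400000

/-- instance shortcut (as in `S37/Equivariance/PlaceEquiv`) -/
noncomputable local instance algShortcut (A : ValuationSubring Kb) (N : ℕ) [NeZero N] :
    Algebra (ResidueField A) ↥(modularFunctionFieldFullC (ResidueField A) N) :=
  SubalgebraClass.toAlgebra (modularFunctionFieldFullC (ResidueField A) N)

variable {q : ℕ} [hq : Fact q.Prime] {M : ℕ} [NeZero M] [NeZero q] {A : ValuationSubring Kb}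
variable {r : Place Kb ↥(modularFunctionFieldBar M) →
  Place (ResidueField A) ↥(modularFunctionFieldFullC (ResidueField A) M)}
variable (hA : A.LiesOverPrime q) (hqM : ¬ q ∣ M)
variable (hr : IsPlaceReductionAlong A (residue A) M r)
variable (hgen : PrincipalGeneratedByIntegral A (residue A) M)
variable (hα : (heckeAlphaBar Kb M q).toRingHom.IsIntegral)
variable (hβ : (heckeBetaBar Kb M q).toRingHom.IsIntegral)
variable (Fr : Place (ResidueField A) ↥(modularFunctionFieldFullC (ResidueField A) M) →
  Place (ResidueField A) ↥(modularFunctionFieldFullC (ResidueField A) M))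
variable (good : Set (Place (ResidueField A) ↥(modularFunctionFieldFullC (ResidueField A) M)))

include hA hqM hr hgen

/-- the partial specialisation map `rOne` of the first component is invariant under inertia -/
theorem rOne_smul_inertia {σ : Kb ≃ₐ[ℚ] Kb} (hσ : σ ∈ A.inertiaSubgroupIn ℚ)
    (P : Place Kb ↥(modularFunctionFieldBar (M * q))) :
    rOne r (restrAlong (heckeAlphaBar Kb M q) hα) (restrAlong (heckeBetaBar Kb M q) hβ) Fr good
        (arithmeticGalois (modularFunctionFieldFull (M * q)) σ • P) =
      rOne r (restrAlong (heckeAlphaBar Kb M q) hα) (restrAlong (heckeBetaBar Kb M q) hβ) Fr good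
        P :=
  Fermat.Agent.S34.Generic.SwapX0.rOne_eq_of_res r _ _ Fr good P _
    (sp_resAlpha_smul hA hqM hr hgen hα hσ P) (sp_resBeta_smul hA hqM hr hgen hβ hσ P)

/-- the same with the roles of `α` and `β` exchanged (second component) -/
theorem rOne_swap_smul_inertia {σ : Kb ≃ₐ[ℚ] Kb} (hσ : σ ∈ A.inertiaSubgroupIn ℚ)
    (P : Place Kb ↥(modularFunctionFieldBar (M * q))) :
    rOne r (restrAlong (heckeBetaBar Kb M q) hβ) (restrAlong (heckeAlphaBar Kb M q) hα) Fr good
        (arithmeticGalois (modularFunctionFieldFull (M * q)) σ • P) =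
      rOne r (restrAlong (heckeBetaBar Kb M q) hβ) (restrAlong (heckeAlphaBar Kb M q) hα) Fr good
        P :=
  Fermat.Agent.S34.Generic.SwapX0.rOne_eq_of_res r _ _ Fr good P _
    (sp_resBeta_smul hA hqM hr hgen hβ hσ P) (sp_resAlpha_smul hA hqM hr hgen hα hσ P)

variable (R₁ : SmoothRed A (residue A) ↥(modularFunctionFieldBar (M * q))
  ↥(modularFunctionFieldFullC (ResidueField A) M))
variable (hR : R₁.r =
  rOne r (restrAlong (heckeAlphaBar Kb M q) hα) (restrAlong (heckeBetaBar Kb M q) hβ) Fr good)

include hR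

/-- **the field `r1_smul` of `CoreZX0Datum.X0Datum`** -/
theorem r1_smul : ∀ σ ∈ A.inertiaSubgroupIn ℚ,
    ∀ P : Place Kb ↥(modularFunctionFieldBar (M * q)),
      R₁.r (arithmeticGalois (modularFunctionFieldFull (M * q)) σ • P) = R₁.r P := by
  intro σ hσ P
  rw [hR]
  exact rOne_smul_inertia hA hqM hr hgen hα hβ Fr good hσ P

/-- **the field `r2_smul` of `CoreZX0Datum.X0Datum`**, for `R₂ = smoothRedComap R₁ w_q` -/
theorem r2_smul : ∀ σ ∈ A.inertiaSubgroupIn ℚ,
    ∀ P : Place Kb ↥(modularFunctionFieldBar (M * q)),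
      (smoothRedComap R₁ (wq M q hq.out hqM)).r
          (arithmeticGalois (modularFunctionFieldFull (M * q)) σ • P) =
        (smoothRedComap R₁ (wq M q hq.out hqM)).r P := by
  intro σ hσ P
  exact Fermat.Agent.S34.Generic.SwapX0.smoothRedComap_r_eq_of_res r
    (heckeAlphaBar Kb M q) (heckeBetaBar Kb M q) hα hβ (wq M q hq.out hqM)
    (fun g => wq_alpha hq.out hqM g) (fun g => wq_beta hq.out hqM g) Fr good R₁ hR P _
    (sp_resAlpha_smul hA hqM hr hgen hα hσ P) (sp_resBeta_smul hA hqM hr hgen hβ hσ P)

end Fermat.Agent.S34.Generic.InertiaSpSwap
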