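/-
PROJECT U (S34), Route G (helper10 #2280 (2)): **the concrete first branch at `X₀(qM)`** in the
binder shapes of `Generic/Assembly.genericAt_of_setup` / `SmoothRedOfGeneric.smoothRedOfGeneric`,
and its identification with the rings `Z1X0.V1X0`, `Z1X0.V2X0`.

* `B1X0 hA hqM : NodalDefs.Branch A (residue A) E κ_M := Branch.ofGaussDatum gaussDatumV₁`
  (`O = V₁`, `red = red₁`);
* `hα`, `hredα`, `hβ`, `hredβ` : `α g, β g ∈ (B1X0).O` for `g` in the level-`M` Gauss ring,
  `red (α g) = red g`, `red (β g) = FrobK.phi (red g)`;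
* `B1X0_O : (B1X0 hA hqM).O = Z1X0.V1X0 hA hqM`, `isExt₁`;
* `comap_wqHom : (B1X0 hA hqM).O.comap (WqGalois.wqHom M q _ hqM) = Z1X0.V2X0 hA hqM`,
  `isExt_comap`, and the value of `red₂` through `WqGalois.wq`.
-/
import Mathlib
import Fermat.Agent.S34.GaussPairX0
import Fermat.Agent.S34.GaussPairBridge
import Fermat.Agent.S34.WqGalois
import Fermat.Agent.S34.Z1X0
import Fermat.Agent.S34.FrobK
import Fermat.Agent.S34.BranchAux
import Fermat.Agent.S34.Generic.SmoothRedOfGeneric

set_option autoImplicit false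
set_option linter.unusedSectionVars false
set_option linter.style.haveILetI false

noncomputable section

namespace Fermat.Agent.S34.Generic.BranchX0

open ModularCurve AlgebraicCurve IsLocalRing
open Fermat.Agent.S37.Gauss.Datum
open Fermat.Agent.S34.TwoGaussX0 Fermat.Agent.S34.GaussPairX0 Fermat.Agent.S34.GaussPairBridge
open Fermat.Agent.S34.NodalDefs Fermat.Agent.S34.BranchAux

local notation "Kb" => AlgebraicClosure ℚ

set_option synthInstance.maxHeartbeats 400000

variable {q : ℕ} [hq : Fact q.Prime] {M : ℕ} [NeZero M] {A : ValuationSubring Kb}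
variable (hA : A.LiesOverPrime q) (hqM : ¬ q ∣ M) [NeZero q]

attribute [local instance] algFE

/-- **(a)** the first branch of `E = ℚ̄(X₀(M q))` over `q`: `O = V₁` (`t`-expansions with
`A`-integral coefficients, up to units), `red = red₁`. -/
def B1X0 : Branch A (residue ↥A) ↥(modularFunctionFieldBar (M * q))
    ↥(modularFunctionFieldFullC (ResidueField ↥A) M) :=
  Branch.ofGaussDatum (gaussDatumV₁ hA hqM)

@[simp] theorem B1X0_O_eq_V₁ : (B1X0 hA hqM).O = V₁ hA hqM := rfl

@[simp] theorem B1X0_red : (B1X0 hA hqM).red = red₁ hA hqM := rfl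

/-- **(b)** `α g ∈ O₁` -/
theorem hα (g : ↥(gaussDatum M A hA hqM).O) :
    heckeAlphaBar Kb M q (g : ↥(modularFunctionFieldBar M)) ∈ (B1X0 hA hqM).O :=
  (alpha_mem_V₁_iff hA hqM g).mpr g.2

/-- **(b)** `red₁ (α g) = red g` -/
theorem hredα (g : ↥(gaussDatum M A hA hqM).O) :
    (B1X0 hA hqM).red ⟨heckeAlphaBar Kb M q (g : ↥(modularFunctionFieldBar M)), hα hA hqM g⟩ =
      (gaussDatum M A hA hqM).red g :=
  red₁_alpha hA hqM g

/-- **(b)** `β g ∈ O₁` -/
theorem hβ (g : ↥(gaussDatum M A hA hqM).O) :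
    heckeBetaBar Kb M q (g : ↥(modularFunctionFieldBar M)) ∈ (B1X0 hA hqM).O :=
  beta_mem_V₁ hA hqM g.2

/-- **(b)** `red₁ (β g) = φ (red g)`, `φ = FrobK.phi` the `k`-linear Frobenius pull-back
(instances as binders: any `CharP` / `PerfectField` instance on `κ(A)` fits) -/
theorem hredβ [CharP (ResidueField ↥A) q] [PerfectField (ResidueField ↥A)]
    (g : ↥(gaussDatum M A hA hqM).O) :
    (B1X0 hA hqM).red ⟨heckeBetaBar Kb M q (g : ↥(modularFunctionFieldBar M)), hβ hA hqM g⟩ =
      Fermat.Agent.S34.FrobK.phi (ResidueField ↥A) M q ((gaussDatum M A hA hqM).red g) := by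
  apply Subtype.ext
  rw [Fermat.Agent.S34.FrobK.coe_phi]
  exact coe_red₁_beta hA hqM g

/-- `hredβ` as a statement about the ring hom `(phi : κ →+* κ)` -/
theorem hredβ' [CharP (ResidueField ↥A) q] [PerfectField (ResidueField ↥A)]
    (g : ↥(gaussDatum M A hA hqM).O) :
    (B1X0 hA hqM).red ⟨heckeBetaBar Kb M q (g : ↥(modularFunctionFieldBar M)), hβ hA hqM g⟩ =
      (Fermat.Agent.S34.FrobK.phi (ResidueField ↥A) M q :
        ↥(modularFunctionFieldFullC (ResidueField ↥A) M) →+*
          ↥(modularFunctionFieldFullC (ResidueField ↥A) M)) ((gaussDatum M A hA hqM).red g) :=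
  hredβ hA hqM g

include hA in
/-- the instances on `κ(A)` used by `FrobK` -/
theorem charP_residue : CharP (ResidueField ↥A) q := charP_res hA

theorem perfectField_residue : PerfectField (ResidueField ↥A) :=
  haveI := Fermat.Agent.S18.ResidueBasics.isAlgClosed_residueField A
  inferInstance

/-- **(c)** the first branch ring is `Z1X0.V1X0` -/
theorem B1X0_O : (B1X0 hA hqM).O = Fermat.Agent.S34.Z1X0.V1X0 hA hqM :=
  (V1X0_eq hA hqM).symm

/-- **(c)** `O₁` is the extension of type `G₁` -/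
theorem isExt₁ : (setupX0 hA hqM).IsExt (setupX0 hA hqM).G₁ (B1X0 hA hqM).O :=
  isExt_V₁ hA hqM

/-- **(d)** the `w_q`-transform (for `WqGalois.wq`) of the first branch ring is `GaussPairX0.V₂` -/
theorem comap_wqHom_eq_V₂ :
    (B1X0 hA hqM).O.comap (Fermat.Agent.S34.WqGalois.wqHom M q hq.out hqM) = V₂ hA hqM := by
  ext f
  rw [ValuationSubring.mem_comap, Fermat.Agent.S34.WqGalois.wqHom_apply, ← wq_eq hqM]
  exact Iff.rfl

/-- **(d)** the `w_q`-transform of the first branch ring is `Z1X0.V2X0` -/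
theorem comap_wqHom :
    (B1X0 hA hqM).O.comap (Fermat.Agent.S34.WqGalois.wqHom M q hq.out hqM) =
      Fermat.Agent.S34.Z1X0.V2X0 hA hqM := by
  rw [comap_wqHom_eq_V₂, V2X0_eq]

/-- **(d)** the `w_q`-transform of `O₁` is the extension of type `G₂` -/
theorem isExt_comap : (setupX0 hA hqM).IsExt (setupX0 hA hqM).G₂
    ((B1X0 hA hqM).O.comap (Fermat.Agent.S34.WqGalois.wqHom M q hq.out hqM)) := by
  rw [comap_wqHom_eq_V₂]
  exact isExt_V₂ hA hqM

/-- the same for the second branch `branchComap (B1X0) (WqGalois.wq)` of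
`SmoothRedOfGeneric.smoothRedComap` -/
theorem branchComap_O :
    (Fermat.Agent.S34.Generic.SmoothRedOfGeneric.branchComap (B1X0 hA hqM)
      (Fermat.Agent.S34.WqGalois.wq M q hq.out hqM)).O = Fermat.Agent.S34.Z1X0.V2X0 hA hqM := by
  rw [← comap_wqHom hA hqM]
  rfl

end Fermat.Agent.S34.Generic.BranchX0
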