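/-
PROJECT U (S34), Route G, `k`-side: **the non-generic places of `κ_M` are finitely many**.

`k` an algebraically closed (perfect) field of characteristic `q`,
`κ := modularFunctionFieldFullC k N ⊆ k((t))`, `j := jk k N`.

A place `Q` of `κ` is *generic* when it is not a cusp (`0 ≤ Q.ord j`) and its `j`-value does not
lie in `𝔽_(q²)` (no `c` with `c ^ (q ^ 2) = c` and `0 < Q.ord (j - c)`).

* `finite_nonGeneric` : the complement `{Q | Q.ord j < 0 ∨ ∃ c, c ^ (q ^ 2) = c ∧ 0 < Q.ord (j - c)}`
  is finite;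
* `IsGeneric`, `finite_compl_generic`, `not_generic_iff`;
* `existsUnique_value` : a place which is not a cusp has a unique `j`-value;
* `value_pow_eq_of_Fr_Fr_eq` : at a place with `Fr (Fr Q) = Q` the `j`-value is in `𝔽_(q²)`;
  hence `Fr_Fr_ne_of_generic` : generic places are not fixed by `Fr²`;
* `generic_Fr_iff` : the Frobenius on places preserves genericity;
* the instances at `k = ResidueField A` (`A` a valuation ring of `ℚ̄` over `q`):
  `finite_nonGeneric_residue`.
-/
import Mathlib
import Fermat.Agent.S34.FrobK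
import Fermat.Agent.S37.ReductionInputs
import Fermat.Agent.S18.ResidueBasics

set_option autoImplicit false
set_option linter.unusedSectionVars false
set_option linter.style.haveILetI false

noncomputable section

namespace Fermat.Agent.S34.Generic.FiniteNonGeneric

open AlgebraicCurve ModularCurve IsLocalRing
open Fermat.Agent.S34.FrobK
open Fermat.Agent.S18.B.FkBasics (jk)

variable (k : Type*) [Field k] (N : ℕ) [NeZero N]
variable (q : ℕ) [hq : Fact q.Prime] [CharP k q] [PerfectField k]

/-- `j - d ≠ 0` for every constant `d` (`j` is transcendental). -/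
theorem jk_sub_ne_zero (d : k) : jk k N - algebraMap k ↥(modularFunctionFieldFullC k N) d ≠ 0 := by
  have htr := Fermat.Agent.S18.B.FkBasics.transcendental_jk k N
  intro h0
  rw [sub_eq_zero.mp h0] at htr
  exact htr ⟨Polynomial.X - Polynomial.C d, Polynomial.X_sub_C_ne_zero d, by simp⟩

theorem jk_ne_zero' : jk k N ≠ 0 := by
  have htr := Fermat.Agent.S18.B.FkBasics.transcendental_jk k N
  intro h
  rw [h] at htr
  exact htr ⟨Polynomial.X, Polynomial.X_ne_zero, by simp⟩

/-- `j^(q²) - j = (j - c)^(q²) - (j - c)` when `c ∈ 𝔽_(q²)`. -/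
theorem fm_two_eq (c : k) (hc : c ^ (q ^ 2) = c) :
    fm k N q 2 = (jk k N - algebraMap k _ c) ^ q ^ 2 - (jk k N - algebraMap k _ c) := by
  haveI : CharP ↥(modularFunctionFieldFullC k N) q :=
    charP_of_injective_algebraMap (algebraMap k ↥(modularFunctionFieldFullC k N)).injective q
  rw [fm, sub_pow_char_pow, ← map_pow, hc]
  ring

/-- a zero of `j - c`, `c ∈ 𝔽_(q²)`, is a zero of `j^(q²) - j`. -/
theorem ord_fm_two_pos (v : Place k ↥(modularFunctionFieldFullC k N)) (c : k)
    (hc : c ^ (q ^ 2) = c) (hpos : 0 < v.ord (jk k N - algebraMap k _ c)) :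
    0 < v.ord (fm k N q 2) := by
  have hfm := fm_two_eq k N q c hc
  have hfm0 := fm_ne_zero k N q (m := 2) (by norm_num)
  have h1 : 0 < v.ord ((jk k N - algebraMap k _ c) ^ q ^ 2) := by
    rw [Fermat.Agent.S18.CoreOrd.ord_pow]
    have hqm : (0 : ℤ) < ((q ^ 2 : ℕ) : ℤ) := by
      exact_mod_cast pow_pos hq.out.pos 2
    exact mul_pos hqm hpos
  have h2 := Fermat.Agent.S18.CoreOrd.min_le_ord_sub v (f := (jk k N - algebraMap k _ c) ^ q ^ 2)
    (g := jk k N - algebraMap k _ c) (by rw [← hfm]; exact hfm0)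
  rw [← hfm] at h2
  exact lt_of_lt_of_le (lt_min h1 hpos) h2

/-- **Generic places**: not a cusp, `j`-value not in `𝔽_(q²)`. -/
def IsGeneric (Q : Place k ↥(modularFunctionFieldFullC k N)) : Prop :=
  0 ≤ Q.ord (jk k N) ∧ ∀ c : k, c ^ (q ^ 2) = c → Q.ord (jk k N - algebraMap k _ c) ≤ 0

theorem not_generic_iff (Q : Place k ↥(modularFunctionFieldFullC k N)) :
    ¬ IsGeneric k N q Q ↔
      (Q.ord (jk k N) < 0 ∨ ∃ c : k, c ^ (q ^ 2) = c ∧ 0 < Q.ord (jk k N - algebraMap k _ c)) := by
  unfold IsGeneric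
  constructor
  · intro h
    by_cases h0 : 0 ≤ Q.ord (jk k N)
    · right
      by_contra hno
      refine h ⟨h0, fun c hc => ?_⟩
      by_contra hlt
      exact hno ⟨c, hc, not_le.mp hlt⟩
    · exact Or.inl (not_le.mp h0)
  · rintro (h | ⟨c, hc, hpos⟩) ⟨h0, hall⟩
    · exact absurd h0 (not_le.mpr h)
    · exact absurd (hall c hc) (not_le.mpr hpos)

section Finite

variable [HasPrincipalDivisors k ↥(modularFunctionFieldFullC k N)]

/-- **The non-generic places (cusps and places with `j`-value in `𝔽_(q²)`) are finitely many.** -/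
theorem finite_nonGeneric :
    {Q : Place k ↥(modularFunctionFieldFullC k N) |
      Q.ord (jk k N) < 0 ∨
        ∃ c : k, c ^ (q ^ 2) = c ∧ 0 < Q.ord (jk k N - algebraMap k _ c)}.Finite := by
  have hfm0 := fm_ne_zero k N q (m := 2) (by norm_num)
  refine ((finite_ord_ne_zero k N (jk_ne_zero' k N)).union
    (finite_ord_ne_zero k N hfm0)).subset fun v hv => ?_
  rcases hv with hv | ⟨c, hc, hpos⟩
  · exact Or.inl (ne_of_lt hv)
  · exact Or.inr (ne_of_gt (ord_fm_two_pos k N q v c hc hpos))

/-- the complement of the generic places is finite -/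
theorem finite_compl_generic :
    {Q : Place k ↥(modularFunctionFieldFullC k N) | IsGeneric k N q Q}ᶜ.Finite := by
  refine (finite_nonGeneric k N q).subset fun Q hQ => ?_
  exact (not_generic_iff k N q Q).mp hQ

/-- the same, for any predicate `good` containing the generic places -/
theorem finite_compl_of_generic_subset
    {good : Set (Place k ↥(modularFunctionFieldFullC k N))}
    (h : ∀ Q, IsGeneric k N q Q → Q ∈ good) : goodᶜ.Finite :=
  (finite_compl_generic k N q).subset fun Q hQ hgen => hQ (h Q hgen)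

end Finite

/-! ### the `j`-value of a place -/

section Value

variable [IsAlgClosed k] [HasPrincipalDivisors k ↥(modularFunctionFieldFullC k N)]

omit [HasPrincipalDivisors k ↥(modularFunctionFieldFullC k N)] in
/-- a place which is not a cusp has a `j`-value -/
theorem exists_value (Q : Place k ↥(modularFunctionFieldFullC k N)) (hj : 0 ≤ Q.ord (jk k N)) :
    ∃ c : k, 0 < Q.ord (jk k N - algebraMap k _ c) := by
  obtain ⟨c, hc⟩ := Fermat.Agent.S24.Ord.exists_sub_lt_one
    (Fermat.Agent.S18.B.FkBasics.isFF k N) Q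
    ((Fermat.Agent.S24.Ord.ord_nonneg_iff Q (jk_ne_zero' k N)).mp hj)
  exact ⟨c, (Fermat.Agent.S24.Ord.ord_pos_iff Q (jk_sub_ne_zero k N c)).mpr hc⟩

omit [IsAlgClosed k] [HasPrincipalDivisors k ↥(modularFunctionFieldFullC k N)] in
/-- the `j`-value of a place is unique -/
theorem value_unique (Q : Place k ↥(modularFunctionFieldFullC k N)) {c d : k}
    (hc : 0 < Q.ord (jk k N - algebraMap k _ c)) (hd : 0 < Q.ord (jk k N - algebraMap k _ d)) :
    c = d := by
  by_contra hne
  have hdc : algebraMap k ↥(modularFunctionFieldFullC k N) d - algebraMap k _ c ≠ 0 := by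
    rw [← map_sub]
    exact (map_ne_zero_iff _ (algebraMap k ↥(modularFunctionFieldFullC k N)).injective).mpr
      (sub_ne_zero.mpr (Ne.symm hne))
  have h3 := Fermat.Agent.S18.CoreOrd.min_le_ord_sub Q
    (f := jk k N - algebraMap k _ c) (g := jk k N - algebraMap k _ d)
    (by rw [sub_sub_sub_cancel_left]; exact hdc)
  rw [sub_sub_sub_cancel_left, ← map_sub, Fermat.Agent.S24.Ord.ord_algebraMap] at h3
  exact absurd h3 (not_le.mpr (lt_min hc hd))

omit [HasPrincipalDivisors k ↥(modularFunctionFieldFullC k N)] in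
/-- **a place which is not a cusp has a unique `j`-value** -/
theorem existsUnique_value (Q : Place k ↥(modularFunctionFieldFullC k N))
    (hj : 0 ≤ Q.ord (jk k N)) :
    ∃! c : k, 0 < Q.ord (jk k N - algebraMap k _ c) := by
  obtain ⟨c, hc⟩ := exists_value k N Q hj
  exact ⟨c, hc, fun d hd => value_unique k N Q hd hc⟩

omit [IsAlgClosed k] [HasPrincipalDivisors k ↥(modularFunctionFieldFullC k N)] in
/-- a place with a `j`-value is not a cusp -/
theorem ord_jk_nonneg_of_value (Q : Place k ↥(modularFunctionFieldFullC k N)) {c : k}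
    (hc : 0 < Q.ord (jk k N - algebraMap k _ c)) : 0 ≤ Q.ord (jk k N) := by
  by_contra hneg
  have hneg' : Q.ord (jk k N) < 0 := not_le.mp hneg
  by_cases hc0 : c = 0
  · rw [hc0, map_zero, sub_zero] at hc
    exact absurd hc (not_lt.mpr hneg'.le)
  · have hcne : algebraMap k ↥(modularFunctionFieldFullC k N) c ≠ 0 :=
      (map_ne_zero_iff _ (algebraMap k ↥(modularFunctionFieldFullC k N)).injective).mpr hc0
    -- `c = j - (j - c)` has order `≥ min (ord j) (ord (j - c))`, and equality as they differ
    have h3 := Fermat.Agent.S18.CoreOrd.min_le_ord_sub Q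
      (f := jk k N) (g := jk k N - algebraMap k _ c) (by rw [sub_sub_cancel]; exact hcne)
    rw [sub_sub_cancel, Fermat.Agent.S24.Ord.ord_algebraMap] at h3
    -- so `min (ord j) (ord (j - c)) ≤ 0`; use the other direction on `j = (j - c) + c`
    have h4 := Fermat.Agent.S18.CoreOrd.min_le_ord_sub Q
      (f := jk k N - algebraMap k _ c) (g := -algebraMap k _ c)
      (by rw [sub_neg_eq_add, sub_add_cancel]; exact jk_ne_zero' k N)
    rw [sub_neg_eq_add, sub_add_cancel, Fermat.Agent.S18.CoreOrd.ord_neg',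
      Fermat.Agent.S24.Ord.ord_algebraMap] at h4
    have : 0 ≤ Q.ord (jk k N) := le_trans (le_min hc.le le_rfl) h4
    exact hneg this

/-- the `j`-value of `Fr Q` is the `q`-th power of the `j`-value of `Q` -/
theorem value_Fr (Q : Place k ↥(modularFunctionFieldFullC k N)) {c : k}
    (hc : 0 < Q.ord (jk k N - algebraMap k _ c)) :
    0 < (Fr k N q Q).ord (jk k N - algebraMap k _ (c ^ q)) := by
  rw [ord_Fr_jk_sub]
  exact hc

/-- **at a `Fr²`-fixed place the `j`-value lies in `𝔽_(q²)`** -/
theorem value_pow_eq_of_Fr_Fr_eq (Q : Place k ↥(modularFunctionFieldFullC k N))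
    (hQ : Fr k N q (Fr k N q Q) = Q) {c : k}
    (hc : 0 < Q.ord (jk k N - algebraMap k _ c)) : c ^ (q ^ 2) = c := by
  have h2 := value_Fr k N q (Fr k N q Q) (value_Fr k N q Q hc)
  rw [hQ] at h2
  have := value_unique k N Q h2 hc
  rw [pow_two, pow_mul]
  exact this

/-- **generic places are not fixed by `Fr²`** -/
theorem Fr_Fr_ne_of_generic (Q : Place k ↥(modularFunctionFieldFullC k N))
    (hQ : IsGeneric k N q Q) : Fr k N q (Fr k N q Q) ≠ Q := by
  intro hfix
  obtain ⟨c, hc⟩ := exists_value k N Q hQ.1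
  exact absurd (hQ.2 c (value_pow_eq_of_Fr_Fr_eq k N q Q hfix hc)) (not_le.mpr hc)

omit [IsAlgClosed k] in
/-- `Fr` preserves the cusps: `(Fr Q).ord j = Q.ord j` -/
theorem ord_Fr_jk (Q : Place k ↥(modularFunctionFieldFullC k N)) :
    (Fr k N q Q).ord (jk k N) = Q.ord (jk k N) := by
  have h := ord_Fr_jk_sub k N q Q 0
  rw [zero_pow hq.out.ne_zero, map_zero, sub_zero] at h
  exact h

omit [IsAlgClosed k] in
/-- `Fr Q` generic implies `Q` generic -/
theorem generic_of_generic_Fr (Q : Place k ↥(modularFunctionFieldFullC k N))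
    (h : IsGeneric k N q (Fr k N q Q)) : IsGeneric k N q Q := by
  refine ⟨by rw [← ord_Fr_jk k N q Q]; exact h.1, fun c hc => ?_⟩
  have hcq : (c ^ q) ^ (q ^ 2) = c ^ q := by
    rw [← pow_mul, mul_comm, pow_mul, hc]
  have := h.2 (c ^ q) hcq
  rwa [ord_Fr_jk_sub] at this

omit [IsAlgClosed k] in
/-- **`Fr` preserves genericity** -/
theorem generic_Fr_iff (Q : Place k ↥(modularFunctionFieldFullC k N)) :
    IsGeneric k N q (Fr k N q Q) ↔ IsGeneric k N q Q := by
  refine ⟨generic_of_generic_Fr k N q Q, fun h => ?_⟩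
  refine ⟨by rw [ord_Fr_jk k N q Q]; exact h.1, fun d hd => ?_⟩
  -- `d = c ^ q` with `c := d ^ q` (as `d ^ (q²) = d`)
  have hdq : (d ^ q) ^ q = d := by rw [← pow_mul, ← pow_two]; exact hd
  have hc : (d ^ q) ^ (q ^ 2) = d ^ q := by
    rw [← pow_mul, mul_comm, pow_mul, hd]
  have := h.2 (d ^ q) hc
  rw [← ord_Fr_jk_sub k N q Q (d ^ q), hdq] at this
  exact this

end Value

/-! ### the instance at `k = ResidueField A` -/

section Residue

local notation "Kb" => AlgebraicClosure ℚ

set_option synthInstance.maxHeartbeats 400000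

variable {A : ValuationSubring Kb} (hA : A.LiesOverPrime q) (M : ℕ) [NeZero M]

include hA in
/-- **The non-generic places of `F_k(M)`, `k = κ(A)`, are finitely many.** -/
theorem finite_nonGeneric_residue :
    {Q : Place (ResidueField ↥A) ↥(modularFunctionFieldFullC (ResidueField ↥A) M) |
      Q.ord (jk (ResidueField ↥A) M) < 0 ∨
        ∃ c : ResidueField ↥A, c ^ (q ^ 2) = c ∧
          0 < Q.ord (jk (ResidueField ↥A) M - algebraMap (ResidueField ↥A) _ c)}.Finite := by
  haveI := Fermat.Agent.S18.ResidueBasics.isAlgClosed_residueField A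
  haveI := Fermat.Agent.S37.ReductionInputs.hasPrincipalDivisors_Fk A M
  haveI : CharP (ResidueField ↥A) q := Fermat.Agent.S18.ResidueBasics.charP_residueField A hA
  exact finite_nonGeneric (ResidueField ↥A) M q

include hA in
/-- generic places of `F_k(M)`, `k = κ(A)`, are not fixed by `Fr²` -/
theorem Fr_Fr_ne_of_generic_residue
    (Q : Place (ResidueField ↥A) ↥(modularFunctionFieldFullC (ResidueField ↥A) M)) :
    haveI := Fermat.Agent.S18.ResidueBasics.isAlgClosed_residueField A
    haveI : CharP (ResidueField ↥A) q := Fermat.Agent.S18.ResidueBasics.charP_residueField A hA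
    IsGeneric (ResidueField ↥A) M q Q →
      Fr (ResidueField ↥A) M q (Fr (ResidueField ↥A) M q Q) ≠ Q := by
  haveI := Fermat.Agent.S18.ResidueBasics.isAlgClosed_residueField A
  haveI := Fermat.Agent.S37.ReductionInputs.hasPrincipalDivisors_Fk A M
  haveI : CharP (ResidueField ↥A) q := Fermat.Agent.S18.ResidueBasics.charP_residueField A hA
  exact Fr_Fr_ne_of_generic (ResidueField ↥A) M q Q

end Residue

end Fermat.Agent.S34.Generic.FiniteNonGeneric
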