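/-
PROJECT U (S34), helper10: THE GOOD ("GENERIC") PLACES OF `κ = F_k(M)` AND THEIR `j`-VALUES
(`k`-side only; on top of helper4's `FrobK` and helper1's `Generic/FiniteNonGeneric`).

`IsGood k N q Q` : `Q` is not a cusp, its `j`-value is not in `𝔽_(q²)`, and `j̄ - γ` is a
uniformiser at `Q` for some `γ` (so `j̄` is unramified at `Q`).  This is the predicate `good` of both
components of the nodal datum at `X₀(qM)`.

* `finite_compl_good` : all but finitely many places are good;
* `isGood_Fr_iff`, `isGood_Fr_symm` : `Fr` preserves goodness;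
* `Fr_ne_Fr_symm` : `Fr Q ≠ Fr⁻¹ Q` for good `Q`;
* `ord_fm_eq_zero` : `j̄^(q²) - j̄` is a unit at a good place;
* `exists_unif_Fr_symm` : a uniformiser `j̄ - γm` at `Fr⁻¹ Q` which is a unit at `Fr Q`.
-/
import Mathlib
import Fermat.Agent.S34.Generic.FiniteNonGeneric
import Fermat.Agent.S34.Generic.Dich
import Fermat.Agent.S18.A.UnramFinal
import Fermat.Agent.S18.B.SeparableFk

set_option autoImplicit false
set_option linter.unusedSectionVars false

noncomputable section

namespace Fermat.Agent.S34.Generic.GoodK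

open AlgebraicCurve ModularCurve Fermat.Agent.S24.Ord Fermat.Agent.S34.FrobK
  Fermat.Agent.S34.Generic.FiniteNonGeneric Fermat.Agent.S34.Generic.Dich
open Fermat.Agent.S18.B.FkBasics (jk)

variable (k : Type*) [Field k] (N : ℕ) [NeZero N] (q : ℕ) [hq : Fact q.Prime] [CharP k q]
  [PerfectField k]

/-- the good places: generic in the sense of `FiniteNonGeneric.IsGeneric`, and `j̄` unramified -/
def IsGood (Q : Place k ↥(modularFunctionFieldFullC k N)) : Prop :=
  IsGeneric k N q Q ∧ ∃ γ : k, Q.ord (jk k N - algebraMap k _ γ) = 1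

/-- a nonzero value forces order zero -/
theorem ord_eq_zero_of_hasVal {K E : Type*} [Field K] [Field E] [Algebra K E] (P : Place K E)
    {y : E} {c : K} (h : HasVal P y c) (hc : c ≠ 0) : P.ord y = 0 := by
  have hcv : P.adicValuation (algebraMap K E c) = 1 := adicValuation_algebraMap P hc
  have hy : P.adicValuation y = 1 := by
    have h1 : P.adicValuation ((y - algebraMap K E c) + algebraMap K E c) =
        P.adicValuation (algebraMap K E c) :=
      Valuation.map_add_eq_of_lt_right _ (by rw [hcv]; exact h)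
    rw [sub_add_cancel, hcv] at h1
    exact h1
  have hy0 : y ≠ 0 := by
    rintro rfl
    rw [map_zero] at hy
    exact zero_ne_one hy
  have h1 : 0 ≤ P.ord y := (ord_nonneg_iff P hy0).mpr hy.le
  have h2 : ¬ 0 < P.ord y := fun hpos => by
    have := (ord_pos_iff P hy0).mp hpos
    rw [hy] at this
    exact lt_irrefl _ this
  omega

/-- positive order of `y - c` is `HasVal` -/
theorem hasVal_of_ord_pos {K E : Type*} [Field K] [Field E] [Algebra K E] (P : Place K E)
    {y : E} {c : K} (h : 0 < P.ord (y - algebraMap K E c)) : HasVal P y c := by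
  have hne : y - algebraMap K E c ≠ 0 := by
    intro h0
    rw [h0, Place.ord_zero] at h
    exact lt_irrefl _ h
  exact (ord_pos_iff P hne).mp h

section Main

variable [IsAlgClosed k] [HasPrincipalDivisors k ↥(modularFunctionFieldFullC k N)]

/-- all but finitely many places are good -/
theorem finite_compl_good :
    {Q : Place k ↥(modularFunctionFieldFullC k N) | IsGood k N q Q}ᶜ.Finite := by
  have h1 := finite_compl_generic k N q
  have h2 := Fermat.Agent.S18.A.Unram.finite_not_simple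
    (Fermat.Agent.S18.B.FkBasics.isFF k N) (Fermat.Agent.S18.B.SeparableFk.isSeparable_jk k N)
  refine (h1.union h2).subset fun Q hQ => ?_
  by_contra hcon
  rw [Set.mem_union, not_or] at hcon
  apply hQ
  refine ⟨not_not.mp hcon.1, ?_⟩
  have := hcon.2
  rw [Set.mem_ofPred_eq, not_not] at this
  exact this

omit [IsAlgClosed k] in
/-- `Fr` preserves goodness -/
theorem isGood_Fr_iff (Q : Place k ↥(modularFunctionFieldFullC k N)) :
    IsGood k N q (Fr k N q Q) ↔ IsGood k N q Q := by
  unfold IsGood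
  rw [generic_Fr_iff]
  refine and_congr_right fun _ => ?_
  constructor
  · rintro ⟨γ, hγ⟩
    obtain ⟨c, rfl⟩ : ∃ c : k, c ^ q = γ := by
      obtain ⟨c, hc⟩ := surjective_frobenius k q γ
      exact ⟨c, hc⟩
    rw [ord_Fr_jk_sub] at hγ
    exact ⟨c, hγ⟩
  · rintro ⟨γ, hγ⟩
    exact ⟨γ ^ q, by rw [ord_Fr_jk_sub]; exact hγ⟩

omit [IsAlgClosed k] in
theorem isGood_Fr_symm (Q : Place k ↥(modularFunctionFieldFullC k N)) (hQ : IsGood k N q Q) :
    IsGood k N q ((Fr k N q).symm Q) := by
  rw [← isGood_Fr_iff, Equiv.apply_symm_apply]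
  exact hQ

/-- `Fr Q ≠ Fr⁻¹ Q` at a good place -/
theorem Fr_ne_Fr_symm (Q : Place k ↥(modularFunctionFieldFullC k N)) (hQ : IsGood k N q Q) :
    Fr k N q Q ≠ (Fr k N q).symm Q := by
  intro h
  have h1 : Fr k N q (Fr k N q Q) = Q := by rw [h, Equiv.apply_symm_apply]
  exact Fr_Fr_ne_of_generic k N q Q hQ.1 h1

/-- the `j`-value of a good place, with its properties -/
theorem exists_value_good (Q : Place k ↥(modularFunctionFieldFullC k N)) (hQ : IsGood k N q Q) :
    ∃ γ : k, HasVal Q (jk k N) γ ∧ Q.ord (jk k N - algebraMap k _ γ) = 1 ∧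
      γ ^ (q ^ 2) ≠ γ := by
  obtain ⟨γ, hγ⟩ := hQ.2
  have hpos : 0 < Q.ord (jk k N - algebraMap k _ γ) := by rw [hγ]; exact one_pos
  refine ⟨γ, hasVal_of_ord_pos Q hpos, hγ, fun hfix => ?_⟩
  exact absurd (hQ.1.2 γ hfix) (not_le.mpr hpos)

/-- `j̄^(q²) - j̄` is a unit at a good place -/
theorem ord_fm_eq_zero (Q : Place k ↥(modularFunctionFieldFullC k N)) (hQ : IsGood k N q Q) :
    Q.ord (jk k N ^ (q * q) - jk k N) = 0 := by
  obtain ⟨γ, hv, -, hne⟩ := exists_value_good k N q Q hQ
  have h1 : HasVal Q (jk k N ^ (q * q) - jk k N) (γ ^ (q * q) - γ) := (hv.pow _).sub hv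
  refine ord_eq_zero_of_hasVal Q h1 ?_
  rw [← pow_two]
  exact sub_ne_zero.mpr hne

omit [HasPrincipalDivisors k ↥(modularFunctionFieldFullC k N)] [IsAlgClosed k] in
theorem fm_ne_zero' : jk k N ^ (q * q) - jk k N ≠ 0 := by
  have := fm_ne_zero k N q (m := 2) (by norm_num)
  rw [fm, pow_two] at this
  exact this

/-- a uniformiser `j̄ - γm` at `Fr⁻¹ Q` which is a unit at `Fr Q` -/
theorem exists_unif_Fr_symm (Q : Place k ↥(modularFunctionFieldFullC k N))
    (hQ : IsGood k N q Q) :
    ∃ γm : k, ((Fr k N q).symm Q).ord (jk k N - algebraMap k _ γm) = 1 ∧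
      (Fr k N q Q).ord (jk k N - algebraMap k _ γm) = 0 := by
  obtain ⟨γm, hv, h1, hne⟩ := exists_value_good k N q _ (isGood_Fr_symm k N q Q hQ)
  refine ⟨γm, h1, ?_⟩
  -- the value of `j̄` at `Fr Q = Fr (Fr (Fr⁻¹ Q))` is `γm ^ (q²)`
  have hpos : 0 < ((Fr k N q).symm Q).ord (jk k N - algebraMap k _ γm) := by
    rw [h1]; exact one_pos
  have h2 := value_Fr k N q _ (value_Fr k N q _ hpos)
  rw [Equiv.apply_symm_apply] at h2
  have hv2 : HasVal (Fr k N q Q) (jk k N) ((γm ^ q) ^ q) := hasVal_of_ord_pos _ h2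
  have h3 : HasVal (Fr k N q Q) (jk k N - algebraMap k _ γm) ((γm ^ q) ^ q - γm) :=
    hv2.sub (hasVal_const _ γm)
  refine ord_eq_zero_of_hasVal _ h3 ?_
  rw [← pow_mul, ← pow_two]
  exact sub_ne_zero.mpr hne

end Main

end Fermat.Agent.S34.Generic.GoodK
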