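/-
PROJECT U (S34), helper11: LEVEL-`M` GOOD PARAMETERS WITH A PRESCRIBED ZERO, WITHOUT ANY LIFTING
THEOREM (the fields `gpa`, `gpb` of `Generic.Compat.GenericAt`).

Abstract setting: `R : S18.CoreDefs.RedDatum A π r` a reduction datum with its place map `r`, and
`x : R.O` one fixed function (`x = j` at `X₀(M)`).  The good parameter at a point `P_M` of the
residue disc of `Q` is `g := x - x(P_M)`:

* `poles_to_poles` (GP0) : if `x` and `red x` have the same number of poles counted with
  multiplicity (both `= μ_M` at `X₀(M)`), every pole of `x` specialises to a pole of `red x`;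
  hence `regOn_of_ord_red_nonneg` : `x` is regular on the residue disc of every `Q` at which
  `red x` is regular;
* `gpa_of` (GP1) : if `red x - γ` is a uniformiser at `Q` for some `γ`, every point `P_M` of the
  disc of `Q` is the zero of a good parameter at `Q`;
* `gpb_of` (GP2) : the same, and the good parameter has neither zero nor pole over a second
  place `Q'` at which `red x` is regular with another value.
-/
import Mathlib
import Fermat.Agent.S18.Disc.Eval

set_option autoImplicit false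
set_option linter.unusedSectionVars false

noncomputable section

namespace Fermat.Agent.S34.Generic.GoodParam

open AlgebraicCurve Fermat.Agent.S24.Ord Fermat.Agent.S18.CoreDefs Fermat.Agent.S18.CoreOrd
  Fermat.Agent.S18.Disc

variable {L : Type*} [Field L] {FL : Type*} [Field FL] [Algebra L FL]
variable {k : Type*} [Field k] {Fk : Type*} [Field Fk] [Algebra k Fk]
variable {A : ValuationSubring L} {π : A →+* k} {r : Place L FL → Place k Fk}
  (R : RedDatum A π r)

/-! ### (GP0) poles specialise to poles -/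

section Poles

variable [HasPrincipalDivisors L FL]

open Classical in
/-- on every residue disc, `- ord_Q (red x)` is at most the number of poles of `x` on the disc -/
theorem neg_ord_red_le (x : R.O) (hx : R.red x ≠ 0) (SL : Finset (Place L FL))
    (hSL : ∀ P : Place L FL, P ∈ SL ↔ P.ord (x : FL) < 0) (Q : Place k Fk) :
    - Q.ord (R.red x) ≤ ∑ P ∈ SL.filter (fun P => r P = Q), - P.ord (x : FL) := by
  obtain ⟨s, hs, hs', hsum⟩ := exists_ord_red_eq_sum R x hx Q
  rw [hsum]
  have h1 : SL.filter (fun P => r P = Q) = s.filter (fun P => P.ord (x : FL) < 0) := by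
    ext P
    simp only [Finset.mem_filter, hSL]
    constructor
    · rintro ⟨h, hP⟩
      exact ⟨hs' P hP (ne_of_lt h), h⟩
    · rintro ⟨hP, h⟩
      exact ⟨h, hs P hP⟩
  rw [h1, ← Finset.sum_neg_distrib, Finset.sum_filter]
  refine Finset.sum_le_sum fun P _ => ?_
  split_ifs with h
  · exact le_refl _
  · omega

open Classical in
/-- **(GP0)** if `x` has at most as many poles (with multiplicity) as `red x`, every pole of `x`
specialises to a pole of `red x`. -/
theorem poles_to_poles (x : R.O) (hx : R.red x ≠ 0) (SL : Finset (Place L FL))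
    (hSL : ∀ P : Place L FL, P ∈ SL ↔ P.ord (x : FL) < 0) (Sk : Finset (Place k Fk))
    (hSk : ∀ Q : Place k Fk, Q ∈ Sk ↔ Q.ord (R.red x) < 0)
    (hle : ∑ P ∈ SL, - P.ord (x : FL) ≤ ∑ Q ∈ Sk, - Q.ord (R.red x))
    (P : Place L FL) (hP : P.ord (x : FL) < 0) : (r P).ord (R.red x) < 0 := by
  by_contra hcon
  have hPS : P ∈ SL := (hSL P).mpr hP
  set T : Finset (Place k Fk) := Sk ∪ SL.image r with hT
  set n : Place k Fk → ℤ := fun Q => ∑ P ∈ SL.filter (fun P => r P = Q), - P.ord (x : FL) with hn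
  have hn0 : ∀ Q, 0 ≤ n Q := fun Q =>
    Finset.sum_nonneg fun P' hP' => by
      have := (hSL P').mp (Finset.mem_filter.mp hP').1
      omega
  have hfib : ∑ P ∈ SL, - P.ord (x : FL) = ∑ Q ∈ T, n Q := by
    rw [← Finset.sum_fiberwise_of_maps_to (s := SL) (t := T) (g := r)]
    intro P' hP'
    exact Finset.mem_union_right _ (Finset.mem_image_of_mem r hP')
  have hsplit : ∑ Q ∈ T, n Q = ∑ Q ∈ Sk, n Q + ∑ Q ∈ T \ Sk, n Q := by
    rw [add_comm, Finset.sum_sdiff (Finset.subset_union_left)]
  have h1 : ∑ Q ∈ Sk, - Q.ord (R.red x) ≤ ∑ Q ∈ Sk, n Q :=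
    Finset.sum_le_sum fun Q _ => neg_ord_red_le R x hx SL hSL Q
  have h2 : ∑ Q ∈ T \ Sk, n Q ≤ 0 := by
    rw [hfib, hsplit] at hle
    linarith
  have hrP : r P ∈ T \ Sk := by
    rw [Finset.mem_sdiff]
    refine ⟨Finset.mem_union_right _ (Finset.mem_image_of_mem r hPS), ?_⟩
    rw [hSk]
    exact hcon
  have h3 : n (r P) ≤ 0 := by
    have := Finset.single_le_sum (f := n) (fun Q _ => hn0 Q) hrP
    exact this.trans h2
  have h4 : - P.ord (x : FL) ≤ n (r P) := by
    have hmem : P ∈ SL.filter (fun P' => r P' = r P) := Finset.mem_filter.mpr ⟨hPS, rfl⟩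
    exact Finset.single_le_sum (f := fun P' : Place L FL => - P'.ord (x : FL))
      (fun P' hP' => by
        have := (hSL P').mp (Finset.mem_filter.mp hP').1
        omega) hmem
  omega

/-- `x` is regular on the residue disc of every place at which `red x` is regular -/
theorem regOn_of_ord_red_nonneg (x : R.O) (hx : R.red x ≠ 0) (SL : Finset (Place L FL))
    (hSL : ∀ P : Place L FL, P ∈ SL ↔ P.ord (x : FL) < 0) (Sk : Finset (Place k Fk))
    (hSk : ∀ Q : Place k Fk, Q ∈ Sk ↔ Q.ord (R.red x) < 0)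
    (hle : ∑ P ∈ SL, - P.ord (x : FL) ≤ ∑ Q ∈ Sk, - Q.ord (R.red x))
    (Q : Place k Fk) (hQ : 0 ≤ Q.ord (R.red x)) : RegOn r (x : FL) Q := by
  refine regOn_of_ord_nonneg fun P hP => ?_
  by_contra hneg
  have h := poles_to_poles R x hx SL hSL Sk hSk hle P (not_le.mp hneg)
  rw [hP] at h
  omega

end Poles

/-! ### (GP1), (GP2) the good parameter `x - x(P_M)` -/

section GoodParam

variable [HasPrincipalDivisors L FL]

/-- the value of `x` at a point of the disc of `Q` lies in `A`, reduces to the value `γ` of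
`red x` at `Q`, and `x - x(P_M)` is a good parameter at `Q` vanishing at `P_M`. -/
theorem exists_goodParam (x : R.O) (Q : Place k Fk) (hreg : RegOn r (x : FL) Q) (γ : k)
    (hγ : Q.ord (R.red x - algebraMap k Fk γ) = 1)
    (PM : Place L FL) (hPM : r PM = Q) (hdeg : PM.deg = 1) :
    ∃ g : R.O, IsGoodParam R g Q ∧ PM.adicValuation (g : FL) < 1 ∧
      R.red g = R.red x - algebraMap k Fk γ ∧
      ∃ c : A, (g : FL) = (x : FL) - algebraMap L FL (c : L) := by
  have h0 : 0 ≤ PM.ord (x : FL) := hreg.ord_nonneg PM hPM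
  obtain ⟨c, hc⟩ := exists_value PM hdeg h0
  -- `x` is not a constant
  have hnc : (x : FL) ≠ algebraMap L FL c := by
    intro hxc
    have hcA : c ∈ A := R.mem_of_algebraMap_mem c (hxc ▸ x.2)
    have hx' : x = constHom R ⟨c, hcA⟩ := Subtype.ext hxc
    rw [hx', red_constHom, ← map_sub, ord_algebraMap] at hγ
    exact zero_ne_one hγ
  have hc' : PM.adicValuation ((x : FL) - algebraMap L FL c) < 1 :=
    adicValuation_lt_one_of_ord_pos PM (hc.resolve_left hnc)
  have hcA : c ∈ A := value_mem' R x Q hreg PM hPM c hc'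
  have hval := red_value R x Q hreg PM hPM ⟨c, hcA⟩ hc'
  -- the value is `γ`
  have hγc : π ⟨c, hcA⟩ = γ := by
    by_contra hne
    have hγ0 : R.red x - algebraMap k Fk γ ≠ 0 := by
      intro h
      rw [h, Place.ord_zero] at hγ
      exact zero_ne_one hγ
    have h1 : Q.adicValuation (R.red x - algebraMap k Fk γ) < 1 :=
      (ord_pos_iff Q hγ0).mp (by rw [hγ]; exact one_pos)
    have h2 : Q.adicValuation ((R.red x - algebraMap k Fk γ) -
        (R.red x - algebraMap k Fk (π ⟨c, hcA⟩))) < 1 := Valuation.map_sub_lt _ h1 hval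
    have h3 : (R.red x - algebraMap k Fk γ) - (R.red x - algebraMap k Fk (π ⟨c, hcA⟩)) =
        algebraMap k Fk (π ⟨c, hcA⟩ - γ) := by
      rw [map_sub]; ring
    rw [h3, adicValuation_algebraMap Q (sub_ne_zero.mpr hne)] at h2
    exact lt_irrefl _ h2
  refine ⟨x - constHom R ⟨c, hcA⟩, ⟨?_, ?_⟩, ?_, ?_, ⟨c, hcA⟩, ?_⟩
  · have : ((x - constHom R ⟨c, hcA⟩ : R.O) : FL) = (x : FL) - algebraMap L FL c := by
      push_cast; simp
    rw [this]
    exact hreg.sub (regOn_const r _ Q)
  · rw [map_sub, red_constHom, hγc]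
    exact hγ
  · have : ((x - constHom R ⟨c, hcA⟩ : R.O) : FL) = (x : FL) - algebraMap L FL c := by
      push_cast; simp
    rw [this]
    exact hc'
  · rw [map_sub, red_constHom, hγc]
  · push_cast; simp

/-- **(GP1)** the field `gpa` of `Generic.Compat.GenericAt` -/
theorem gpa_of (x : R.O) (Q : Place k Fk) (hreg : RegOn r (x : FL) Q)
    (hγ : ∃ γ : k, Q.ord (R.red x - algebraMap k Fk γ) = 1)
    (PM : Place L FL) (hPM : r PM = Q) (hdeg : PM.deg = 1) :
    ∃ g : R.O, IsGoodParam R g Q ∧ PM.adicValuation (g : FL) < 1 := by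
  obtain ⟨γ, hγ⟩ := hγ
  obtain ⟨g, h1, h2, -, -⟩ := exists_goodParam R x Q hreg γ hγ PM hPM hdeg
  exact ⟨g, h1, h2⟩

/-- **(GP2)** the field `gpb` of `Generic.Compat.GenericAt`: the good parameter at `Q` has
neither zero nor pole over a second place `Q'`, at which `red x` is regular with a value
different from its value at `Q`. -/
theorem gpb_of (x : R.O) (Q Q' : Place k Fk) (hreg : RegOn r (x : FL) Q)
    (hreg' : RegOn r (x : FL) Q') (γ : k)
    (hγ : Q.ord (R.red x - algebraMap k Fk γ) = 1)
    (hγ' : Q'.ord (R.red x - algebraMap k Fk γ) = 0)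
    (PM : Place L FL) (hPM : r PM = Q) (hdeg : PM.deg = 1) :
    ∃ g : R.O, IsGoodParam R g Q ∧ PM.adicValuation (g : FL) < 1 ∧ RegOn r (g : FL) Q' ∧
      Q'.ord (R.red g) = 0 := by
  obtain ⟨g, h1, h2, h3, c, h4⟩ := exists_goodParam R x Q hreg γ hγ PM hPM hdeg
  refine ⟨g, h1, h2, ?_, ?_⟩
  · rw [h4]
    exact hreg'.sub (regOn_const r _ Q')
  · rw [h3]
    exact hγ'

end GoodParam

end Fermat.Agent.S34.Generic.GoodParam
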