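/-
PROJECT U (S34), helper10: INTEGRALITY OVER A RESIDUE DISC (the hypothesis `hint` of
`Generic/PoleControl.pc_of_int`), abstract form.

`F / FM` a finite separable extension of function fields over `L` (along `algebraMap FM F`).

* `isIntegral_of_forall_place` : an element of `F` which is regular at every place of `F` above the
  place `PM` of `FM` is integral over the local ring of `PM`;
* `exists_monic_regOn` : if `h ∈ F` is integral over the Gauss ring `R.O` of a reduction datum of
  `FM` and regular at every place of `F` above the residue disc of `Q`, then `h` is a root of a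
  monic polynomial with coefficients in `R.O` which are regular on the disc of `Q` (the minimal
  polynomial of `h` over `FM`).
-/
import Mathlib
import Fermat.Agent.S34.Generic.RestrAlong
import Fermat.Agent.S24.PlacePrime

set_option autoImplicit false
set_option linter.unusedSectionVars false
set_option linter.style.haveILetI false

noncomputable section

namespace Fermat.Agent.S34.Generic.IntegralDisc

open AlgebraicCurve Polynomial IsDedekindDomain Fermat.Agent.S24.Ord Fermat.Agent.S24.PlacePrime

variable {L : Type*} [Field L] {FM : Type*} [Field FM] [Algebra L FM]
variable {F : Type*} [Field F] [Algebra L F]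

section Local

variable [Algebra FM F] [IsScalarTower L FM F] [FiniteDimensional FM F] [Algebra.IsSeparable FM F]

/-- the algebra structure of `F` over a valuation subring of `FM` -/
abbrev algO (O : ValuationSubring FM) : Algebra O F :=
  ((algebraMap FM F).comp O.subtype).toAlgebra

theorem isScalarTower_algO (O : ValuationSubring FM) :
    letI := algO (F := F) O
    IsScalarTower O FM F :=
  letI := algO (F := F) O
  IsScalarTower.of_algebraMap_eq fun _ => rfl

/-- an element regular at all places above `PM` is integral over the local ring of `PM` -/
theorem isIntegral_of_forall_place (PM : Place L FM) (h : F)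
    (hreg : ∀ P : Place L F,
      P.toValuationSubring.comap (algebraMap FM F) = PM.toValuationSubring →
        P.adicValuation h ≤ 1) :
    letI := algO (F := F) PM.toValuationSubring
    IsIntegral PM.toValuationSubring h := by
  letI := algO (F := F) PM.toValuationSubring
  haveI := isScalarTower_algO (F := F) PM.toValuationSubring
  haveI : IsPrincipalIdealRing PM.toValuationSubring := PM.isPrincipalIdealRing'
  haveI : IsDedekindDomain PM.toValuationSubring := inferInstance
  haveI : IsDedekindDomain (integralClosure PM.toValuationSubring F) :=
    integralClosure.isDedekindDomain PM.toValuationSubring FM F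
  haveI : IsFractionRing (integralClosure PM.toValuationSubring F) F :=
    integralClosure.isFractionRing_of_finite_extension FM F
  -- the constants
  let cL : L →+* PM.toValuationSubring :=
    (algebraMap L FM).codRestrict PM.toValuationSubring.toSubring PM.algebraMap_mem'
  letI : Algebra L (integralClosure PM.toValuationSubring F) :=
    ((algebraMap PM.toValuationSubring (integralClosure PM.toValuationSubring F)).comp
      cL).toAlgebra
  haveI : IsScalarTower L (integralClosure PM.toValuationSubring F) F :=
    IsScalarTower.of_algebraMap_eq fun c => by
      rw [IsScalarTower.algebraMap_apply L FM F]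
      rfl
  have hmem := HeightOneSpectrum.mem_integers_of_valuation_le_one
    (R := integralClosure PM.toValuationSubring F) F h (fun P' => by
      have hle : (placeOfPrime (K := L) P').adicValuation h ≤ 1 := by
        apply hreg
        symm
        haveI : Ring.KrullDimLE 1 PM.toValuationSubring := inferInstance
        refine ValuationSubring.eq_of_le_of_ne_top (A := PM.toValuationSubring) ?_ ?_
        · intro x hx
          rw [ValuationSubring.mem_comap, mem_placeOfPrime]
          have : algebraMap FM F x = algebraMap (integralClosure PM.toValuationSubring F) F
              (algebraMap PM.toValuationSubring (integralClosure PM.toValuationSubring F)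
                ⟨x, hx⟩) := rfl
          rw [this]
          exact P'.valuation_le_one _
        · haveI : Algebra.IsIntegral FM F := Algebra.IsIntegral.of_finite FM F
          exact ((placeOfPrime (K := L) P').restrict FM).ne_top'
      rwa [← mem_iff, mem_placeOfPrime] at hle)
  obtain ⟨b, hb⟩ := hmem
  rw [← hb]
  exact b.2

/-- the coefficients of the minimal polynomial over `FM` of an element integral over a valuation
subring `O` of `FM` lie in `O` -/
theorem minpoly_coeff_mem (O : ValuationSubring FM) (h : F)
    (hO : letI := algO (F := F) O; IsIntegral O h) (i : ℕ) :
    (minpoly FM h).coeff i ∈ O := by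
  letI := algO (F := F) O
  haveI := isScalarTower_algO (F := F) O
  rw [minpoly.isIntegrallyClosed_eq_field_fractions' FM hO, coeff_map]
  exact ((minpoly O h).coeff i).2

variable {k : Type*} [Field k] {Fk : Type*} [Field Fk] [Algebra k Fk]
variable {A : ValuationSubring L} {π : A →+* k} {r : Place L FM → Place k Fk}

open Fermat.Agent.S18.CoreDefs Fermat.Agent.S18.Disc in
/-- **INTEGRALITY OVER THE DISC**: an element of `F`, integral over the Gauss ring `R.O` and regular
at every place above the residue disc of `Q`, is a root of a monic polynomial over `R.O` whose
coefficients are regular on the disc of `Q`. -/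
theorem exists_monic_regOn (R : RedDatum A π r) (Q : Place k Fk) (h : F)
    (hO : letI := algO (F := F) R.O; IsIntegral R.O h)
    (hreg : ∀ P : Place L F, (∀ PM : Place L FM,
      P.toValuationSubring.comap (algebraMap FM F) = PM.toValuationSubring → r PM = Q) →
        P.adicValuation h ≤ 1) :
    ∃ p : (R.O)[X], p.Monic ∧ (∀ i, RegOn r ((p.coeff i : R.O) : FM) Q) ∧
      Polynomial.eval₂ ((algebraMap FM F).comp R.O.subtype) h p = 0 := by
  letI := algO (F := F) R.O
  haveI := isScalarTower_algO (F := F) R.O
  refine ⟨minpoly R.O h, minpoly.monic hO, fun i PM hPM => ?_, ?_⟩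
  · have hint : (letI := algO (F := F) PM.toValuationSubring;
        IsIntegral PM.toValuationSubring h) := by
      apply isIntegral_of_forall_place PM h
      intro P hP
      apply hreg P
      intro PM' hPM'
      have : PM' = PM := Place.ext (hPM'.symm.trans hP)
      rw [this]
      exact hPM
    have h1 := minpoly_coeff_mem PM.toValuationSubring h hint i
    rw [minpoly.isIntegrallyClosed_eq_field_fractions' FM hO, coeff_map] at h1
    exact (mem_iff PM _).mp h1
  · exact minpoly.aeval R.O h

end Local

section Along

variable {k : Type*} [Field k] {Fk : Type*} [Field Fk] [Algebra k Fk]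
variable {A : ValuationSubring L} {π : A →+* k} {r : Place L FM → Place k Fk}

open Fermat.Agent.S18.CoreDefs Fermat.Agent.S18.Disc Fermat.Agent.S34.Generic.RestrAlong in
/-- `exists_monic_regOn` along an embedding `φ : FM →ₐ[L] F` (the shape of the hypothesis `hint` of
`PoleControl.pc_of_int`, for one `h`). -/
theorem exists_monic_regOn_along (φ : FM →ₐ[L] F) (hφ : φ.toRingHom.IsIntegral)
    (hfin : FiniteAlong L φ) (hsep : letI := algebraAlong φ; Algebra.IsSeparable FM F)
    (R : RedDatum A π r) (Q : Place k Fk) (h : F)
    (hO : ∃ p : (R.O)[X], p.Monic ∧
      Polynomial.eval₂ ((φ : FM →+* F).comp R.O.subtype) h p = 0)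
    (hreg : ∀ P : Place L F, r (resAlong φ hφ P) = Q → P.adicValuation h ≤ 1) :
    ∃ p : (R.O)[X], p.Monic ∧ (∀ i, RegOn r ((p.coeff i : R.O) : FM) Q) ∧
      Polynomial.eval₂ ((φ : FM →+* F).comp R.O.subtype) h p = 0 := by
  letI := algebraAlong φ
  haveI := isScalarTower_along φ
  haveI := isIntegral_along φ hφ
  haveI : FiniteDimensional FM F := hfin
  haveI : Algebra.IsSeparable FM F := hsep
  refine exists_monic_regOn R Q h ?_ ?_
  · obtain ⟨p, hp, hroot⟩ := hO
    exact ⟨p, hp, hroot⟩
  · intro P hP
    apply hreg P
    exact hP (resAlong φ hφ P) rfl

end Along

end Fermat.Agent.S34.Generic.IntegralDisc
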