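/-
PROJECT U (S34), helper10: the hypothesis `hint` of `Generic/PoleControl.pc_of_int` for the pair
`(V₁, V₂)` of a Dedekind-Kummer setup `S : TwoExt.Setup R.O F` over the Gauss ring of a reduction
datum `R` of `FM`:  `V₁ ∩ V₂ = R.O[t]` is integral over `R.O`, hence (`IntegralDisc`) an element of
`V₁ ∩ V₂` regular over the disc of `Q` is a root of a monic polynomial over `R.O` with coefficients
regular on the disc.
-/
import Mathlib
import Fermat.Agent.S34.Generic.IntegralDisc
import Fermat.Agent.S34.TwoExt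

set_option autoImplicit false
set_option linter.unusedSectionVars false
set_option linter.style.haveILetI false

noncomputable section

namespace Fermat.Agent.S34.Generic.HintTwoExt

open AlgebraicCurve Polynomial Fermat.Agent.S24.Ord Fermat.Agent.S34.TwoExt
  Fermat.Agent.S34.Generic.IntegralDisc

variable {F : Type*} [Field F] {F' : Type*} [Field F'] [Algebra F F']

/-- `V₁ ∩ V₂ = O[t]` is integral over `O` -/
theorem exists_monic_of_mem_inter {O : ValuationSubring F} (S : Setup O F')
    {V₁ V₂ : ValuationSubring F'} (h₁ : S.IsExt S.G₁ V₁) (h₂ : S.IsExt S.G₂ V₂) {x : F'}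
    (hx₁ : x ∈ V₁) (hx₂ : x ∈ V₂) :
    ∃ p : (↥O)[X], p.Monic ∧ p.eval₂ ((algebraMap F F').comp O.subtype) x = 0 := by
  letI := algO (F := F') O
  obtain ⟨p0, -, rfl⟩ := S.exists_eq_ev_of_mem h₁ h₂ hx₁ hx₂
  have ht : IsIntegral O S.t := ⟨S.Φ, S.monic, S.root⟩
  have hx : IsIntegral O (S.ev p0) := by
    have h1 : S.ev p0 = aeval S.t p0 := rfl
    rw [h1]
    have hle : Algebra.adjoin O {S.t} ≤ integralClosure O F' :=
      Algebra.adjoin_le (by
        intro y hy
        rw [Set.mem_singleton_iff] at hy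
        rw [hy]
        exact ht)
    exact hle (aeval_mem_adjoin_singleton _ _)
  obtain ⟨p, hp, hroot⟩ := hx
  exact ⟨p, hp, hroot⟩

section Along

variable {L : Type*} [Field L] {FM : Type*} [Field FM] [Algebra L FM]
variable {E : Type*} [Field E] [Algebra L E]
variable {k : Type*} [Field k] {Fk : Type*} [Field Fk] [Algebra k Fk]
variable {A : ValuationSubring L} {π : A →+* k} {r : Place L FM → Place k Fk}

open Fermat.Agent.S18.CoreDefs Fermat.Agent.S18.Disc Fermat.Agent.S34.Generic.RestrAlong in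
/-- **the hypothesis `hint`** of `PoleControl.pc_of_int` for the pair `(V₁, V₂)` of a
Dedekind-Kummer setup over the Gauss ring `R.O`, along `φ : FM →ₐ[L] E`. -/
theorem hint_along (φ : FM →ₐ[L] E) (hφ : φ.toRingHom.IsIntegral)
    (hfin : FiniteAlong L φ) (hsep : letI := algebraAlong φ; Algebra.IsSeparable FM E)
    (R : RedDatum A π r) (S : letI := algebraAlong φ; Setup R.O E)
    {V₁ V₂ : ValuationSubring E}
    (h₁ : letI := algebraAlong φ; S.IsExt S.G₁ V₁) (h₂ : letI := algebraAlong φ; S.IsExt S.G₂ V₂)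
    (Q : Place k Fk) (h : E) (hV₁ : h ∈ V₁) (hV₂ : h ∈ V₂)
    (hreg : ∀ P : Place L E, r (resAlong φ hφ P) = Q → P.adicValuation h ≤ 1) :
    ∃ p : (R.O)[X], p.Monic ∧ (∀ i, RegOn r ((p.coeff i : R.O) : FM) Q) ∧
      Polynomial.eval₂ ((φ : FM →+* E).comp R.O.subtype) h p = 0 := by
  letI := algebraAlong φ
  refine exists_monic_regOn_along φ hφ hfin hsep R Q h ?_ hreg
  exact exists_monic_of_mem_inter S h₁ h₂ hV₁ hV₂

end Along

end Fermat.Agent.S34.Generic.HintTwoExt
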