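/-
PROJECT U (S34), helper10: POLE CONTROL ALONG `α` (the hypothesis `pc` of `Generic/Compat.lean`),
abstract form.

Setting of `Generic/Compat.lean`.  `O₂` is a second valuation ring of `F` (so that `G.O ∩ O₂` is
the integral closure of `α (R.O)`).  Hypotheses:

* `hint` (INTEGRALITY over the disc of `Q`): every `h ∈ G.O ∩ O₂` which is regular at every place
  `P` of `F` with `r (P ∘ α) = Q` is a root of a monic polynomial with coefficients in `R.O` which
  are regular on the level-`M` disc of `Q`;
* `heps` (the IDEMPOTENT): `ε ∈ G.O` with `red ε = 1`, regular over the disc of `Q`, such that for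
  every `h ∈ G.O` some `ε ^ N * h` lies in `O₂`.

Conclusion `pc_of_int`: for every `h ∈ G.O` regular over the disc of `Q`, `G.red h` is regular at `Q`.
-/
import Mathlib
import Fermat.Agent.S34.Generic.Compat

set_option autoImplicit false
set_option linter.unusedSectionVars false

noncomputable section

namespace Fermat.Agent.S34.Generic.PoleControl

open AlgebraicCurve Polynomial Fermat.Agent.S24.Ord Fermat.Agent.S18.CoreDefs
  Fermat.Agent.S18.Disc Fermat.Agent.S34.Generic.Compat

variable {L : Type*} [Field L] {FM : Type*} [Field FM] [Algebra L FM]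
variable {k : Type*} [Field k] {Fk : Type*} [Field Fk] [Algebra k Fk]
variable {A : ValuationSubring L} {π : A →+* k} {r : Place L FM → Place k Fk}
variable {F : Type*} [Field F] [Algebra L F]
variable {R : RedDatum A π r} {α β : FM →+* F}

/-- an element of `Fk` which is a root of a monic polynomial whose coefficients are regular at `Q`
is regular at `Q` -/
theorem regular_of_monic_root (Q : Place k Fk) (p : Fk[X]) (hp : p.Monic)
    (hcoeff : ∀ i, Q.adicValuation (p.coeff i) ≤ 1) (x : Fk) (hx : p.eval x = 0) :
    Q.adicValuation x ≤ 1 := by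
  have hlift : p ∈ Polynomial.lifts (Q.toValuationSubring.subtype) := by
    rw [Polynomial.lifts_iff_coeff_lifts]
    intro i
    exact ⟨⟨p.coeff i, (mem_iff Q _).mpr (hcoeff i)⟩, rfl⟩
  obtain ⟨q, hq, -, hqm⟩ := Polynomial.lifts_and_degree_eq_and_monic hlift hp
  have hint : IsIntegral Q.toValuationSubring x := by
    refine ⟨q, hqm, ?_⟩
    have : Polynomial.eval₂ (algebraMap Q.toValuationSubring Fk) x q = (q.map
        (Q.toValuationSubring.subtype)).eval x := by
      rw [Polynomial.eval_map]
      rfl
    rw [this, hq, hx]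
  have hmem := (IsIntegrallyClosed.isIntegral_iff (R := Q.toValuationSubring) (K := Fk)).mp hint
  obtain ⟨y, hy⟩ := hmem
  rw [← mem_iff, ← hy]
  exact y.2

variable [HasPrincipalDivisors L FM]

/-- pole control for elements of `G.O` satisfying a monic equation over `R.O` with coefficients
regular on the disc of `Q` -/
theorem regular_of_monic_equation (G : RedOne R α β) (Q : Place k Fk) (h : G.O) (p : (R.O)[X])
    (hp : p.Monic) (hreg : ∀ i, RegOn r ((p.coeff i : R.O) : FM) Q)
    (hroot : Polynomial.eval₂ (α.comp R.O.subtype) (h : F) p = 0) :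
    Q.adicValuation (G.red h) ≤ 1 := by
  -- the ring hom `R.O → G.O` induced by `α`
  let αO : R.O →+* G.O :=
    { toFun := fun g => ⟨α (g : FM), G.α_mem g⟩
      map_one' := Subtype.ext (by simp)
      map_mul' := fun a b => Subtype.ext (by simp)
      map_zero' := Subtype.ext (by simp)
      map_add' := fun a b => Subtype.ext (by simp) }
  have hred : G.red.comp αO = R.red := by
    ext g
    exact G.red_α g
  have hroot' : Polynomial.eval₂ αO h p = 0 := by
    apply Subtype.ext
    have : ((Polynomial.eval₂ αO h p : G.O) : F) =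
        Polynomial.eval₂ (α.comp R.O.subtype) (h : F) p := by
      have h1 : (G.O.subtype : G.O →+* F).comp αO = α.comp R.O.subtype := by
        ext g; rfl
      rw [← h1]
      exact (Polynomial.hom_eval₂ p αO (G.O.subtype : G.O →+* F) h)
    rw [this, hroot]
    rfl
  have hroot'' : (p.map R.red).eval (G.red h) = 0 := by
    have := congrArg G.red hroot'
    rw [map_zero, Polynomial.hom_eval₂, hred] at this
    rw [Polynomial.eval_map]
    exact this
  refine regular_of_monic_root Q (p.map R.red) (hp.map _) (fun i => ?_) (G.red h) hroot''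
  rw [Polynomial.coeff_map]
  exact red_regular R (p.coeff i) Q (hreg i)

/-- **POLE CONTROL along `α`** from integrality over the disc and the idempotent `ε`. -/
theorem pc_of_int (ra : Restr L α) (G : RedOne R α β) (O₂ : ValuationSubring F) (Q : Place k Fk)
    (hint : ∀ h : G.O, (h : F) ∈ O₂ →
      (∀ P : Place L F, r (ra.res P) = Q → P.adicValuation (h : F) ≤ 1) →
      ∃ p : (R.O)[X], p.Monic ∧ (∀ i, RegOn r ((p.coeff i : R.O) : FM) Q) ∧
        Polynomial.eval₂ (α.comp R.O.subtype) (h : F) p = 0)
    (heps : ∃ ε : G.O, G.red ε = 1 ∧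
      (∀ P : Place L F, r (ra.res P) = Q → P.adicValuation (ε : F) ≤ 1) ∧
      ∀ h : G.O, ∃ N : ℕ, ((ε ^ N * h : G.O) : F) ∈ O₂)
    (h : G.O) (hreg : ∀ P : Place L F, r (ra.res P) = Q → P.adicValuation (h : F) ≤ 1) :
    Q.adicValuation (G.red h) ≤ 1 := by
  obtain ⟨ε, hε1, hεreg, hεN⟩ := heps
  obtain ⟨N, hN⟩ := hεN h
  have hreg' : ∀ P : Place L F, r (ra.res P) = Q →
      P.adicValuation (((ε ^ N * h : G.O)) : F) ≤ 1 := by
    intro P hP
    have : (((ε ^ N * h : G.O)) : F) = (ε : F) ^ N * (h : F) := by push_cast; rfl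
    rw [this, map_mul, map_pow]
    exact mul_le_one' (pow_le_one' (hεreg P hP) N) (hreg P hP)
  obtain ⟨p, hp, hpreg, hroot⟩ := hint (ε ^ N * h) hN hreg'
  have := regular_of_monic_equation G Q (ε ^ N * h) p hp hpreg hroot
  rwa [map_mul, map_pow, hε1, one_pow, one_mul] at this

end Fermat.Agent.S34.Generic.PoleControl
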