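/-
PROJECT U (S34), helper10: the hypothesis `heps` of `Generic/PoleControl.pc_of_int` (the
"idempotent" `ε`) for the pair `(V₁, V₂)` of a Dedekind-Kummer setup.

`S : TwoExt.Setup R.O F` (along `α = algebraMap FM F`), `G : RedOne R α β` with `G.O = V₁`,
`V₂` archimedean.  If `w ∈ R.O` is such that `red₁ (G₂(t)) = red w ≠ 0`, `w` is regular with
`ord_Q (red w) = 0` on the disc of `Q`, the coefficients of `G₂` are regular on the disc of `Q`
and `t` is regular over it, then `ε := G₂(t) / α w` satisfies `heps`: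
`red₁ ε = 1`, `ε` is regular over the disc of `Q`, and `ε ^ N * h ∈ V₂` for every `h` and some `N`.
-/
import Mathlib
import Fermat.Agent.S34.Generic.PoleControl
import Fermat.Agent.S34.TwoExt
import Fermat.Agent.S34.WeakApprox

set_option autoImplicit false
set_option linter.unusedSectionVars false
set_option linter.style.haveILetI false

noncomputable section

namespace Fermat.Agent.S34.Generic.Eps

open AlgebraicCurve Polynomial Fermat.Agent.S24.Ord Fermat.Agent.S18.CoreDefs
  Fermat.Agent.S18.Disc Fermat.Agent.S34.Generic.Compat Fermat.Agent.S34.TwoExt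
  Fermat.Agent.S34.WeakApprox

variable {L : Type*} [Field L] {FM : Type*} [Field FM] [Algebra L FM]
variable {k : Type*} [Field k] {Fk : Type*} [Field Fk] [Algebra k Fk]
variable {A : ValuationSubring L} {π : A →+* k} {r : Place L FM → Place k Fk}
variable {F : Type*} [Field F] [Algebra L F] [Algebra FM F]
variable {R : RedDatum A π r} {β : FM →+* F}

/-- a polynomial in `t` with coefficients regular over a set of places is regular there -/
theorem adicValuation_ev_le_one (S : Setup R.O F) (P : Place L F)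
    (ht : P.adicValuation S.t ≤ 1) (p : (R.O)[X])
    (hp : ∀ i, P.adicValuation (algebraMap FM F ((p.coeff i : R.O) : FM)) ≤ 1) :
    P.adicValuation (S.ev p) ≤ 1 := by
  rw [Setup.ev_apply, Polynomial.eval₂_eq_sum_range]
  refine Valuation.map_sum_le _ fun i _ => ?_
  rw [map_mul, map_pow, coeffHom_apply]
  exact mul_le_one' (hp i) (pow_le_one' ht i)

/-- regularity passes from the place below to the place above -/
theorem Restr_adicValuation_le_one {a : FM →+* F} (ra : Restr L a) (P : Place L F) (g : FM)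
    (hg : (ra.res P).adicValuation g ≤ 1) : P.adicValuation (a g) ≤ 1 := by
  rcases eq_or_ne g 0 with rfl | hg0
  · simp
  have hag : a g ≠ 0 := (map_ne_zero_iff a a.injective).mpr hg0
  rw [← ord_nonneg_iff P hag, ra.ord_map]
  have h1 : 0 ≤ (ra.res P).ord g := (ord_nonneg_iff _ hg0).mpr hg
  have h2 : (0 : ℤ) ≤ (ra.e P : ℤ) := Int.natCast_nonneg _
  exact mul_nonneg h2 h1

variable [HasPrincipalDivisors L FM]

/-- **the hypothesis `heps`** -/
theorem heps_of_twoExt (ra : Restr L (algebraMap FM F)) (G : RedOne R (algebraMap FM F) β)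
    (S : Setup R.O F) {V₂ : ValuationSubring F}
    (h₁ : S.IsExt S.G₁ G.O) (h₂ : S.IsExt S.G₂ V₂) (hArch : Arch V₂) (Q : Place k Fk)
    (w : R.O) (hw0 : R.red w ≠ 0) (hwQ : Q.ord (R.red w) = 0) (hwreg : RegOn r (w : FM) Q)
    (hred : G.red ⟨S.ev S.G₂, S.ev_mem h₁.comap S.G₂⟩ = R.red w)
    (hG₂ : ∀ i, RegOn r ((S.G₂.coeff i : R.O) : FM) Q)
    (ht : ∀ P : Place L F, r (ra.res P) = Q → P.adicValuation S.t ≤ 1) :
    ∃ ε : G.O, G.red ε = 1 ∧
      (∀ P : Place L F, r (ra.res P) = Q → P.adicValuation (ε : F) ≤ 1) ∧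
      ∀ h : G.O, ∃ N : ℕ, ((ε ^ N * h : G.O) : F) ∈ V₂ := by
  -- the inverse of `w`
  have hwu : IsUnit w := not_not.mp fun h => hw0 ((R.red_eq_zero_iff w).mpr h)
  obtain ⟨wu, hwu'⟩ := hwu
  set winv : R.O := ((wu⁻¹ : R.Oˣ) : R.O) with hwinv
  have hmul : w * winv = 1 := by rw [← hwu', hwinv, Units.mul_inv]
  have hmulF : (w : FM) * (winv : FM) = 1 := by
    have := congrArg (fun z : R.O => (z : FM)) hmul
    simpa using this
  have hw0F : (w : FM) ≠ 0 := left_ne_zero_of_mul_eq_one hmulF
  have hwinvF : (winv : FM) = (w : FM)⁻¹ := eq_inv_of_mul_eq_one_right hmulF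
  set e0 : G.O := ⟨S.ev S.G₂, S.ev_mem h₁.comap S.G₂⟩ with he0
  set ε : G.O := e0 * ⟨algebraMap FM F (winv : FM), G.α_mem winv⟩ with hε
  have hεF : (ε : F) = S.ev S.G₂ * algebraMap FM F (winv : FM) := rfl
  have hredε : G.red ε = 1 := by
    rw [hε, map_mul, hred, G.red_α, ← map_mul, hmul, map_one]
  refine ⟨ε, hredε, ?_, ?_⟩
  · intro P hP
    rw [hεF, map_mul]
    refine mul_le_one' ?_ ?_
    · refine adicValuation_ev_le_one S P (ht P hP) S.G₂ fun i => ?_
      exact Restr_adicValuation_le_one ra P _ (hG₂ i (ra.res P) hP)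
    · refine Restr_adicValuation_le_one ra P _ ?_
      have h0 : (ra.res P).ord (w : FM) = 0 :=
        ord_eq_zero_of_regOn hw0 hwreg hwQ (ra.res P) hP
      have hne : (winv : FM) ≠ 0 := right_ne_zero_of_mul_eq_one hmulF
      rw [← ord_nonneg_iff _ hne, hwinvF, Place.ord_inv, h0, neg_zero]
  · intro h
    have hε0 : (ε : F) ≠ 0 := by
      intro h0
      have : ε = 0 := Subtype.ext h0
      rw [this, map_zero] at hredε
      exact zero_ne_one hredε
    have hεnu : (ε : F) ∈ V₂.nonunits := by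
      rw [V₂.mem_nonunits_iff, hεF, map_mul]
      have h1 : V₂.valuation (S.ev S.G₂) < 1 := h₂.lt
      have h2 : V₂.valuation (algebraMap FM F (winv : FM)) ≤ 1 :=
        (val_alg_le_one_iff h₂.comap _).mpr ((R.O.valuation_le_one_iff _).mpr winv.2)
      calc V₂.valuation (S.ev S.G₂) * V₂.valuation (algebraMap FM F (winv : FM))
          ≤ V₂.valuation (S.ev S.G₂) * 1 := mul_le_mul' le_rfl h2
        _ < 1 := by rwa [mul_one]
    obtain ⟨N, hN⟩ := hArch (h : F) (ε : F) hεnu hε0
    refine ⟨N, ?_⟩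
    have : ((ε ^ N * h : G.O) : F) = (h : F) * (ε : F) ^ N := by
      push_cast
      ring
    rw [this]
    exact hN

end Fermat.Agent.S34.Generic.Eps
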