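/-
PROJECT U (S34), helper10: POLE CONTROL ALONG `α` FOR A DEDEKIND-KUMMER SETUP (abstract form of
the field `pc` of `Generic/Compat.GenericAt` at `X₀(qM)`).

`F / FM` finite separable (along `α = algebraMap FM F`), `R : RedDatum A π r` a reduction datum of
`FM`, `S : TwoExt.Setup R.O F` with `G₁ = X - x^n`, `G₂ = X^n - x` (`x = j`, `n = q`) and the
coefficients of `Φ` regular wherever `x` is, `G : RedOne R α β` with `G.O = V₁` the type-1
extension, `V₂` the type-2 extension, archimedean.

`pc_of_setup` : if `x` is regular on the disc of `Q` and `x̄^(n²) - x̄` is a unit at `Q`, then every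
`h ∈ V₁` which is regular over the `α`-disc of `Q` has `red₁ h` regular at `Q`.
-/
import Mathlib
import Fermat.Agent.S34.Generic.Eps
import Fermat.Agent.S34.Generic.HintTwoExt

set_option autoImplicit false
set_option linter.unusedSectionVars false
set_option linter.style.haveILetI false

noncomputable section

namespace Fermat.Agent.S34.Generic.PCSetup

open AlgebraicCurve Polynomial Fermat.Agent.S24.Ord Fermat.Agent.S18.CoreDefs
  Fermat.Agent.S18.Disc Fermat.Agent.S34.Generic.Compat Fermat.Agent.S34.TwoExt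
  Fermat.Agent.S34.WeakApprox Fermat.Agent.S34.Generic.PoleControl
  Fermat.Agent.S34.Generic.Eps Fermat.Agent.S34.Generic.HintTwoExt
  Fermat.Agent.S34.Generic.IntegralDisc

variable {L : Type*} [Field L] {FM : Type*} [Field FM] [Algebra L FM]
variable {k : Type*} [Field k] {Fk : Type*} [Field Fk] [Algebra k Fk]
variable {A : ValuationSubring L} {π : A →+* k} {r : Place L FM → Place k Fk}
variable {F : Type*} [Field F] [Algebra L F] [Algebra FM F]
variable {R : RedDatum A π r} {β : FM →+* F}

/-- `t` is regular at every place of `F` at which the coefficients of `Φ` are regular -/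
theorem adicValuation_t_le_one (S : Setup R.O F) (P : Place L F)
    (hΦ : ∀ i, P.adicValuation (algebraMap FM F ((S.Φ.coeff i : R.O) : FM)) ≤ 1) :
    P.adicValuation S.t ≤ 1 := by
  refine regular_of_monic_root P (S.Φ.map (coeffHom R.O F)) (S.monic.map _) (fun i => ?_) S.t ?_
  · rw [coeff_map, coeffHom_apply]
    exact hΦ i
  · rw [eval_map]
    exact S.root

/-- the reduction of `t` in the type-1 extension, when `G₁ = X - c` -/
theorem red_t (G : RedOne R (algebraMap FM F) β) (S : Setup R.O F)
    (h₁ : S.IsExt S.G₁ G.O) (c : R.O) (hG₁ : S.G₁ = X - C c) :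
    G.red ⟨S.t, S.t_mem h₁.comap⟩ = R.red c := by
  have hlt := h₁.lt
  rw [hG₁] at hlt
  have hev : S.ev (X - C c) = S.t - algebraMap FM F (c : FM) := by
    rw [map_sub, Setup.ev_X, Setup.ev_C]
  rw [hev] at hlt
  have hmem : S.t - algebraMap FM F (c : FM) ∈ G.O :=
    sub_mem (S.t_mem h₁.comap) (G.α_mem c)
  have hnu : ¬ IsUnit (⟨S.t - algebraMap FM F (c : FM), hmem⟩ : G.O) := by
    intro hu
    have := (ValuationSubring.valuation_eq_one_iff G.O _).mp hu
    rw [this] at hlt
    exact lt_irrefl _ hlt
  have h0 := (G.red_eq_zero_iff _).mpr hnu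
  have hsplit : (⟨S.t - algebraMap FM F (c : FM), hmem⟩ : G.O) =
      ⟨S.t, S.t_mem h₁.comap⟩ - ⟨algebraMap FM F (c : FM), G.α_mem c⟩ := rfl
  rw [hsplit, map_sub, G.red_α, sub_eq_zero] at h0
  exact h0

variable [IsScalarTower L FM F] [FiniteDimensional FM F] [Algebra.IsSeparable FM F]
variable [HasPrincipalDivisors L FM]

/-- **the hypothesis `hint`** (shape of `Dich.hval_of_hint`) for a Dedekind-Kummer setup -/
theorem hint_of_setup (ra : Restr L (algebraMap FM F))
    (hra : ∀ P : Place L F,
      (ra.res P).toValuationSubring = P.toValuationSubring.comap (algebraMap FM F))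
    (S : Setup R.O F) {V₁ V₂ : ValuationSubring F}
    (h₁ : S.IsExt S.G₁ V₁) (h₂ : S.IsExt S.G₂ V₂) (Q : Place k Fk) :
    ∀ h : F, h ∈ V₁ → h ∈ V₂ →
      (∀ P : Place L F, r (ra.res P) = Q → P.adicValuation h ≤ 1) →
      ∃ p : (R.O)[X], p.Monic ∧ (∀ i, RegOn r ((p.coeff i : R.O) : FM) Q) ∧
        Polynomial.eval₂ ((algebraMap FM F).comp R.O.subtype) h p = 0 := by
  intro h hV₁ hV₂ hreg
  refine exists_monic_regOn R Q h ?_ ?_
  · exact exists_monic_of_mem_inter S h₁ h₂ hV₁ hV₂
  · intro P hP
    apply hreg P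
    exact hP (ra.res P) (hra P).symm

/-- **POLE CONTROL along `α` for a Dedekind-Kummer setup** -/
theorem pc_of_setup (ra : Restr L (algebraMap FM F))
    (hra : ∀ P : Place L F,
      (ra.res P).toValuationSubring = P.toValuationSubring.comap (algebraMap FM F))
    (G : RedOne R (algebraMap FM F) β) (S : Setup R.O F) {V₂ : ValuationSubring F}
    (h₁ : S.IsExt S.G₁ G.O) (h₂ : S.IsExt S.G₂ V₂) (hArch : Arch V₂)
    (x : R.O) (n : ℕ) (hG₁ : S.G₁ = X - C (x ^ n)) (hG₂ : S.G₂ = X ^ n - C x)
    (Q : Place k Fk) (hΦ : ∀ i, RegOn r ((S.Φ.coeff i : R.O) : FM) Q)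
    (hxreg : RegOn r (x : FM) Q)
    (hx0 : R.red x ^ (n * n) - R.red x ≠ 0) (hxQ : Q.ord (R.red x ^ (n * n) - R.red x) = 0)
    (h : G.O) (hreg : ∀ P : Place L F, r (ra.res P) = Q → P.adicValuation (h : F) ≤ 1) :
    Q.adicValuation (G.red h) ≤ 1 := by
  have ht : ∀ P : Place L F, r (ra.res P) = Q → P.adicValuation S.t ≤ 1 := by
    intro P hP
    refine adicValuation_t_le_one S P fun i => ?_
    exact Restr_adicValuation_le_one ra P _ (hΦ i (ra.res P) hP)
  refine pc_of_int ra G V₂ Q ?_ ?_ h hreg
  · -- integrality over the disc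
    intro h' hV₂ hreg'
    refine exists_monic_regOn R Q (h' : F) ?_ ?_
    · exact exists_monic_of_mem_inter S h₁ h₂ h'.2 hV₂
    · intro P hP
      apply hreg' P
      exact hP (ra.res P) (hra P).symm
  · -- the idempotent
    set w : R.O := x ^ (n * n) - x with hw
    have hredw : R.red w = R.red x ^ (n * n) - R.red x := by
      rw [hw, map_sub, map_pow]
    refine heps_of_twoExt ra G S h₁ h₂ hArch Q w (by rw [hredw]; exact hx0)
      (by rw [hredw]; exact hxQ) ?_ ?_ ?_ ht
    · have : ((w : R.O) : FM) = (x : FM) ^ (n * n) - (x : FM) := by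
        rw [hw]; push_cast; rfl
      rw [this]
      exact (hxreg.pow _).sub hxreg
    · -- the reduction of `G₂(t)`
      have hev : S.ev S.G₂ = S.t ^ n - algebraMap FM F (x : FM) := by
        rw [hG₂, map_sub, map_pow, Setup.ev_X, Setup.ev_C]
      have hsplit : (⟨S.ev S.G₂, S.ev_mem h₁.comap S.G₂⟩ : G.O) =
          ⟨S.t, S.t_mem h₁.comap⟩ ^ n - ⟨algebraMap FM F (x : FM), G.α_mem x⟩ := by
        apply Subtype.ext
        exact hev
      rw [hsplit, map_sub, map_pow, red_t G S h₁ (x ^ n) hG₁, G.red_α, hredw, map_pow,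
        ← pow_mul]
    · -- the coefficients of `G₂`
      intro i
      rw [hG₂]
      have hc : ((X ^ n - C x : (R.O)[X]).coeff i) =
          (if i = n then 1 else 0) - (if i = 0 then x else 0) := by
        rw [coeff_sub, coeff_X_pow, coeff_C]
      rw [hc]
      have h1 : RegOn r (((if i = n then (1 : R.O) else 0) : R.O) : FM) Q := by
        split_ifs
        · simpa using regOn_one r Q
        · have : (((0 : R.O)) : FM) = algebraMap L FM 0 := by simp
          rw [this]
          exact regOn_const r 0 Q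
      have h2 : RegOn r (((if i = 0 then x else 0) : R.O) : FM) Q := by
        split_ifs
        · exact hxreg
        · have : (((0 : R.O)) : FM) = algebraMap L FM 0 := by simp
          rw [this]
          exact regOn_const r 0 Q
      have : ((((if i = n then (1 : R.O) else 0) - (if i = 0 then x else 0) : R.O)) : FM) =
          (((if i = n then (1 : R.O) else 0) : R.O) : FM) -
            (((if i = 0 then x else 0) : R.O) : FM) := by
        push_cast
        rfl
      rw [this]
      exact h1.sub h2

end Fermat.Agent.S34.Generic.PCSetup
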