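/-
PROJECT U (S34), helper10: ASSEMBLY OF `Generic/Compat.GenericAt` FOR A DEDEKIND-KUMMER SETUP
(abstract form; at `X₀(qM)`: `x = j`, `n = q`, `φ` = the `k`-linear Frobenius pull-back).

Inputs: helper18's `Dich.DichHyp` (dichotomy), helper7's fibre statements (`fibα`, `fibβ`),
helper11's good parameters (`GoodParam.gpa_of`, `gpb_of`), and `PCSetup.pc_of_setup` (pole control).
-/
import Mathlib
import Fermat.Agent.S34.Generic.PCSetup
import Fermat.Agent.S34.Generic.Dich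
import Fermat.Agent.S34.Generic.GoodParam

set_option autoImplicit false
set_option linter.unusedSectionVars false
set_option linter.style.haveILetI false

noncomputable section

namespace Fermat.Agent.S34.Generic.Assembly

open AlgebraicCurve Polynomial Fermat.Agent.S24.Ord Fermat.Agent.S18.CoreDefs
  Fermat.Agent.S18.Disc Fermat.Agent.S34.Generic.Compat Fermat.Agent.S34.TwoExt
  Fermat.Agent.S34.WeakApprox Fermat.Agent.S34.Generic.PCSetup Fermat.Agent.S34.Generic.Dich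
  Fermat.Agent.S34.Generic.GoodParam

variable {L : Type*} [Field L] {FM : Type*} [Field FM] [Algebra L FM]
variable {k : Type*} [Field k] {Fk : Type*} [Field Fk] [Algebra k Fk]
variable {A : ValuationSubring L} {π : A →+* k} {r : Place L FM → Place k Fk}
variable {F : Type*} [Field F] [Algebra L F] [Algebra FM F]
variable {R : RedDatum A π r} {β : FM →+* F}
variable [IsScalarTower L FM F] [FiniteDimensional FM F] [Algebra.IsSeparable FM F]
variable [HasPrincipalDivisors L FM]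

/-- **`GenericAt` for a Dedekind-Kummer setup** -/
theorem genericAt_of_setup (ra : Restr L (algebraMap FM F)) (rb : Restr L β)
    (hra : ∀ P : Place L F,
      (ra.res P).toValuationSubring = P.toValuationSubring.comap (algebraMap FM F))
    (G : RedOne R (algebraMap FM F) β) (S : Setup R.O F) {V₂ : ValuationSubring F}
    (h₁ : S.IsExt S.G₁ G.O) (h₂ : S.IsExt S.G₂ V₂) (hArch : Arch V₂)
    (x : R.O) (n : ℕ) (hG₁ : S.G₁ = X - C (x ^ n)) (hG₂ : S.G₂ = X ^ n - C x)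
    {φ : Fk →+* Fk} {Fr : Place k Fk → Place k Fk} {NC : Set (Place k Fk)} {B : Set R.O}
    (H : DichHyp R (algebraMap FM F) β ra rb G.O V₂ φ Fr NC B)
    (hdegF : ∀ P : Place L F, P.deg = 1)
    (hredβ : ∀ g : R.O, G.red ⟨β (g : FM), G.β_mem g⟩ = φ (R.red g))
    (hφ0 : ∀ y : Fk, y ≠ 0 → φ y ≠ 0)
    (hordφ : ∀ (Q : Place k Fk) (y : Fk), Q.ord (φ y) = (n : ℤ) * (Fr Q).ord y)
    {Q FQ Qm : Place k Fk} (hQ : Q ∈ NC) (hFQ : Fr Q = FQ) (hQm : Fr Qm = Q) (hne : FQ ≠ Qm)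
    (hΦ : ∀ i, RegOn r ((S.Φ.coeff i : R.O) : FM) Q)
    (hxQ : RegOn r (x : FM) Q) (hxQm : RegOn r (x : FM) Qm) (hxFQ : RegOn r (x : FM) FQ)
    (hx0 : R.red x ^ (n * n) - R.red x ≠ 0) (hxord : Q.ord (R.red x ^ (n * n) - R.red x) = 0)
    (hγ : ∃ γ : k, Q.ord (R.red x - algebraMap k Fk γ) = 1)
    (γm : k) (hγm : Qm.ord (R.red x - algebraMap k Fk γm) = 1)
    (hγm' : FQ.ord (R.red x - algebraMap k Fk γm) = 0)
    (fibα : ∀ PM : Place L FM, r PM = Q → ∃ P : Place L F, ra.res P = PM ∧ r (rb.res P) = FQ ∧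
      ra.e P = 1 ∧ ∀ P' : Place L F, ra.res P' = PM → r (rb.res P') = FQ → P' = P)
    (fibβ : ∀ PM : Place L FM, r PM = Qm → ∃ P : Place L F, rb.res P = PM ∧ r (ra.res P) = Q ∧
      rb.e P = 1 ∧ ∀ P' : Place L F, rb.res P' = PM → r (ra.res P') = Q → P' = P) :
    GenericAt ra rb G Q FQ Qm where
  ne := hne
  dich := by
    refine H.dich hQ hFQ hQm ?_
    exact hval_of_hint R ra H.α_const H.degM hdegF G.O V₂ Q (hint_of_setup ra hra S h₁ h₂ Q)
  fibα := fibα
  fibβ := fibβ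
  gpa PM hPM := gpa_of R x Q hxQ hγ PM hPM (H.degM PM)
  gpb PM hPM := gpb_of R x Qm FQ hxQm hxFQ γm hγm hγm' PM hPM (H.degM PM)
  red_β g hg h0 := by
    rw [hredβ]
    refine ⟨hφ0 _ hg, ?_⟩
    rw [hordφ, hFQ, h0, mul_zero]
  pc := pc_of_setup ra hra G S h₁ h₂ hArch x n hG₁ hG₂ Q hΦ hxQ hx0 hxord

end Fermat.Agent.S34.Generic.Assembly
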