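/-
PROJECT U (S34), helper10: PRELIMINARIES FOR `GenericAt` AT `X₀(qM)`: the level-`M` reduction datum
`RX0`, the restrictions `raX0`, `rbX0` along `α`, `β`, regularity of the coefficients of `Φ_q(X, j)`,
the three `j`-values around a good place, and the field `fibα` at a good place (`fibα_X0`),
hypotheses-first on the dichotomy hypotheses (`Dich.DichHyp`) and on the regularity of `j` on
non-cuspidal discs.
-/
import Mathlib
import Fermat.Agent.S34.Generic.Assembly
import Fermat.Agent.S34.Generic.FibSwap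
import Fermat.Agent.S34.Generic.GoodK
import Fermat.Agent.S34.Generic.SwapX0
import Fermat.Agent.S34.Generic.FibAlphaX0
import Fermat.Agent.S34.Generic.FibBetaX0
import Fermat.Agent.S34.TwoGaussX0
import Fermat.Agent.S34.ArchGauss
import Fermat.Agent.S37.ReductionInputsX0

set_option autoImplicit false
set_option linter.unusedSectionVars false
set_option linter.style.haveILetI false

noncomputable section

namespace Fermat.Agent.S34.Generic.CompatX0

open Polynomial ModularCurve AlgebraicCurve IsLocalRing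
open Fermat.Agent.S24.DegreeAlg (jgen)
open Fermat.Agent.S18.B.FkBasics (jk)
open Fermat.Agent.S24.Ord Fermat.Agent.S18.CoreDefs Fermat.Agent.S18.Disc
open Fermat.Agent.S37.Gauss.Datum Fermat.Agent.S37.Deuring.Core
open Fermat.Agent.S34.PowerBasisX0 Fermat.Agent.S34.TwoGaussX0 Fermat.Agent.S34.FrobK
open Fermat.Agent.S34.Generic.Compat Fermat.Agent.S34.Generic.Dich
  Fermat.Agent.S34.Generic.GoodK Fermat.Agent.S34.Generic.RestrAlong
  Fermat.Agent.S34.Generic.SmoothRedOfGeneric Fermat.Agent.S34.NodalDefs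

local notation "Kb" => AlgebraicClosure ℚ

set_option synthInstance.maxHeartbeats 400000

/-! ### polynomials in a regular function are regular -/

section RegOnAeval

variable {L : Type*} [Field L] {FM : Type*} [Field FM] [Algebra L FM]
variable {k : Type*} [Field k] {Fk : Type*} [Field Fk] [Algebra k Fk]
variable {A : ValuationSubring L} {π : A →+* k} {r : Place L FM → Place k Fk}

theorem regOn_aeval_int (R : RedDatum A π r) (x : R.O) (Q : Place k Fk)
    (hx : RegOn r (x : FM) Q) (p : Polynomial ℤ) :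
    RegOn r (((Polynomial.aeval x p : R.O)) : FM) Q := by
  induction p using Polynomial.induction_on with
  | C a =>
    have : (((Polynomial.aeval x (Polynomial.C a) : R.O)) : FM) = algebraMap L FM (a : L) := by
      rw [Polynomial.aeval_C]
      simp
    rw [this]
    exact regOn_const r _ Q
  | add p₁ p₂ h₁ h₂ =>
    rw [map_add]
    exact h₁.add h₂
  | monomial n a h =>
    rw [pow_succ, ← mul_assoc, map_mul, Polynomial.aeval_X]
    exact h.mul hx

end RegOnAeval

/-! ### `X₀(qM)` -/

section X0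

variable {q : ℕ} [hq : Fact q.Prime] {M : ℕ} [NeZero M] [NeZero q] {A : ValuationSubring Kb}
variable (hA : A.LiesOverPrime q) (hqM : ¬ q ∣ M)

attribute [local instance] algFE
attribute [local instance] Fermat.Agent.S18.GaussFromHBar.hasPrincipalDivisors_bar
attribute [local instance] Fermat.Agent.S37.ReductionInputs.hasPrincipalDivisors_Fk
attribute [local instance] Fermat.Agent.S37.ReductionInputs.infinite_residueField
attribute [local instance] Fermat.Agent.S18.ResidueBasics.isAlgClosed_residueField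

variable {gL gk : ℕ} (H : Hyp (gaussDatum M A hA hqM) gL gk)

/-- the level-`M` reduction datum of `X₀(M)` at `A` -/
abbrev RX0 : RedDatum A (residue ↥A) (placeMap H) := redDatum H

include hqM in
theorem isIntegral_alpha : (heckeAlphaBar Kb M q).toRingHom.IsIntegral :=
  Fermat.Agent.S34.Generic.FibAlphaX0.isIntegral_alpha hqM

/-- restriction along `α` -/
def raX0 : Restr Kb (algebraMap ↥(modularFunctionFieldBar M) ↥(modularFunctionFieldBar (M * q))) :=
  restrAlong (heckeAlphaBar Kb M q) (isIntegral_alpha hqM)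

/-- restriction along `β` -/
def rbX0 : Restr Kb ((heckeBetaBar Kb M q : ↥(modularFunctionFieldBar M) →ₐ[Kb]
    ↥(modularFunctionFieldBar (M * q))) : ↥(modularFunctionFieldBar M) →+*
      ↥(modularFunctionFieldBar (M * q))) :=
  restrAlong (heckeBetaBar Kb M q) (Fermat.Agent.S34.Generic.FibBetaX0.isIntegral_beta M q)

theorem raX0_res (P : Place Kb ↥(modularFunctionFieldBar (M * q))) :
    (raX0 hqM).res P = resAlong (heckeAlphaBar Kb M q) (isIntegral_alpha hqM) P := rfl

theorem rbX0_res (P : Place Kb ↥(modularFunctionFieldBar (M * q))) :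
    (rbX0 (M := M) (q := q)).res P = resAlong (heckeBetaBar Kb M q)
      (Fermat.Agent.S34.Generic.FibBetaX0.isIntegral_beta M q) P := rfl

include hqM in
theorem isSeparable_FE : Algebra.IsSeparable ↥(modularFunctionFieldBar M)
    ↥(modularFunctionFieldBar (M * q)) := by
  haveI := finite_FE (q := q) hqM
  haveI : CharZero ↥(modularFunctionFieldBar M) :=
    charZero_of_injective_algebraMap (algebraMap Kb ↥(modularFunctionFieldBar M)).injective
  infer_instance

/-- the coefficients of `Φ_q(X, j)` are regular wherever `j` is -/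
theorem regOn_coeff_PhiO (Q : Place (ResidueField ↥A) ↥(modularFunctionFieldFullC (ResidueField ↥A) M))
    (hj : RegOn (placeMap H) (jgen M) Q) (i : ℕ) :
    RegOn (placeMap H) ((((setupX0 hA hqM).Φ.coeff i : ↥(gaussDatum M A hA hqM).O)) :
      ↥(modularFunctionFieldBar M)) Q := by
  rw [setupX0_Φ, PhiO, Polynomial.coeff_map]
  exact regOn_aeval_int (RX0 hA hqM H) (jO hA hqM) Q hj _

variable [CharP (ResidueField ↥A) q]

/-- the three `j`-values around a good place -/
theorem exists_values_good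
    (Q : Place (ResidueField ↥A) ↥(modularFunctionFieldFullC (ResidueField ↥A) M))
    (hQ : IsGood (ResidueField ↥A) M q Q) :
    ∃ γ γm : ResidueField ↥A, HasVal Q (jk (ResidueField ↥A) M) γ ∧
      HasVal (Fr (ResidueField ↥A) M q Q) (jk (ResidueField ↥A) M) (γ ^ q) ∧
      HasVal ((Fr (ResidueField ↥A) M q).symm Q) (jk (ResidueField ↥A) M) γm ∧
      γ ^ q ≠ γm ∧ γ ^ (q ^ 2) ≠ γ := by
  obtain ⟨γ, hv, h1, hne⟩ := exists_value_good (ResidueField ↥A) M q Q hQ
  obtain ⟨γm, hvm, h1m, -⟩ := exists_value_good (ResidueField ↥A) M q _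
    (isGood_Fr_symm (ResidueField ↥A) M q Q hQ)
  have hpos : 0 < Q.ord (jk (ResidueField ↥A) M - algebraMap (ResidueField ↥A) _ γ) := by
    rw [h1]; exact one_pos
  have hposm : 0 < ((Fr (ResidueField ↥A) M q).symm Q).ord
      (jk (ResidueField ↥A) M - algebraMap (ResidueField ↥A) _ γm) := by
    rw [h1m]; exact one_pos
  have h2 := Fermat.Agent.S34.Generic.FiniteNonGeneric.value_Fr (ResidueField ↥A) M q _ hposm
  rw [Equiv.apply_symm_apply] at h2
  have hγ : γm ^ q = γ :=
    Fermat.Agent.S34.Generic.FiniteNonGeneric.value_unique (ResidueField ↥A) M Q h2 hpos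
  refine ⟨γ, γm, hv, hasVal_of_ord_pos _
    (Fermat.Agent.S34.Generic.FiniteNonGeneric.value_Fr (ResidueField ↥A) M q Q hpos), hvm, ?_, hne⟩
  intro h
  apply hne
  rw [pow_two, pow_mul, h, hγ]

set_option maxHeartbeats 1600000 in
/-- **the field `fibα` at a good place of `X₀(qM)`** -/
theorem fibα_X0
    (hreg : ∀ Q : Place (ResidueField ↥A) ↥(modularFunctionFieldFullC (ResidueField ↥A) M),
      0 ≤ Q.ord (jk (ResidueField ↥A) M) → RegOn (placeMap H) (jgen M) Q)
    {V₁ V₂ : ValuationSubring ↥(modularFunctionFieldBar (M * q))}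
    (h₁ : (setupX0 hA hqM).IsExt (setupX0 hA hqM).G₁ V₁)
    (h₂ : (setupX0 hA hqM).IsExt (setupX0 hA hqM).G₂ V₂)
    {NC : Set (Place (ResidueField ↥A) ↥(modularFunctionFieldFullC (ResidueField ↥A) M))}
    {B : Set (RX0 hA hqM H).O}
    (HD : DichHyp (RX0 hA hqM H) (algebraMap ↥(modularFunctionFieldBar M)
      ↥(modularFunctionFieldBar (M * q))) (heckeBetaBar Kb M q : ↥(modularFunctionFieldBar M) →+*
        ↥(modularFunctionFieldBar (M * q))) (raX0 hqM) rbX0 V₁ V₂
      (phi (ResidueField ↥A) M q : _ →+* _) (Fr (ResidueField ↥A) M q) NC B)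
    (hNC : ∀ Q : Place (ResidueField ↥A) ↥(modularFunctionFieldFullC (ResidueField ↥A) M),
      0 ≤ Q.ord (jk (ResidueField ↥A) M) → Q ∈ NC)
    (hjB : jO hA hqM ∈ B)
    (Q : Place (ResidueField ↥A) ↥(modularFunctionFieldFullC (ResidueField ↥A) M))
    (hQ : IsGood (ResidueField ↥A) M q Q) :
    ∀ PM : Place Kb ↥(modularFunctionFieldBar M), placeMap H PM = Q →
      ∃ P : Place Kb ↥(modularFunctionFieldBar (M * q)), (raX0 hqM).res P = PM ∧
        placeMap H ((rbX0 (M := M) (q := q)).res P) = Fr (ResidueField ↥A) M q Q ∧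
        (raX0 hqM).e P = 1 ∧ ∀ P' : Place Kb ↥(modularFunctionFieldBar (M * q)),
          (raX0 hqM).res P' = PM →
          placeMap H ((rbX0 (M := M) (q := q)).res P') = Fr (ResidueField ↥A) M q Q → P' = P := by
  haveI := isScalarTower_along (heckeAlphaBar Kb M q)
  haveI := finite_FE (q := q) hqM
  haveI := isSeparable_FE (q := q) (M := M) hqM
  have hdegF : ∀ P : Place Kb ↥(modularFunctionFieldBar (M * q)), P.deg = 1 :=
    fun P => deg_eq_one (Fermat.Agent.S24.Degree.isFF (M * q)) P
  obtain ⟨γ, γm, hv, hvF, hvm, hne, hne2⟩ := exists_values_good Q hQ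
  have hredj : (RX0 hA hqM H).red (jO hA hqM) = jk (ResidueField ↥A) M := red_jO hA hqM
  have hQ0 : 0 ≤ Q.ord (jk (ResidueField ↥A) M) := hQ.1.1
  refine Fermat.Agent.S34.Generic.FibSwap.fibα_of_value HD (hNC Q hQ0) rfl
    (Equiv.apply_symm_apply _ Q)
    (hval_of_hint (RX0 hA hqM H) (raX0 hqM) HD.α_const HD.degM hdegF V₁ V₂ Q
      (Fermat.Agent.S34.Generic.PCSetup.hint_of_setup (raX0 hqM) (fun P => rfl)
        (setupX0 hA hqM) h₁ h₂ Q))
    hjB (γF := γ ^ q) (γm := γm) (by rw [hredj]; exact hvF) (by rw [hredj]; exact hvm) hne ?_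
  intro PM hPM
  obtain ⟨c, hc, hcred⟩ := exists_hasVal_of_regOn (RX0 hA hqM H) HD.degM (jO hA hqM)
    (hreg Q hQ0) hPM
  rw [hredj] at hcred
  have hcγ : residue ↥A c = γ := hcred.unique hv
  have hgen : residue ↥A c ^ (q ^ 2) ≠ residue ↥A c := by rw [hcγ]; exact hne2
  obtain ⟨P, hP1, hP2, -, ⟨x, hx, hxv⟩, huniq⟩ :=
    Fermat.Agent.S34.Generic.FibAlphaX0.exists_typeOne_place hA hqM PM c hc hgen
  refine ⟨P, hP1, hP2, ⟨x, by rw [hx, hcγ], hxv⟩, fun P' hP' ⟨x', hx', hxv'⟩ => ?_⟩
  exact huniq P' hP' ⟨x', by rw [hx', hcγ], hxv'⟩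


end X0

end Fermat.Agent.S34.Generic.CompatX0
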