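/-
PROJECT U (S34): **`nc_β` (and its `α ↔ β` twin) at `X₀(qM)`** — the field of `Dich.DichHyp` saying
that a place of `X₀(qM)` whose `α`-restriction reduces to a non-cusp has its `β`-restriction
reducing to a non-cusp.

It is a corollary of `FibAlphaX0.exists_value_of_restrict`: every place `P` over a place `PM` with
`A`-integral `j`-value has an `A`-integral value of `j_q = β j` (a root in `ℚ̄` of the monic
`Φ_q(X, c) ∈ A[X]` lies in `A`).  Hypotheses-first on ONE level-`M` fact (`hint`): a place of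
`X₀(M)` reduces to a non-cusp iff its `j`-value is `A`-integral.
-/
import Mathlib
import Fermat.Agent.S34.Generic.FibAlphaX0
import Fermat.Agent.S34.Generic.FibBetaX0
import Fermat.Agent.S34.Generic.RestrAlong
import Fermat.Agent.S34.Generic.Dich
import Fermat.Agent.S18.Disc.Local
import Fermat.Agent.S34.CuspRedX0

set_option autoImplicit false

noncomputable section

namespace Fermat.Agent.S34.Generic.NcBetaX0

/-! ### The level-`M` fact: non-cuspidal reduction iff integral value -/

section LevelM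

open AlgebraicCurve Fermat.Agent.S24.Ord Fermat.Agent.S18.CoreDefs Fermat.Agent.S18.Disc
  Fermat.Agent.S34.Generic.Dich

variable {L : Type*} [Field L] {FM : Type*} [Field FM] [Algebra L FM]
variable {k : Type*} [Field k] {Fk : Type*} [Field Fk] [Algebra k Fk]
variable {A : ValuationSubring L} {π : A →+* k} {r : Place L FM → Place k Fk}
variable [HasPrincipalDivisors L FM]

/-- **A place reduces to a non-pole of `red x` iff `x` has an `A`-integral value there**, for a
Gauss-integral function `x` which is regular on the discs of the non-poles of `red x` and whose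
inverse is regular on the discs of the poles of `red x`. -/
theorem nonneg_ord_red_iff_exists_hasVal (R : RedDatum A π r)
    (hdeg : ∀ P : Place L FM, P.deg = 1) (x : R.O)
    (hreg : ∀ Q : Place k Fk, 0 ≤ Q.ord (R.red x) → RegOn r (x : FM) Q)
    (hinv : ∀ Q : Place k Fk, Q.ord (R.red x) ≤ 0 → RegOn r ((x : FM))⁻¹ Q)
    (PM : Place L FM) :
    0 ≤ (r PM).ord (R.red x) ↔ ∃ c : A, HasVal PM (x : FM) (c : L) := by
  constructor
  · intro h
    obtain ⟨a, ha, -⟩ := exists_hasVal_of_regOn R hdeg x (hreg _ h) (P := PM) rfl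
    exact ⟨a, ha⟩
  · rintro ⟨c, hc⟩
    by_contra hneg
    rw [not_le] at hneg
    have hred : R.red x ≠ 0 := by
      intro h0
      rw [h0, Place.ord_zero] at hneg
      exact lt_irrefl _ hneg
    obtain ⟨u, hu⟩ := (red_ne_zero_iff_isUnit R x).mp hred
    set xinv : R.O := ((u⁻¹ : R.Oˣ) : R.O) with hxinv
    have hcoe : ((xinv : R.O) : FM) = ((x : R.O) : FM)⁻¹ := by
      rw [hxinv, coe_units_inv, hu]
    have hredinv : R.red xinv = (R.red x)⁻¹ := by
      have h1 : R.red xinv * R.red x = 1 := by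
        rw [← map_mul, hxinv, ← hu, Units.inv_mul, map_one]
      exact eq_inv_of_mul_eq_one_left h1
    have hregInv : RegOn r ((xinv : R.O) : FM) (r PM) := by
      rw [hcoe]
      exact hinv _ hneg.le
    obtain ⟨a', ha'1, ha'2⟩ := exists_hasVal_of_regOn R hdeg xinv hregInv (P := PM) rfl
    -- the reduction of `x⁻¹` vanishes at `r PM`
    have hzero : HasVal (r PM) (R.red xinv) 0 := by
      unfold HasVal
      rw [map_zero, sub_zero, hredinv]
      have hne : (R.red x)⁻¹ ≠ 0 := inv_ne_zero hred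
      rw [← ord_pos_iff _ hne, Place.ord_inv]
      omega
    have hπ : π a' = 0 := ha'2.unique hzero
    -- `c * a' = 1`
    have hx0 : ((x : R.O) : FM) ≠ 0 := coe_ne_zero_of_red_ne_zero R hred
    have h1 : HasVal PM (1 : FM) ((c : L) * (a' : L)) := by
      have := hc.mul ha'1
      rwa [hcoe, mul_inv_cancel₀ hx0] at this
    have h2 : (c : L) * (a' : L) = 1 := h1.unique (hasVal_one PM)
    have h3 : c * a' = 1 := Subtype.ext h2
    have h4 := congrArg π h3
    rw [map_mul, hπ, mul_zero, map_one] at h4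
    exact zero_ne_one h4

end LevelM

open ModularCurve AlgebraicCurve IsLocalRing
open Fermat.Agent.S24.DegreeAlg (jgen)
open Fermat.Agent.S18.B.FkBasics (jk)
open Fermat.Agent.S34.PowerBasisX0 Fermat.Agent.S34.Generic.RestrAlong

local notation "Kb" => AlgebraicClosure ℚ

variable {q : ℕ} [hq : Fact q.Prime] {M : ℕ} [NeZero M] [NeZero q] {A : ValuationSubring Kb}
variable (hA : A.LiesOverPrime q) (hqM : ¬ q ∣ M)

/-- the places of `X₀(M)` with an `A`-integral `j`-value -/
def IntegralJ (A : ValuationSubring Kb) (PM : Place Kb ↥(modularFunctionFieldBar M)) : Prop :=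
  ∃ c : ↥A, PM.adicValuation (jgen M - algebraMap Kb _ (c : Kb)) < 1

include hA hqM in
/-- **`α`-integral ⟹ `β`-integral.** -/
theorem integralJ_beta_of_alpha (hα : (heckeAlphaBar Kb M q).toRingHom.IsIntegral)
    (hβ : (heckeBetaBar Kb M q).toRingHom.IsIntegral)
    (P : Place Kb ↥(modularFunctionFieldBar (M * q)))
    (h : IntegralJ A (resAlong (heckeAlphaBar Kb M q) hα P)) :
    IntegralJ A (resAlong (heckeBetaBar Kb M q) hβ P) := by
  obtain ⟨c, hc⟩ := h
  obtain ⟨x', -, -, hx'⟩ := FibAlphaX0.exists_value_of_restrict hA hqM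
    (resAlong (heckeAlphaBar Kb M q) hα P) c hc P rfl
  refine ⟨x', ?_⟩
  rw [← adicValuation_map_lt_one_iff (heckeBetaBar Kb M q) hβ P, map_sub, AlgHom.commutes]
  exact hx'

include hA hqM in
/-- **`β`-integral ⟹ `α`-integral.** -/
theorem integralJ_alpha_of_beta (hα : (heckeAlphaBar Kb M q).toRingHom.IsIntegral)
    (hβ : (heckeBetaBar Kb M q).toRingHom.IsIntegral)
    (P : Place Kb ↥(modularFunctionFieldBar (M * q)))
    (h : IntegralJ A (resAlong (heckeBetaBar Kb M q) hβ P)) :
    IntegralJ A (resAlong (heckeAlphaBar Kb M q) hα P) := by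
  obtain ⟨c, hc⟩ := h
  obtain ⟨x', -, -, hx'⟩ := FibBetaX0.exists_value_of_restrict hA hqM
    (resAlong (heckeBetaBar Kb M q) hβ P) c hc P rfl
  refine ⟨x', ?_⟩
  rw [← adicValuation_map_lt_one_iff (heckeAlphaBar Kb M q) hα P, map_sub, AlgHom.commutes]
  exact hx'

include hA hqM in
theorem integralJ_alpha_iff_beta (hα : (heckeAlphaBar Kb M q).toRingHom.IsIntegral)
    (hβ : (heckeBetaBar Kb M q).toRingHom.IsIntegral)
    (P : Place Kb ↥(modularFunctionFieldBar (M * q))) :
    IntegralJ A (resAlong (heckeAlphaBar Kb M q) hα P) ↔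
      IntegralJ A (resAlong (heckeBetaBar Kb M q) hβ P) :=
  ⟨integralJ_beta_of_alpha hA hqM hα hβ P, integralJ_alpha_of_beta hA hqM hα hβ P⟩

/-! ### The fields `nc_β`, `nc_α` -/

section Abs

variable {k : Type*} [Field k] {κ : Type*} [Field κ] [Algebra k κ]

include hA hqM in
/-- **`nc_β`** for `NC = {Q | 0 ≤ ord_Q j̄}` (any field element `jb` in the role of `j̄`). -/
theorem nc_beta (r : Place Kb ↥(modularFunctionFieldBar M) → Place k κ) (jb : κ)
    (hint : ∀ PM : Place Kb ↥(modularFunctionFieldBar M), 0 ≤ (r PM).ord jb ↔ IntegralJ A PM)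
    (hα : (heckeAlphaBar Kb M q).toRingHom.IsIntegral)
    (hβ : (heckeBetaBar Kb M q).toRingHom.IsIntegral)
    (P : Place Kb ↥(modularFunctionFieldBar (M * q)))
    (h : 0 ≤ (r (resAlong (heckeAlphaBar Kb M q) hα P)).ord jb) :
    0 ≤ (r (resAlong (heckeBetaBar Kb M q) hβ P)).ord jb :=
  (hint _).mpr (integralJ_beta_of_alpha hA hqM hα hβ P ((hint _).mp h))

include hA hqM in
/-- **`nc_α`**, the twin for the swapped pair. -/
theorem nc_alpha (r : Place Kb ↥(modularFunctionFieldBar M) → Place k κ) (jb : κ)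
    (hint : ∀ PM : Place Kb ↥(modularFunctionFieldBar M), 0 ≤ (r PM).ord jb ↔ IntegralJ A PM)
    (hα : (heckeAlphaBar Kb M q).toRingHom.IsIntegral)
    (hβ : (heckeBetaBar Kb M q).toRingHom.IsIntegral)
    (P : Place Kb ↥(modularFunctionFieldBar (M * q)))
    (h : 0 ≤ (r (resAlong (heckeBetaBar Kb M q) hβ P)).ord jb) :
    0 ≤ (r (resAlong (heckeAlphaBar Kb M q) hα P)).ord jb :=
  (hint _).mpr (integralJ_alpha_of_beta hA hqM hα hβ P ((hint _).mp h))

end Abs

/-! ### `X₀(M)`: the level-`M` fact from `CuspRedX0`, and the unconditional statements -/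

section X0

set_option synthInstance.maxHeartbeats 400000

open Fermat.Agent.S37.Deuring.Core Fermat.Agent.S37.Deuring.HypX0 Fermat.Agent.S37.Gauss.Datum
  Fermat.Agent.S34.CuspRedX0

variable [HasPrincipalDivisors Kb ↥(modularFunctionFieldBar M)]
  [HasPrincipalDivisors (ResidueField ↥A) ↥(modularFunctionFieldFullC (ResidueField ↥A) M)]
  [Infinite (ResidueField ↥A)]
variable {gL gk : ℕ} (H : Hyp (gaussDatum M A hA hqM) gL gk)

omit [NeZero q] in
/-- **A place of `X₀(M)` reduces to a non-cusp iff its `j`-value is `A`-integral.** -/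
theorem nonneg_ord_jk_iff_integralJ (PM : Place Kb ↥(modularFunctionFieldBar M)) :
    0 ≤ (placeMap H PM).ord (jk (ResidueField ↥A) M) ↔ IntegralJ A PM := by
  have h := nonneg_ord_red_iff_exists_hasVal (redDatum H)
    (fun P => Fermat.Agent.S24.Ord.deg_eq_one (Fermat.Agent.S24.Degree.isFF M) P)
    (jO hA hqM)
    (fun Q hQ => by
      rw [show (redDatum H).red (jO hA hqM) = jk (ResidueField ↥A) M from red_jO hA hqM] at hQ
      exact regOn_jgen hA hqM H Q hQ)
    (fun Q hQ => by
      rw [show (redDatum H).red (jO hA hqM) = jk (ResidueField ↥A) M from red_jO hA hqM] at hQ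
      exact regOn_inv_jgen hA hqM H Q hQ) PM
  rw [show (redDatum H).red (jO hA hqM) = jk (ResidueField ↥A) M from red_jO hA hqM] at h
  exact h

/-- **`nc_β` at `X₀(qM)`**, unconditional. -/
theorem nc_beta_X0 (hα : (heckeAlphaBar Kb M q).toRingHom.IsIntegral)
    (hβ : (heckeBetaBar Kb M q).toRingHom.IsIntegral)
    (P : Place Kb ↥(modularFunctionFieldBar (M * q)))
    (h : 0 ≤ (placeMap H (resAlong (heckeAlphaBar Kb M q) hα P)).ord (jk (ResidueField ↥A) M)) :
    0 ≤ (placeMap H (resAlong (heckeBetaBar Kb M q) hβ P)).ord (jk (ResidueField ↥A) M) :=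
  nc_beta hA hqM (placeMap H) _ (nonneg_ord_jk_iff_integralJ hA hqM H) hα hβ P h

/-- **`nc_α` at `X₀(qM)`**, unconditional. -/
theorem nc_alpha_X0 (hα : (heckeAlphaBar Kb M q).toRingHom.IsIntegral)
    (hβ : (heckeBetaBar Kb M q).toRingHom.IsIntegral)
    (P : Place Kb ↥(modularFunctionFieldBar (M * q)))
    (h : 0 ≤ (placeMap H (resAlong (heckeBetaBar Kb M q) hβ P)).ord (jk (ResidueField ↥A) M)) :
    0 ≤ (placeMap H (resAlong (heckeAlphaBar Kb M q) hα P)).ord (jk (ResidueField ↥A) M) :=
  nc_alpha hA hqM (placeMap H) _ (nonneg_ord_jk_iff_integralJ hA hqM H) hα hβ P h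

end X0

end Fermat.Agent.S34.Generic.NcBetaX0
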