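/-
PROJECT U (S34), ROUTE G (helper6, integration): THE RECORD `Dich.DichHyp` AT `X₀(qM)`, in the
literal shape consumed by helper10's `Generic/CompatX0.fibα_X0` / `genericAt_X0`:

  `DichHyp (RX0 hA hqM H) (algebraMap F_M E) β (raX0 hqM) rbX0 V₁ V₂ φ Fr NC B`,

`NC` = the non-cuspidal places of `κ = k(X₀(M))`, `B` = the Gauss-integral functions of level `M`
which are regular on all non-cuspidal discs, `V₁ = (BranchX0.B1X0 hA hqM).O`,
`V₂ = V₁.comap w_q`, `φ = FrobK.phi`, `Fr = FrobK.Fr`.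

The fields which are not one-liners are hypotheses of `dichHyp_of` (`B_φ`, `B_sep`); all the
others are proved here.
-/
import Fermat.Agent.S34.Generic.CompatX0
import Fermat.Agent.S34.Generic.BranchX0
import Fermat.Agent.S34.Generic.NcBetaX0
import Fermat.Agent.S34.Euler.FrobSide
import Fermat.Agent.S34.BranchAux
import Fermat.Agent.S34.Z1X0

set_option autoImplicit false
set_option linter.unusedSectionVars false
set_option linter.style.haveILetI false
set_option synthInstance.maxHeartbeats 400000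

noncomputable section

namespace Fermat.Agent.S34.Generic.DichRecordX0

open Polynomial ModularCurve AlgebraicCurve IsLocalRing
open Fermat.Agent.S24.DegreeAlg (jgen)
open Fermat.Agent.S18.B.FkBasics (jk)
open Fermat.Agent.S24.Ord Fermat.Agent.S18.CoreDefs Fermat.Agent.S18.Disc
open Fermat.Agent.S37.Gauss.Datum Fermat.Agent.S37.Deuring.Core
open Fermat.Agent.S34.PowerBasisX0 Fermat.Agent.S34.TwoGaussX0 Fermat.Agent.S34.FrobK
open Fermat.Agent.S34.Generic.Compat Fermat.Agent.S34.Generic.Dich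
  Fermat.Agent.S34.Generic.RestrAlong Fermat.Agent.S34.Generic.CompatX0
  Fermat.Agent.S34.Generic.BranchX0 Fermat.Agent.S34.NodalDefs Fermat.Agent.S34.WqGalois

local notation "Kb" => AlgebraicClosure ℚ

variable {q : ℕ} [hq : Fact q.Prime] {M : ℕ} [NeZero M] [NeZero q] {A : ValuationSubring Kb}
variable (hA : A.LiesOverPrime q) (hqM : ¬ q ∣ M)

attribute [local instance] algFE
attribute [local instance] Fermat.Agent.S18.GaussFromHBar.hasPrincipalDivisors_bar
attribute [local instance] Fermat.Agent.S37.ReductionInputs.hasPrincipalDivisors_Fk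
attribute [local instance] Fermat.Agent.S37.ReductionInputs.infinite_residueField
attribute [local instance] Fermat.Agent.S18.ResidueBasics.isAlgClosed_residueField

variable {gL gk : ℕ} (H : Hyp (gaussDatum M A hA hqM) gL gk)

/-- the non-cuspidal places of `κ` -/
def NCX0 (A : ValuationSubring Kb) (M : ℕ) [NeZero M] :
    Set (Place (ResidueField ↥A) ↥(modularFunctionFieldFullC (ResidueField ↥A) M)) :=
  {Q | 0 ≤ Q.ord (jk (ResidueField ↥A) M)}

/-- the test functions: Gauss-integral, regular on all non-cuspidal discs -/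
def BX0 : Set (RX0 hA hqM H).O :=
  {g | ∀ Q ∈ NCX0 A M, RegOn (placeMap H) ((g : (RX0 hA hqM H).O) : ↥(modularFunctionFieldBar M)) Q}

/-- the first Gauss ring -/
abbrev V1 : ValuationSubring ↥(modularFunctionFieldBar (M * q)) := (B1X0 hA hqM).O

/-- the second Gauss ring -/
abbrev V2 : ValuationSubring ↥(modularFunctionFieldBar (M * q)) :=
  (B1X0 hA hqM).O.comap (wqHom M q hq.out hqM)

/-! ### generalities on valuation subrings -/

theorem mem_nonunits_iff_inv_not_mem {K : Type*} [Field K] (V : ValuationSubring K) {x : K}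
    (hx : x ≠ 0) : x ∈ V.nonunits ↔ x⁻¹ ∉ V := by
  rw [V.mem_nonunits_iff, ← V.valuation_le_one_iff, map_inv₀, not_le]
  have h0 : V.valuation x ≠ 0 := (Valuation.ne_zero_iff _).mpr hx
  rw [one_lt_inv₀ (zero_lt_iff.mpr h0)]

theorem mem_nonunits_comap_iff {K : Type*} [Field K] (V : ValuationSubring K) (w : K →+* K)
    (x : K) : x ∈ (V.comap w).nonunits ↔ w x ∈ V.nonunits := by
  rcases eq_or_ne x 0 with rfl | hx
  · simp
  have hwx : w x ≠ 0 := (_root_.map_ne_zero w).mpr hx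
  rw [mem_nonunits_iff_inv_not_mem _ hx, mem_nonunits_iff_inv_not_mem _ hwx,
    ValuationSubring.mem_comap, map_inv₀]

/-! ### the two Gauss rings -/

theorem mem_V2_iff (x : ↥(modularFunctionFieldBar (M * q))) :
    x ∈ V2 hA hqM ↔ wq M q hq.out hqM x ∈ V1 hA hqM := Iff.rfl

theorem mem_nonunits_V2_iff (x : ↥(modularFunctionFieldBar (M * q))) :
    x ∈ (V2 hA hqM).nonunits ↔ wq M q hq.out hqM x ∈ (V1 hA hqM).nonunits :=
  mem_nonunits_comap_iff _ _ x

theorem comap_V1 : (V1 hA hqM).comap (algebraMap ↥(modularFunctionFieldBar M)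
    ↥(modularFunctionFieldBar (M * q))) = (gaussDatum M A hA hqM).O :=
  (isExt₁ hA hqM).comap

theorem comap_V2 : (V2 hA hqM).comap (algebraMap ↥(modularFunctionFieldBar M)
    ↥(modularFunctionFieldBar (M * q))) = (gaussDatum M A hA hqM).O :=
  (isExt_comap hA hqM).comap

/-! ### the dictionary -/

theorem alpha_mem₁ (g : (RX0 hA hqM H).O) :
    algebraMap ↥(modularFunctionFieldBar M) ↥(modularFunctionFieldBar (M * q))
      ((g : (RX0 hA hqM H).O) : ↥(modularFunctionFieldBar M)) ∈ V1 hA hqM :=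
  hα hA hqM g

theorem beta_mem₁ (g : (RX0 hA hqM H).O) :
    (heckeBetaBar Kb M q : ↥(modularFunctionFieldBar M) →+* ↥(modularFunctionFieldBar (M * q)))
      ((g : (RX0 hA hqM H).O) : ↥(modularFunctionFieldBar M)) ∈ V1 hA hqM :=
  hβ hA hqM g

theorem alpha_mem₂ (g : (RX0 hA hqM H).O) :
    algebraMap ↥(modularFunctionFieldBar M) ↥(modularFunctionFieldBar (M * q))
      ((g : (RX0 hA hqM H).O) : ↥(modularFunctionFieldBar M)) ∈ V2 hA hqM := by
  rw [mem_V2_iff, algebraMap_FE, wq_alpha]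
  exact hβ hA hqM g

theorem beta_mem₂ (g : (RX0 hA hqM H).O) :
    (heckeBetaBar Kb M q : ↥(modularFunctionFieldBar M) →+* ↥(modularFunctionFieldBar (M * q)))
      ((g : (RX0 hA hqM H).O) : ↥(modularFunctionFieldBar M)) ∈ V2 hA hqM := by
  rw [mem_V2_iff]
  show wq M q hq.out hqM (heckeBetaBar Kb M q _) ∈ _
  rw [wq_beta]
  exact hα hA hqM g

variable [CharP (ResidueField ↥A) q]

/-- `red₁ (β g - α g') = φ (red g) - red g'` -/
theorem cong₁ (g g' : (RX0 hA hqM H).O)
    (h : (RX0 hA hqM H).red g' = (phi (ResidueField ↥A) M q : _ →+* _) ((RX0 hA hqM H).red g)) :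
    (heckeBetaBar Kb M q : ↥(modularFunctionFieldBar M) →+* ↥(modularFunctionFieldBar (M * q)))
        ((g : (RX0 hA hqM H).O) : ↥(modularFunctionFieldBar M)) -
      algebraMap ↥(modularFunctionFieldBar M) ↥(modularFunctionFieldBar (M * q))
        ((g' : (RX0 hA hqM H).O) : ↥(modularFunctionFieldBar M)) ∈ (V1 hA hqM).nonunits := by
  have h0 : (B1X0 hA hqM).red (⟨_, hβ hA hqM g⟩ - ⟨_, hα hA hqM g'⟩) = 0 := by
    rw [map_sub, hredβ' hA hqM g, hredα hA hqM g', sub_eq_zero]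
    exact h.symm
  exact (Fermat.Agent.S34.BranchAux.red_eq_zero_iff_mem_nonunits (B1X0 hA hqM) _).mp h0

theorem cong₂ (g g' : (RX0 hA hqM H).O)
    (h : (RX0 hA hqM H).red g' = (phi (ResidueField ↥A) M q : _ →+* _) ((RX0 hA hqM H).red g)) :
    algebraMap ↥(modularFunctionFieldBar M) ↥(modularFunctionFieldBar (M * q))
        ((g : (RX0 hA hqM H).O) : ↥(modularFunctionFieldBar M)) -
      (heckeBetaBar Kb M q : ↥(modularFunctionFieldBar M) →+* ↥(modularFunctionFieldBar (M * q)))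
        ((g' : (RX0 hA hqM H).O) : ↥(modularFunctionFieldBar M)) ∈ (V2 hA hqM).nonunits := by
  rw [mem_nonunits_V2_iff, map_sub, algebraMap_FE, wq_alpha]
  have : wq M q hq.out hqM ((heckeBetaBar Kb M q : ↥(modularFunctionFieldBar M) →+*
      ↥(modularFunctionFieldBar (M * q))) ((g' : (RX0 hA hqM H).O) : ↥(modularFunctionFieldBar M))) =
      heckeAlphaBar Kb M q ((g' : (RX0 hA hqM H).O) : ↥(modularFunctionFieldBar M)) :=
    wq_beta hq.out hqM _
  rw [this]
  exact cong₁ hA hqM H g g' h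

/-! ### `𝔪₁ ∩ 𝔪₂ = 𝔪_A (O₁ ∩ O₂)` -/

omit [CharP (ResidueField ↥A) q] in
theorem algebraMap_mem_V1_iff (c : Kb) :
    algebraMap Kb ↥(modularFunctionFieldBar (M * q)) c ∈ V1 hA hqM ↔ c ∈ A :=
  ⟨fun h => (B1X0 hA hqM).mem_of_algebraMap_mem c h, fun h => (B1X0 hA hqM).algebraMap_mem ⟨c, h⟩⟩

omit [CharP (ResidueField ↥A) q] in
theorem algebraMap_mem_V2_iff (c : Kb) :
    algebraMap Kb ↥(modularFunctionFieldBar (M * q)) c ∈ V2 hA hqM ↔ c ∈ A := by
  rw [mem_V2_iff, AlgEquiv.commutes]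
  exact algebraMap_mem_V1_iff hA hqM c

omit [CharP (ResidueField ↥A) q] in
include H in
theorem hm12 : ∀ h₀ : ↥(modularFunctionFieldBar (M * q)), h₀ ∈ (V1 hA hqM).nonunits →
    h₀ ∈ (V2 hA hqM).nonunits → ∃ c : A, residue ↥A c = 0 ∧
      ∃ h : ↥(modularFunctionFieldBar (M * q)), h ∈ V1 hA hqM ∧ h ∈ V2 hA hqM ∧
        h₀ = algebraMap Kb ↥(modularFunctionFieldBar (M * q)) (c : Kb) * h := by
  refine hm12_of_valuation (RX0 hA hqM H) (V1 hA hqM) (V2 hA hqM) ?_ ?_
    (algebraMap_mem_V1_iff hA hqM) (algebraMap_mem_V2_iff hA hqM)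
  · intro f hf
    obtain ⟨a, -, ha⟩ := Fermat.Agent.S34.Z1X0.exists_valuation_eq_const hA hqM
      (comap_V1 hA hqM) hf
    exact ⟨a, ha⟩
  · intro f hf
    obtain ⟨a, -, ha⟩ := Fermat.Agent.S34.Z1X0.exists_valuation_eq_const hA hqM
      (comap_V2 hA hqM) hf
    exact ⟨a, ha⟩

/-! ### the record -/

/-- **`DichHyp` at `X₀(qM)`**, from the two lifting statements `B_φ`, `B_sep`. -/
theorem dichHyp_of
    (hBφ : ∀ g ∈ BX0 hA hqM H, ∃ g' ∈ BX0 hA hqM H,
      (RX0 hA hqM H).red g' = (phi (ResidueField ↥A) M q : _ →+* _) ((RX0 hA hqM H).red g))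
    (hBsep : ∀ Q₁ ∈ NCX0 A M, ∀ Q₂ ∈ NCX0 A M,
      (∀ g ∈ BX0 hA hqM H, ∀ γ : ResidueField ↥A,
        HasVal Q₁ ((RX0 hA hqM H).red g) γ → HasVal Q₂ ((RX0 hA hqM H).red g) γ) → Q₁ = Q₂) :
    DichHyp (RX0 hA hqM H) (algebraMap ↥(modularFunctionFieldBar M)
      ↥(modularFunctionFieldBar (M * q))) (heckeBetaBar Kb M q : ↥(modularFunctionFieldBar M) →+*
        ↥(modularFunctionFieldBar (M * q))) (raX0 hqM) rbX0 (V1 hA hqM) (V2 hA hqM)
      (phi (ResidueField ↥A) M q : _ →+* _) (Fr (ResidueField ↥A) M q) (NCX0 A M)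
      (BX0 hA hqM H) where
  α_const c := (heckeAlphaBar Kb M q).commutes c
  β_const c := (heckeBetaBar Kb M q).commutes c
  degM P := deg_eq_one (Fermat.Agent.S24.Degree.isFF M) P
  degk Q := H.riemannK.deg_one Q
  nc_fr Q hQ := by
    show 0 ≤ (Fr (ResidueField ↥A) M q Q).ord (jk (ResidueField ↥A) M)
    rw [Fermat.Agent.S34.Generic.FiniteNonGeneric.ord_Fr_jk]
    exact hQ
  fr_inj := (Fr (ResidueField ↥A) M q).injective
  nc_β P hP := Fermat.Agent.S34.Generic.NcBetaX0.nc_beta_X0 hA hqM H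
    (Fermat.Agent.S34.Generic.CompatX0.isIntegral_alpha hqM)
    (Fermat.Agent.S34.Generic.FibBetaX0.isIntegral_beta M q) P hP
  B_add g hg g' hg' Q hQ := (hg Q hQ).add (hg' Q hQ)
  B_reg g hg Q hQ := hg Q hQ
  B_φ := hBφ
  B_sep := hBsep
  φ_val Q _ y γ h :=
    (Fermat.Agent.S34.Euler.FrobSide.valueRule (ResidueField ↥A) M q Q y γ).mpr h
  α_mem₁ := alpha_mem₁ hA hqM H
  β_mem₁ := beta_mem₁ hA hqM H
  α_mem₂ := alpha_mem₂ hA hqM H
  β_mem₂ := beta_mem₂ hA hqM H
  cong₁ := cong₁ hA hqM H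
  cong₂ := cong₂ hA hqM H
  hm12 := hm12 hA hqM H

omit [CharP (ResidueField ↥A) q] in
/-- every non-cuspidal place is in `NC` -/
theorem mem_NCX0 (Q : Place (ResidueField ↥A) ↥(modularFunctionFieldFullC (ResidueField ↥A) M))
    (hQ : 0 ≤ Q.ord (jk (ResidueField ↥A) M)) : Q ∈ NCX0 A M := hQ

omit [CharP (ResidueField ↥A) q] in
/-- `j` is a test function -/
theorem jO_mem_BX0 : jO hA hqM ∈ BX0 hA hqM H := fun Q hQ =>
  Fermat.Agent.S34.CuspRedX0.regOn_jgen hA hqM H Q hQ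

end Fermat.Agent.S34.Generic.DichRecordX0
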