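/-
PROJECT U (S34), helper10: `GenericAt` AT EVERY GOOD PLACE OF `X₀(qM)`, and the two components
`R1X0`, `R2X0 : NodalDefs.SmoothRed` of the nodal datum (hypotheses-first on the first branch
`(V₁, red₁)` and on `V₂`, on the dichotomy hypotheses `Dich.DichHyp` and on the regularity of `j` on
non-cuspidal discs).
-/
import Mathlib
import Fermat.Agent.S34.Generic.CompatX0
import Fermat.Agent.S34.PcgSwap
import Fermat.Agent.S34.WqGalois
import Fermat.Agent.S34.CuspRedX0

set_option autoImplicit false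
set_option linter.unusedSectionVars false
set_option linter.style.haveILetI false

noncomputable section

namespace Fermat.Agent.S34.Generic.GenericX0

open Polynomial ModularCurve AlgebraicCurve IsLocalRing
open Fermat.Agent.S24.DegreeAlg (jgen)
open Fermat.Agent.S18.B.FkBasics (jk)
open Fermat.Agent.S24.Ord Fermat.Agent.S18.CoreDefs Fermat.Agent.S18.Disc
open Fermat.Agent.S37.Gauss.Datum Fermat.Agent.S37.Deuring.Core
open Fermat.Agent.S34.PowerBasisX0 Fermat.Agent.S34.TwoGaussX0 Fermat.Agent.S34.FrobK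
open Fermat.Agent.S34.Generic.Compat Fermat.Agent.S34.Generic.Dich
  Fermat.Agent.S34.Generic.GoodK Fermat.Agent.S34.Generic.RestrAlong
  Fermat.Agent.S34.Generic.SmoothRedOfGeneric Fermat.Agent.S34.NodalDefs
  Fermat.Agent.S34.Generic.CompatX0 Fermat.Agent.S34.Generic.Assembly
  Fermat.Agent.S34.WqGalois Fermat.Agent.S34.ArchGauss

local notation "Kb" => AlgebraicClosure ℚ

set_option synthInstance.maxHeartbeats 400000

section X0

variable {q : ℕ} [hq : Fact q.Prime] {M : ℕ} [NeZero M] [NeZero q] {A : ValuationSubring Kb}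
variable (hA : A.LiesOverPrime q) (hqM : ¬ q ∣ M)

attribute [local instance] algFE
attribute [local instance] Fermat.Agent.S18.GaussFromHBar.hasPrincipalDivisors_bar
attribute [local instance] Fermat.Agent.S37.ReductionInputs.hasPrincipalDivisors_Fk
attribute [local instance] Fermat.Agent.S37.ReductionInputs.infinite_residueField
attribute [local instance] Fermat.Agent.S18.ResidueBasics.isAlgClosed_residueField

variable {gL gk : ℕ} (H : Hyp (gaussDatum M A hA hqM) gL gk)

variable [CharP (ResidueField ↥A) q]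

set_option maxHeartbeats 1600000 in
/-- **`GenericAt` at a good place of `X₀(qM)`**, hypotheses-first on the reduction pair, the
dichotomy hypotheses and the regularity of `j` on non-cuspidal discs. -/
theorem genericAt_X0
    (hreg : ∀ Q : Place (ResidueField ↥A) ↥(modularFunctionFieldFullC (ResidueField ↥A) M),
      0 ≤ Q.ord (jk (ResidueField ↥A) M) → RegOn (placeMap H) (jgen M) Q)
    (B₁ : Branch A (residue ↥A) ↥(modularFunctionFieldBar (M * q))
      ↥(modularFunctionFieldFullC (ResidueField ↥A) M))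
    (h₁ : (setupX0 hA hqM).IsExt (setupX0 hA hqM).G₁ B₁.O)
    {V₂ : ValuationSubring ↥(modularFunctionFieldBar (M * q))}
    (h₂ : (setupX0 hA hqM).IsExt (setupX0 hA hqM).G₂ V₂)
    (hα : ∀ g : (RX0 hA hqM H).O, algebraMap ↥(modularFunctionFieldBar M)
      ↥(modularFunctionFieldBar (M * q)) (g : ↥(modularFunctionFieldBar M)) ∈ B₁.O)
    (hredα : ∀ g : (RX0 hA hqM H).O, B₁.red ⟨_, hα g⟩ = (RX0 hA hqM H).red g)
    (hβ : ∀ g : (RX0 hA hqM H).O,
      heckeBetaBar Kb M q (g : ↥(modularFunctionFieldBar M)) ∈ B₁.O)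
    (hredβ : ∀ g : (RX0 hA hqM H).O,
      B₁.red ⟨_, hβ g⟩ = phi (ResidueField ↥A) M q ((RX0 hA hqM H).red g))
    {NC : Set (Place (ResidueField ↥A) ↥(modularFunctionFieldFullC (ResidueField ↥A) M))}
    {B : Set (RX0 hA hqM H).O}
    (HD : DichHyp (RX0 hA hqM H) (algebraMap ↥(modularFunctionFieldBar M)
      ↥(modularFunctionFieldBar (M * q))) (heckeBetaBar Kb M q : ↥(modularFunctionFieldBar M) →+*
        ↥(modularFunctionFieldBar (M * q))) (raX0 hqM) rbX0 B₁.O V₂
      (phi (ResidueField ↥A) M q : _ →+* _) (Fr (ResidueField ↥A) M q) NC B)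
    (hNC : ∀ Q : Place (ResidueField ↥A) ↥(modularFunctionFieldFullC (ResidueField ↥A) M),
      0 ≤ Q.ord (jk (ResidueField ↥A) M) → Q ∈ NC)
    (hjB : jO hA hqM ∈ B)
    (Q : Place (ResidueField ↥A) ↥(modularFunctionFieldFullC (ResidueField ↥A) M))
    (hQ : IsGood (ResidueField ↥A) M q Q) :
    GenericAt (raX0 hqM) rbX0 (redOneOfBranch B₁ hα hredα hβ) Q
      (Fr (ResidueField ↥A) M q Q) ((Fr (ResidueField ↥A) M q).symm Q) := by
  haveI := isScalarTower_along (heckeAlphaBar Kb M q)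
  haveI := finite_FE (q := q) hqM
  haveI := isSeparable_FE (q := q) (M := M) hqM
  haveI : Algebra.IsAlgebraic ↥(modularFunctionFieldBar M) ↥(modularFunctionFieldBar (M * q)) :=
    Algebra.IsAlgebraic.of_finite _ _
  have hredj : (RX0 hA hqM H).red (jO hA hqM) = jk (ResidueField ↥A) M := red_jO hA hqM
  have hQ0 : 0 ≤ Q.ord (jk (ResidueField ↥A) M) := hQ.1.1
  have hQm : IsGood (ResidueField ↥A) M q ((Fr (ResidueField ↥A) M q).symm Q) :=
    isGood_Fr_symm (ResidueField ↥A) M q Q hQ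
  have hQF : IsGood (ResidueField ↥A) M q (Fr (ResidueField ↥A) M q Q) :=
    (isGood_Fr_iff (ResidueField ↥A) M q Q).mpr hQ
  obtain ⟨γm, hγm, hγm'⟩ := exists_unif_Fr_symm (ResidueField ↥A) M q Q hQ
  have hfibm := fibα_X0 hA hqM H hreg h₁ h₂ HD hNC hjB _ hQm
  rw [Equiv.apply_symm_apply] at hfibm
  have hord : ∀ (P : Place Kb ↥(modularFunctionFieldBar (M * q)))
      (g : ↥(modularFunctionFieldBar M)),
      (SemilinearAut.ofAlgAut (wq M q hq.out hqM) • P).ord
        ((heckeBetaBar Kb M q : ↥(modularFunctionFieldBar M) →+*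
          ↥(modularFunctionFieldBar (M * q))) g) =
        P.ord (algebraMap ↥(modularFunctionFieldBar M) ↥(modularFunctionFieldBar (M * q)) g) := by
    intro P g
    have h := Fermat.Agent.S34.PcgSwap.ord_apply (wq M q hq.out hqM)
      (SemilinearAut.ofAlgAut (wq M q hq.out hqM) • P) (heckeAlphaBar Kb M q g)
    rw [inv_smul_smul, wq_alpha] at h
    exact h
  have hG₁ : (setupX0 hA hqM).G₁ = X - C (jO hA hqM ^ q) := by
    rw [setupX0_G₁]; rfl
  have hG₂ : (setupX0 hA hqM).G₂ = X ^ q - C (jO hA hqM) := by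
    rw [setupX0_G₂]; rfl
  have hArch : Fermat.Agent.S34.WeakApprox.Arch V₂ :=
    arch_of_comap_eq h₂.comap (arch_gaussDatum hA hqM)
  have h₁' : (setupX0 hA hqM).IsExt (setupX0 hA hqM).G₁ (redOneOfBranch B₁ hα hredα hβ).O := h₁
  have hHD : DichHyp (RX0 hA hqM H) (algebraMap ↥(modularFunctionFieldBar M)
      ↥(modularFunctionFieldBar (M * q))) (heckeBetaBar Kb M q : ↥(modularFunctionFieldBar M) →+*
        ↥(modularFunctionFieldBar (M * q))) (raX0 hqM) rbX0 (redOneOfBranch B₁ hα hredα hβ).O V₂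
      (phi (ResidueField ↥A) M q : _ →+* _) (Fr (ResidueField ↥A) M q) NC B := HD
  have hredβ' : ∀ g : (RX0 hA hqM H).O, (redOneOfBranch B₁ hα hredα hβ).red
      ⟨(heckeBetaBar Kb M q : ↥(modularFunctionFieldBar M) →+*
        ↥(modularFunctionFieldBar (M * q))) (g : ↥(modularFunctionFieldBar M)),
        (redOneOfBranch B₁ hα hredα hβ).β_mem g⟩ =
      (phi (ResidueField ↥A) M q : _ →+* _) ((RX0 hA hqM H).red g) := hredβ
  have hfibβ := Fermat.Agent.S34.Generic.FibSwap.fibβ_of_fibα (r := placeMap H)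
      (ra := raX0 hqM) (rb := rbX0)
      (SemilinearAut.ofAlgAut (wq M q hq.out hqM))
      (fun P => Fermat.Agent.S34.Generic.SwapX0.resAlong_alpha_wq hq.out hqM
        (isIntegral_alpha hqM) (Fermat.Agent.S34.Generic.FibBetaX0.isIntegral_beta M q) P)
      (fun P => Fermat.Agent.S34.Generic.SwapX0.resAlong_beta_wq hq.out hqM
        (isIntegral_alpha hqM) (Fermat.Agent.S34.Generic.FibBetaX0.isIntegral_beta M q) P)
      hord hfibm
  have hfibα := fibα_X0 hA hqM H hreg h₁ h₂ HD hNC hjB Q hQ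
  have hdegF : ∀ P : Place Kb ↥(modularFunctionFieldBar (M * q)), P.deg = 1 :=
    fun P => deg_eq_one (Fermat.Agent.S24.Degree.isFF (M * q)) P
  have hΦ : ∀ i, RegOn (placeMap H) ((((setupX0 hA hqM).Φ.coeff i : (RX0 hA hqM H).O)) :
      ↥(modularFunctionFieldBar M)) Q :=
    fun i => regOn_coeff_PhiO hA hqM H Q (hreg Q hQ0) i
  have hx0 : (RX0 hA hqM H).red (jO hA hqM) ^ (q * q) - (RX0 hA hqM H).red (jO hA hqM) ≠ 0 := by
    rw [hredj]; exact fm_ne_zero' (ResidueField ↥A) M q
  have hxord : Q.ord ((RX0 hA hqM H).red (jO hA hqM) ^ (q * q) -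
      (RX0 hA hqM H).red (jO hA hqM)) = 0 := by
    rw [hredj]; exact ord_fm_eq_zero (ResidueField ↥A) M q Q hQ
  have hγ : ∃ γ : ResidueField ↥A, Q.ord ((RX0 hA hqM H).red (jO hA hqM) -
      algebraMap (ResidueField ↥A) _ γ) = 1 := by
    rw [hredj]; exact hQ.2
  have hγm1 : ((Fr (ResidueField ↥A) M q).symm Q).ord ((RX0 hA hqM H).red (jO hA hqM) -
      algebraMap (ResidueField ↥A) _ γm) = 1 := by
    rw [hredj]; exact hγm
  have hγm2 : (Fr (ResidueField ↥A) M q Q).ord ((RX0 hA hqM H).red (jO hA hqM) -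
      algebraMap (ResidueField ↥A) _ γm) = 0 := by
    rw [hredj]; exact hγm'
  exact genericAt_of_setup (raX0 hqM) rbX0 (fun P => rfl) (redOneOfBranch B₁ hα hredα hβ)
    (setupX0 hA hqM) h₁' h₂ hArch (jO hA hqM) q hG₁ hG₂ hHD hdegF hredβ'
    (fun y hy => phi_ne_zero (ResidueField ↥A) M q hy)
    (fun Q y => ord_phi (ResidueField ↥A) M q Q y) (hNC Q hQ0) rfl
    (Equiv.apply_symm_apply _ Q) (Fr_ne_Fr_symm (ResidueField ↥A) M q Q hQ) hΦ
    (hreg Q hQ0) (hreg _ hQm.1.1) (hreg _ hQF.1.1) hx0 hxord hγ γm hγm1 hγm2 hfibα hfibβ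

set_option maxHeartbeats 1600000 in
/-- **`GenericAt` at a good place of `X₀(qM)`, in the vocabulary of `S34/CoreZX0Assembly.Inputs`**
(`α`, `β` as coerced algebra homomorphisms, restrictions `restrAlong`), with the regularity of `j`
on non-cuspidal discs discharged (`CuspRedX0.regOn_jgen`). -/
theorem generic_X0
    (B₁ : Branch A (residue ↥A) ↥(modularFunctionFieldBar (M * q))
      ↥(modularFunctionFieldFullC (ResidueField ↥A) M))
    (h₁ : (setupX0 hA hqM).IsExt (setupX0 hA hqM).G₁ B₁.O)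
    {V₂ : ValuationSubring ↥(modularFunctionFieldBar (M * q))}
    (h₂ : (setupX0 hA hqM).IsExt (setupX0 hA hqM).G₂ V₂)
    (hα : ∀ g : (redDatum H).O,
      heckeAlphaBar Kb M q (g : ↥(modularFunctionFieldBar M)) ∈ B₁.O)
    (hredα : ∀ g : (redDatum H).O,
      B₁.red ⟨heckeAlphaBar Kb M q (g : ↥(modularFunctionFieldBar M)), hα g⟩ =
        (redDatum H).red g)
    (hβ : ∀ g : (redDatum H).O,
      heckeBetaBar Kb M q (g : ↥(modularFunctionFieldBar M)) ∈ B₁.O)
    (hredβ : ∀ g : (redDatum H).O,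
      B₁.red ⟨heckeBetaBar Kb M q (g : ↥(modularFunctionFieldBar M)), hβ g⟩ =
        phi (ResidueField ↥A) M q ((redDatum H).red g))
    {NC : Set (Place (ResidueField ↥A) ↥(modularFunctionFieldFullC (ResidueField ↥A) M))}
    {B : Set (redDatum H).O}
    (HD : DichHyp (redDatum H)
      ((heckeAlphaBar Kb M q : ↥(modularFunctionFieldBar M) →ₐ[Kb]
        ↥(modularFunctionFieldBar (M * q))) : ↥(modularFunctionFieldBar M) →+*
        ↥(modularFunctionFieldBar (M * q)))
      ((heckeBetaBar Kb M q : ↥(modularFunctionFieldBar M) →ₐ[Kb]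
        ↥(modularFunctionFieldBar (M * q))) : ↥(modularFunctionFieldBar M) →+*
        ↥(modularFunctionFieldBar (M * q)))
      (restrAlong (heckeAlphaBar Kb M q)
        (Fermat.Agent.S34.Generic.FibAlphaX0.isIntegral_alpha hqM))
      (restrAlong (heckeBetaBar Kb M q)
        (Fermat.Agent.S34.Generic.FibBetaX0.isIntegral_beta M q)) B₁.O V₂
      (phi (ResidueField ↥A) M q : _ →+* _) (Fr (ResidueField ↥A) M q) NC B)
    (hNC : ∀ Q : Place (ResidueField ↥A) ↥(modularFunctionFieldFullC (ResidueField ↥A) M),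
      0 ≤ Q.ord (jk (ResidueField ↥A) M) → Q ∈ NC)
    (hjB : jO hA hqM ∈ B)
    (Q : Place (ResidueField ↥A) ↥(modularFunctionFieldFullC (ResidueField ↥A) M))
    (hQ : IsGood (ResidueField ↥A) M q Q) :
    GenericAt (r := placeMap H)
      (restrAlong (heckeAlphaBar Kb M q)
        (Fermat.Agent.S34.Generic.FibAlphaX0.isIntegral_alpha hqM))
      (restrAlong (heckeBetaBar Kb M q)
        (Fermat.Agent.S34.Generic.FibBetaX0.isIntegral_beta M q))
      (redOneOfBranch (R := redDatum H) B₁ hα hredα hβ) Q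
      (Fr (ResidueField ↥A) M q Q) ((Fr (ResidueField ↥A) M q).symm Q) :=
  genericAt_X0 hA hqM H (Fermat.Agent.S34.CuspRedX0.regOn_jgen hA hqM H) B₁ h₁ h₂ hα hredα hβ
    hredβ HD hNC hjB Q hQ

end X0

end Fermat.Agent.S34.Generic.GenericX0
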