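/-
PROJECT U (S34), helper10: THE TWO LIFTING FIELDS `B_φ`, `B_sep` OF `Generic/Dich.DichHyp` AT `X₀(qM)`
(level `M` only), for `NC := {Q | 0 ≤ Q.ord j̄}` (the non-cuspidal places of `κ = k(X₀(M))`) and
`B := {g ∈ O_M | g regular on every non-cuspidal residue disc}`, stated fully unfolded.

* `exists_lift_regOn` : every `ȳ ∈ κ` regular off the cusps is the reduction of some `f ∈ O_M`
  regular on all non-cuspidal discs (helper23's `LevelMLiftX0.exists_lift_regular_over_X0`);
* `B_φ_X0` : the Frobenius pull-back of the reduction of a test function is the reduction of a test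
  function;
* `B_sep_X0` : the reductions of the test functions separate the non-cuspidal places
  (helper4's `FrobKSep.exists_holo_sep`).
-/
import Mathlib
import Fermat.Agent.S34.LevelMLiftX0
import Fermat.Agent.S34.FrobKSep
import Fermat.Agent.S34.Euler.HoloBridge
import Fermat.Agent.S34.Generic.Dich
import Fermat.Agent.S34.Generic.FiniteNonGeneric

set_option autoImplicit false
set_option linter.unusedSectionVars false
set_option linter.style.haveILetI false

noncomputable section

namespace Fermat.Agent.S34.Generic.DichLiftX0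

open ModularCurve AlgebraicCurve IsLocalRing
open Fermat.Agent.S18.B.FkBasics (jk)
open Fermat.Agent.S24.Ord Fermat.Agent.S18.CoreDefs Fermat.Agent.S18.Disc
open Fermat.Agent.S37.Gauss.Datum Fermat.Agent.S37.Deuring.Core
open Fermat.Agent.S34.FrobK Fermat.Agent.S34.Generic.Dich

local notation "Kb" => AlgebraicClosure ℚ

set_option synthInstance.maxHeartbeats 400000

variable {q : ℕ} [hq : Fact q.Prime] {M : ℕ} [NeZero M] [NeZero q] {A : ValuationSubring Kb}
variable (hA : A.LiesOverPrime q) (hqM : ¬ q ∣ M)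

attribute [local instance] Fermat.Agent.S18.GaussFromHBar.hasPrincipalDivisors_bar
attribute [local instance] Fermat.Agent.S37.ReductionInputs.hasPrincipalDivisors_Fk
attribute [local instance] Fermat.Agent.S37.ReductionInputs.infinite_residueField
attribute [local instance] Fermat.Agent.S18.ResidueBasics.isAlgClosed_residueField

variable {gL gk : ℕ} (H : Hyp (gaussDatum M A hA hqM) gL gk)

set_option maxHeartbeats 1600000 in
/-- every `ȳ` regular off the cusps lifts to a function regular on all non-cuspidal discs -/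
theorem exists_lift_regOn (y : ↥(modularFunctionFieldFullC (ResidueField ↥A) M))
    (hy : ∀ Q : Place (ResidueField ↥A) ↥(modularFunctionFieldFullC (ResidueField ↥A) M),
      0 ≤ Q.ord (jk (ResidueField ↥A) M) → y = 0 ∨ 0 ≤ Q.ord y) :
    ∃ f : (redDatum H).O, (redDatum H).red f = y ∧
      ∀ Q : Place (ResidueField ↥A) ↥(modularFunctionFieldFullC (ResidueField ↥A) M),
        0 ≤ Q.ord (jk (ResidueField ↥A) M) →
          RegOn (placeMap H) ((f : (redDatum H).O) : ↥(modularFunctionFieldBar M)) Q := by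
  obtain ⟨Q₀, hQ₀⟩ := Fermat.Agent.S34.Euler.HoloBridge.exists_mem_P0 (ResidueField ↥A) M
  have hQ₀lt : Q₀.ord (jk (ResidueField ↥A) M) < 0 := hQ₀
  have hQ₀' : Q₀ ∉ {Q : Place (ResidueField ↥A) ↥(modularFunctionFieldFullC (ResidueField ↥A) M) |
      0 ≤ Q.ord (jk (ResidueField ↥A) M)} := fun h => not_le.mpr hQ₀lt h
  obtain ⟨f, hf, hreg⟩ := Fermat.Agent.S34.LevelMLiftX0.exists_lift_regular_over_X0 hA hqM H y
    {Q | 0 ≤ Q.ord (jk (ResidueField ↥A) M)} Q₀ hQ₀' (fun Q hQ => hy Q hQ)
  refine ⟨f, hf, fun Q hQ P hP => ?_⟩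
  have hPT : placeMap H P ∈ {Q : Place (ResidueField ↥A)
      ↥(modularFunctionFieldFullC (ResidueField ↥A) M) | 0 ≤ Q.ord (jk (ResidueField ↥A) M)} := by
    rw [hP]; exact hQ
  rcases hreg P hPT with h0 | h0
  · rw [h0, map_zero]; exact zero_le_one
  · by_cases hf0 : (f : ↥(modularFunctionFieldBar M)) = 0
    · rw [hf0, map_zero]; exact zero_le_one
    · exact (ord_nonneg_iff P hf0).mp h0

variable [CharP (ResidueField ↥A) q]

set_option maxHeartbeats 1600000 in
/-- **the field `B_φ`** -/
theorem B_φ_X0 (g : (redDatum H).O)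
    (hg : ∀ Q : Place (ResidueField ↥A) ↥(modularFunctionFieldFullC (ResidueField ↥A) M),
      0 ≤ Q.ord (jk (ResidueField ↥A) M) →
        RegOn (placeMap H) ((g : (redDatum H).O) : ↥(modularFunctionFieldBar M)) Q) :
    ∃ g' : (redDatum H).O,
      (∀ Q : Place (ResidueField ↥A) ↥(modularFunctionFieldFullC (ResidueField ↥A) M),
        0 ≤ Q.ord (jk (ResidueField ↥A) M) →
          RegOn (placeMap H) ((g' : (redDatum H).O) : ↥(modularFunctionFieldBar M)) Q) ∧
      (redDatum H).red g' = phi (ResidueField ↥A) M q ((redDatum H).red g) := by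
  obtain ⟨f, hf, hreg⟩ := exists_lift_regOn hA hqM H
    (phi (ResidueField ↥A) M q ((redDatum H).red g)) (fun Q hQ => by
      by_cases h0 : (redDatum H).red g = 0
      · left; rw [h0, map_zero]
      · right
        have hord : Q.ord (phi (ResidueField ↥A) M q ((redDatum H).red g)) =
            (q : ℤ) * (Fr (ResidueField ↥A) M q Q).ord ((redDatum H).red g) :=
          ord_phi (ResidueField ↥A) M q Q _
        rw [hord]
        have hFr : 0 ≤ (Fr (ResidueField ↥A) M q Q).ord (jk (ResidueField ↥A) M) := by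
          rw [Fermat.Agent.S34.Generic.FiniteNonGeneric.ord_Fr_jk]; exact hQ
        have h1 := red_regular (redDatum H) g _ (hg _ hFr)
        have h2 : 0 ≤ (Fr (ResidueField ↥A) M q Q).ord ((redDatum H).red g) :=
          (ord_nonneg_iff _ h0).mpr h1
        positivity)
  exact ⟨f, hreg, hf⟩

set_option maxHeartbeats 1600000 in
/-- **the field `B_sep`** -/
theorem B_sep_X0
    (Q₁ Q₂ : Place (ResidueField ↥A) ↥(modularFunctionFieldFullC (ResidueField ↥A) M))
    (h₁ : 0 ≤ Q₁.ord (jk (ResidueField ↥A) M)) (h₂ : 0 ≤ Q₂.ord (jk (ResidueField ↥A) M))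
    (hsep : ∀ g : (redDatum H).O,
      (∀ Q : Place (ResidueField ↥A) ↥(modularFunctionFieldFullC (ResidueField ↥A) M),
        0 ≤ Q.ord (jk (ResidueField ↥A) M) →
          RegOn (placeMap H) ((g : (redDatum H).O) : ↥(modularFunctionFieldBar M)) Q) →
      ∀ γ : ResidueField ↥A, HasVal Q₁ ((redDatum H).red g) γ → HasVal Q₂ ((redDatum H).red g) γ) :
    Q₁ = Q₂ := by
  by_contra hne
  obtain ⟨Q₀, hQ₀⟩ := Fermat.Agent.S34.Euler.HoloBridge.exists_mem_P0 (ResidueField ↥A) M
  obtain ⟨y, hy, hy0, hy1, hy2⟩ := Fermat.Agent.S34.FrobKSep.exists_holo_sep (ResidueField ↥A) M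
    H.riemannK (S := Fermat.Agent.S34.Euler.FrobSide.P0 (ResidueField ↥A) M) hQ₀
    (v := Q₁) (w := Q₂) (fun h => not_le.mpr (show Q₁.ord (jk (ResidueField ↥A) M) < 0 from h) h₁)
    (fun h => not_le.mpr (show Q₂.ord (jk (ResidueField ↥A) M) < 0 from h) h₂) hne
  obtain ⟨f, hf, hreg⟩ := exists_lift_regOn hA hqM H y (fun Q hQ => by
    right
    exact (mem_holo_iff_ord (ResidueField ↥A) M).mp hy Q
      (fun h => not_le.mpr (show Q.ord (jk (ResidueField ↥A) M) < 0 from h) hQ))
  have hv1 : HasVal Q₁ ((redDatum H).red f) 0 := by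
    rw [hf]
    unfold HasVal
    rw [map_zero, sub_zero]
    exact (ord_pos_iff Q₁ hy0).mp hy1
  have hv2 := hsep f hreg 0 hv1
  rw [hf] at hv2
  unfold HasVal at hv2
  rw [map_zero, sub_zero] at hv2
  have := (ord_pos_iff Q₂ hy0).mpr hv2
  omega

end Fermat.Agent.S34.Generic.DichLiftX0
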