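/-
PROJECT U (S34), Route G (helper18): **the dictionary fields of `Generic/Dich.DichHyp` at `X₀(qM)`**
(`α_mem₂`, `β_mem₂`, `cong₁`, `cong₂`, `hm12`), for the concrete first branch
`B₁ = Generic/BranchX0.B1X0 hA hqM` (`O₁ = V₁`, `red = red₁`) and `O₂ = O₁.comap w_q`.

* `alpha_mem₂`, `beta_mem₂` : `α g, β g ∈ O₂` for `g` in the Gauss ring of level `M`;
* `cong₁` : `red g' = φ (red g) → β g - α g' ∈ 𝔪₁` (`red₁ (β g) = φ (red g)`, `red₁ (α g') = red g'`);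
* `cong₂` : `red g' = φ (red g) → α g - β g' ∈ 𝔪₂` (transport of `cong₁` along `w_q`);
* `hm12` : `𝔪₁ ∩ 𝔪₂ = 𝔪_A (O₁ ∩ O₂)` (`Dich.hm12_of_valuation` + `Z1X0.exists_valuation_eq_const`).
-/
import Mathlib
import Fermat.Agent.S34.Generic.BranchX0
import Fermat.Agent.S34.Generic.Dich

set_option autoImplicit false
set_option linter.unusedSectionVars false
set_option linter.style.haveILetI false

noncomputable section

namespace Fermat.Agent.S34.Generic.DichCongX0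

open ModularCurve AlgebraicCurve IsLocalRing
open Fermat.Agent.S37.Gauss.Datum Fermat.Agent.S37.Deuring.Core
open Fermat.Agent.S34.TwoGaussX0
open Fermat.Agent.S34.NodalDefs Fermat.Agent.S34.Generic.BranchX0
open Fermat.Agent.S34.WqGalois

local notation "Kb" => AlgebraicClosure ℚ

set_option synthInstance.maxHeartbeats 400000

variable {q : ℕ} [hq : Fact q.Prime] {M : ℕ} [NeZero M] {A : ValuationSubring Kb}
variable (hA : A.LiesOverPrime q) (hqM : ¬ q ∣ M) [NeZero q]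

attribute [local instance] algFE

/-- the second Gauss ring: the `w_q`-transform of the first -/
abbrev O2X0 : ValuationSubring ↥(modularFunctionFieldBar (M * q)) :=
  (B1X0 hA hqM).O.comap (wqHom M q hq.out hqM)

theorem mem_O2X0_iff (x : ↥(modularFunctionFieldBar (M * q))) :
    x ∈ O2X0 hA hqM ↔ wq M q hq.out hqM x ∈ (B1X0 hA hqM).O := Iff.rfl

/-- `x ∈ 𝔪₂ ↔ w_q x ∈ 𝔪₁` -/
theorem mem_nonunits_O2X0_iff (x : ↥(modularFunctionFieldBar (M * q))) :
    x ∈ (O2X0 hA hqM).nonunits ↔ wq M q hq.out hqM x ∈ (B1X0 hA hqM).O.nonunits := by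
  rw [ValuationSubring.mem_nonunits_iff_exists_mem_maximalIdeal,
    ValuationSubring.mem_nonunits_iff_exists_mem_maximalIdeal]
  constructor
  · rintro ⟨hx, hm⟩
    have hx' : wq M q hq.out hqM x ∈ (B1X0 hA hqM).O := hx
    refine ⟨hx', ?_⟩
    rw [IsLocalRing.mem_maximalIdeal, mem_nonunits_iff] at hm ⊢
    rintro ⟨u, hu⟩
    apply hm
    have h1 : wq M q hq.out hqM x * ((↑u⁻¹ : (B1X0 hA hqM).O) : ↥(modularFunctionFieldBar (M * q))) = 1 := by
      have h0 : ((u : (B1X0 hA hqM).O) * (↑u⁻¹ : (B1X0 hA hqM).O) : (B1X0 hA hqM).O) = 1 :=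
        Units.mul_inv u
      have := congrArg (fun z : (B1X0 hA hqM).O => (z : ↥(modularFunctionFieldBar (M * q)))) h0
      rw [hu] at this
      exact this
    set y : ↥(modularFunctionFieldBar (M * q)) :=
      wq M q hq.out hqM ((↑u⁻¹ : (B1X0 hA hqM).O) : ↥(modularFunctionFieldBar (M * q))) with hy
    have hy2 : y ∈ O2X0 hA hqM := by
      rw [mem_O2X0_iff, hy, wq_wq]
      exact (↑u⁻¹ : (B1X0 hA hqM).O).2
    have hxy : x * y = 1 := by
      have := congrArg (wq M q hq.out hqM) h1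
      rwa [map_mul, wq_wq, map_one] at this
    exact IsUnit.of_mul_eq_one (⟨y, hy2⟩ : O2X0 hA hqM) (Subtype.ext hxy)
  · rintro ⟨hx, hm⟩
    have hx' : x ∈ O2X0 hA hqM := hx
    refine ⟨hx', ?_⟩
    rw [IsLocalRing.mem_maximalIdeal, mem_nonunits_iff] at hm ⊢
    rintro ⟨u, hu⟩
    apply hm
    have h1 : x * ((↑u⁻¹ : O2X0 hA hqM) : ↥(modularFunctionFieldBar (M * q))) = 1 := by
      have h0 : ((u : O2X0 hA hqM) * (↑u⁻¹ : O2X0 hA hqM) : O2X0 hA hqM) = 1 := Units.mul_inv u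
      have := congrArg (fun z : O2X0 hA hqM => (z : ↥(modularFunctionFieldBar (M * q)))) h0
      rw [hu] at this
      exact this
    have hy1 : wq M q hq.out hqM ((↑u⁻¹ : O2X0 hA hqM) : ↥(modularFunctionFieldBar (M * q))) ∈
        (B1X0 hA hqM).O := (↑u⁻¹ : O2X0 hA hqM).2
    have hxy : wq M q hq.out hqM x *
        wq M q hq.out hqM ((↑u⁻¹ : O2X0 hA hqM) : ↥(modularFunctionFieldBar (M * q))) = 1 := by
      rw [← map_mul, h1, map_one]
    exact IsUnit.of_mul_eq_one (⟨_, hy1⟩ : (B1X0 hA hqM).O) (Subtype.ext hxy)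

/-- `α g ∈ O₂` -/
theorem alpha_mem₂ (g : ↥(gaussDatum M A hA hqM).O) :
    heckeAlphaBar Kb M q (g : ↥(modularFunctionFieldBar M)) ∈ O2X0 hA hqM := by
  rw [mem_O2X0_iff, wq_alpha hq.out hqM]
  exact hβ hA hqM g

/-- `β g ∈ O₂` -/
theorem beta_mem₂ (g : ↥(gaussDatum M A hA hqM).O) :
    heckeBetaBar Kb M q (g : ↥(modularFunctionFieldBar M)) ∈ O2X0 hA hqM := by
  rw [mem_O2X0_iff, wq_beta hq.out hqM]
  exact hα hA hqM g

section Cong

variable [CharP (ResidueField ↥A) q] [PerfectField (ResidueField ↥A)]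

/-- **`cong₁`**: `red g' = φ (red g) → β g - α g' ∈ 𝔪₁` -/
theorem cong₁ (g g' : ↥(gaussDatum M A hA hqM).O)
    (h : (gaussDatum M A hA hqM).red g' =
      Fermat.Agent.S34.FrobK.phi (ResidueField ↥A) M q ((gaussDatum M A hA hqM).red g)) :
    heckeBetaBar Kb M q (g : ↥(modularFunctionFieldBar M)) -
      heckeAlphaBar Kb M q (g' : ↥(modularFunctionFieldBar M)) ∈ (B1X0 hA hqM).O.nonunits := by
  have hmem : heckeBetaBar Kb M q (g : ↥(modularFunctionFieldBar M)) -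
      heckeAlphaBar Kb M q (g' : ↥(modularFunctionFieldBar M)) ∈ (B1X0 hA hqM).O :=
    (B1X0 hA hqM).O.sub_mem (hβ hA hqM g) (hα hA hqM g')
  have hred : (B1X0 hA hqM).red ⟨_, hmem⟩ = 0 := by
    have he : (⟨_, hmem⟩ : (B1X0 hA hqM).O) = ⟨_, hβ hA hqM g⟩ - ⟨_, hα hA hqM g'⟩ := rfl
    rw [he, map_sub, hredβ hA hqM g, hredα hA hqM g', h, sub_self]
  have hnu : ¬ IsUnit (⟨_, hmem⟩ : (B1X0 hA hqM).O) := ((B1X0 hA hqM).red_eq_zero_iff _).mp hred
  rw [ValuationSubring.mem_nonunits_iff_exists_mem_maximalIdeal]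
  exact ⟨hmem, by rwa [IsLocalRing.mem_maximalIdeal, mem_nonunits_iff]⟩

/-- **`cong₂`**: `red g' = φ (red g) → α g - β g' ∈ 𝔪₂` -/
theorem cong₂ (g g' : ↥(gaussDatum M A hA hqM).O)
    (h : (gaussDatum M A hA hqM).red g' =
      Fermat.Agent.S34.FrobK.phi (ResidueField ↥A) M q ((gaussDatum M A hA hqM).red g)) :
    heckeAlphaBar Kb M q (g : ↥(modularFunctionFieldBar M)) -
      heckeBetaBar Kb M q (g' : ↥(modularFunctionFieldBar M)) ∈ (O2X0 hA hqM).nonunits := by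
  rw [mem_nonunits_O2X0_iff, map_sub, wq_alpha hq.out hqM, wq_beta hq.out hqM]
  exact cong₁ hA hqM g g' h

end Cong

/-! ### `hm12` -/

theorem algebraMap_mem_O1_iff (c : Kb) :
    algebraMap Kb ↥(modularFunctionFieldBar (M * q)) c ∈ (B1X0 hA hqM).O ↔ c ∈ A :=
  ⟨(B1X0 hA hqM).mem_of_algebraMap_mem c, fun hc => (B1X0 hA hqM).algebraMap_mem ⟨c, hc⟩⟩

theorem algebraMap_mem_O2_iff (c : Kb) :
    algebraMap Kb ↥(modularFunctionFieldBar (M * q)) c ∈ O2X0 hA hqM ↔ c ∈ A := by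
  rw [mem_O2X0_iff, (wq M q hq.out hqM).commutes]
  exact algebraMap_mem_O1_iff hA hqM c

/-- **`hm12`**: `𝔪₁ ∩ 𝔪₂ = 𝔪_A (O₁ ∩ O₂)` -/
theorem hm12 [HasPrincipalDivisors Kb ↥(modularFunctionFieldBar M)]
    [HasPrincipalDivisors (ResidueField ↥A) ↥(modularFunctionFieldFullC (ResidueField ↥A) M)]
    [Infinite (ResidueField ↥A)] {gL gk : ℕ} (H : Hyp (gaussDatum M A hA hqM) gL gk)
    (h₀ : ↥(modularFunctionFieldBar (M * q))) (h1 : h₀ ∈ (B1X0 hA hqM).O.nonunits)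
    (h2 : h₀ ∈ (O2X0 hA hqM).nonunits) :
    ∃ c : A, residue ↥A c = 0 ∧ ∃ h : ↥(modularFunctionFieldBar (M * q)),
      h ∈ (B1X0 hA hqM).O ∧ h ∈ O2X0 hA hqM ∧
        h₀ = algebraMap Kb ↥(modularFunctionFieldBar (M * q)) (c : Kb) * h := by
  refine Fermat.Agent.S34.Generic.Dich.hm12_of_valuation (redDatum H) (B1X0 hA hqM).O
    (O2X0 hA hqM) (fun f hf => ?_) (fun f hf => ?_) (algebraMap_mem_O1_iff hA hqM)
    (algebraMap_mem_O2_iff hA hqM) h₀ h1 h2
  · obtain ⟨a, -, ha⟩ := Fermat.Agent.S34.Z1X0.exists_valuation_eq_const hA hqM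
      (isExt₁ hA hqM).comap hf
    exact ⟨a, ha⟩
  · obtain ⟨a, -, ha⟩ := Fermat.Agent.S34.Z1X0.exists_valuation_eq_const hA hqM
      (isExt_comap hA hqM).comap hf
    exact ⟨a, ha⟩

end Fermat.Agent.S34.Generic.DichCongX0
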