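/-
PROJECT U (S34), helper2: SOME FIELDS OF helper18's `Generic/Dich.DichHyp` AT `X₀(qM)`, AS STANDALONE
LEMMAS (hedge for `Generic/DichX0.lean`).

Level `M` only (`q ∤ M`), `H : Hyp (gaussDatum M A hA hqM) gL gk`, `R := redDatum H`,
`r := placeMap H`, `k := ResidueField A`, `κ := modularFunctionFieldFullC k M`, `j̄ := jk k M`,
`φ := FrobK.phi k M q`, `Fr := FrobK.Fr k M q`.

* `NC A M := {Q | 0 ≤ Q.ord j̄}` (the non-cuspidal places of `κ`),
  `B H := {g : R.O | ∀ Q ∈ NC, RegOn r g Q}` (the test functions);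
* `nc_fr`, `fr_inj`, `φ_val`, `B_add`, `B_reg`, `B_φ`, `B_sep` : the corresponding fields of `DichHyp`
  (they do not involve level `qM` at all).
-/
import Mathlib
import Fermat.Agent.S34.Generic.Dich
import Fermat.Agent.S34.FrobK
import Fermat.Agent.S34.FrobKSep
import Fermat.Agent.S34.LevelMLiftX0
import Fermat.Agent.S34.Euler.HoloBridge
import Fermat.Agent.S34.GaussPairX0
import Fermat.Agent.S34.Generic.NcBetaX0
import Fermat.Agent.S34.Generic.RestrAlong

set_option autoImplicit false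
set_option linter.unusedSectionVars false
set_option linter.style.haveILetI false
set_option synthInstance.maxHeartbeats 400000

noncomputable section

namespace Fermat.Agent.S34.Generic.DichFieldsX0

open AlgebraicCurve ModularCurve IsLocalRing
open Fermat.Agent.S24.Ord Fermat.Agent.S18.CoreDefs Fermat.Agent.S18.Disc
open Fermat.Agent.S37.Deuring.Core Fermat.Agent.S37.Gauss.Datum
open Fermat.Agent.S18.B.FkBasics (jk)
open Fermat.Agent.S34.Generic.Dich

local notation "Kb" => AlgebraicClosure ℚ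

/-- shortcut (the generic search for this algebra structure is slow) -/
@[reducible] def algResFk (A : ValuationSubring Kb) (N : ℕ) [NeZero N] :
    Algebra (ResidueField ↥A) ↥(modularFunctionFieldFullC (ResidueField ↥A) N) := inferInstance

attribute [local instance 2000] algResFk

variable {M : ℕ} [NeZero M] {q : ℕ} [hq : Fact q.Prime] {A : ValuationSubring Kb}
  (hA : A.LiesOverPrime q) (hqM : ¬ q ∣ M)

/-- the non-cuspidal places of `κ = k(X₀(M))` -/
def NC (A : ValuationSubring Kb) (M : ℕ) [NeZero M] :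
    Set (Place (ResidueField ↥A) ↥(modularFunctionFieldFullC (ResidueField ↥A) M)) :=
  {Q | 0 ≤ Q.ord (jk (ResidueField ↥A) M)}

theorem mem_NC {Q : Place (ResidueField ↥A) ↥(modularFunctionFieldFullC (ResidueField ↥A) M)} :
    Q ∈ NC A M ↔ 0 ≤ Q.ord (jk (ResidueField ↥A) M) := Iff.rfl

section Frob

variable [CharP (ResidueField ↥A) q] [PerfectField (ResidueField ↥A)]

/-- `NC` is stable under `Fr` -/
theorem nc_fr (Q : Place (ResidueField ↥A) ↥(modularFunctionFieldFullC (ResidueField ↥A) M))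
    (hQ : Q ∈ NC A M) : Fermat.Agent.S34.FrobK.Fr (ResidueField ↥A) M q Q ∈ NC A M := by
  rw [mem_NC] at hQ ⊢
  rw [Fermat.Agent.S34.Euler.FrobSide.ord_Fr_jk]
  exact hQ

theorem fr_mem_NC_iff (Q : Place (ResidueField ↥A) ↥(modularFunctionFieldFullC (ResidueField ↥A) M)) :
    Fermat.Agent.S34.FrobK.Fr (ResidueField ↥A) M q Q ∈ NC A M ↔ Q ∈ NC A M := by
  rw [mem_NC, mem_NC, Fermat.Agent.S34.Euler.FrobSide.ord_Fr_jk]

theorem fr_inj : Function.Injective (Fermat.Agent.S34.FrobK.Fr (ResidueField ↥A) M q) :=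
  (Fermat.Agent.S34.FrobK.Fr (ResidueField ↥A) M q).injective

/-- the value rule `(φ y)(Q) = y(Fr Q)` -/
theorem φ_val (Q : Place (ResidueField ↥A) ↥(modularFunctionFieldFullC (ResidueField ↥A) M))
    (y : ↥(modularFunctionFieldFullC (ResidueField ↥A) M)) (γ : ResidueField ↥A)
    (h : HasVal (Fermat.Agent.S34.FrobK.Fr (ResidueField ↥A) M q Q) y γ) :
    HasVal Q (Fermat.Agent.S34.FrobK.phi (ResidueField ↥A) M q y) γ := by
  unfold HasVal at h ⊢
  set z := y - algebraMap (ResidueField ↥A) ↥(modularFunctionFieldFullC (ResidueField ↥A) M) γ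
    with hz
  have hφ : Fermat.Agent.S34.FrobK.phi (ResidueField ↥A) M q y -
      algebraMap (ResidueField ↥A) ↥(modularFunctionFieldFullC (ResidueField ↥A) M) γ =
      Fermat.Agent.S34.FrobK.phi (ResidueField ↥A) M q z := by
    rw [hz, map_sub, Fermat.Agent.S34.FrobK.phi_algebraMap]
  rw [hφ]
  rcases eq_or_ne z 0 with h0 | h0
  · rw [h0, map_zero, map_zero]
    exact zero_lt_one
  · have h1 : 0 < (Fermat.Agent.S34.FrobK.Fr (ResidueField ↥A) M q Q).ord z :=
      (ord_pos_iff _ h0).mpr h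
    have h2 := Fermat.Agent.S34.FrobK.phi_ne_zero (ResidueField ↥A) M q h0
    rw [← ord_pos_iff Q h2, Fermat.Agent.S34.FrobK.ord_phi]
    have hq0 : (0 : ℤ) < q := by exact_mod_cast hq.out.pos
    positivity

end Frob

section Lift

variable [HasPrincipalDivisors Kb ↥(modularFunctionFieldBar M)]
  [HasPrincipalDivisors (ResidueField ↥A) ↥(modularFunctionFieldFullC (ResidueField ↥A) M)]
  [Infinite (ResidueField ↥A)]
variable {gL gk : ℕ} (H : Hyp (gaussDatum M A hA hqM) gL gk)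

/-- the test functions: the Gauss-integral functions of level `M` regular on all non-cuspidal
residue discs -/
def B : Set ↥(redDatum H).O :=
  {g | ∀ Q ∈ NC A M, RegOn (placeMap H) ((g : ↥(redDatum H).O) : ↥(modularFunctionFieldBar M)) Q}

variable {hA hqM H} in
theorem mem_B {g : ↥(redDatum H).O} :
    g ∈ B hA hqM H ↔ ∀ Q ∈ NC A M,
      RegOn (placeMap H) ((g : ↥(redDatum H).O) : ↥(modularFunctionFieldBar M)) Q := Iff.rfl

theorem B_add (g : ↥(redDatum H).O) (hg : g ∈ B hA hqM H) (g' : ↥(redDatum H).O)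
    (hg' : g' ∈ B hA hqM H) : g + g' ∈ B hA hqM H := fun Q hQ => by
  have h := (hg Q hQ).add (hg' Q hQ)
  exact h

theorem B_reg (g : ↥(redDatum H).O) (hg : g ∈ B hA hqM H)
    (Q : Place (ResidueField ↥A) ↥(modularFunctionFieldFullC (ResidueField ↥A) M))
    (hQ : Q ∈ NC A M) :
    RegOn (placeMap H) ((g : ↥(redDatum H).O) : ↥(modularFunctionFieldBar M)) Q := hg Q hQ

/-- a cusp of `κ` -/
theorem exists_not_mem_NC [PerfectField (ResidueField ↥A)] :
    ∃ Q₀ : Place (ResidueField ↥A) ↥(modularFunctionFieldFullC (ResidueField ↥A) M),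
      Q₀ ∉ NC A M := by
  haveI := Fermat.Agent.S18.ResidueBasics.isAlgClosed_residueField A
  obtain ⟨Q₀, hQ₀⟩ := Fermat.Agent.S34.Euler.HoloBridge.exists_mem_P0 (ResidueField ↥A) M
  refine ⟨Q₀, fun h => ?_⟩
  have h1 : Q₀.ord (jk (ResidueField ↥A) M) < 0 := hQ₀
  have h2 : 0 ≤ Q₀.ord (jk (ResidueField ↥A) M) := h
  omega

/-- **lifting**: a function of `κ` regular at all non-cuspidal places is the reduction of a test
function -/
theorem exists_mem_B_red_eq [PerfectField (ResidueField ↥A)]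
    (y : ↥(modularFunctionFieldFullC (ResidueField ↥A) M))
    (hy : ∀ Q ∈ NC A M, y = 0 ∨ 0 ≤ Q.ord y) :
    ∃ g ∈ B hA hqM H, (redDatum H).red g = y := by
  obtain ⟨Q₀, hQ₀⟩ := exists_not_mem_NC (A := A) (M := M)
  obtain ⟨f, hf, hreg⟩ := Fermat.Agent.S34.LevelMLiftX0.exists_lift_regular_over_X0 hA hqM H y
    (NC A M) Q₀ hQ₀ hy
  refine ⟨f, fun Q hQ => ?_, hf⟩
  refine regOn_of_ord_nonneg fun P hP => ?_
  rcases hreg P (hP ▸ hQ) with h0 | h0
  · rw [h0, Place.ord_zero]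
  · exact h0

variable [CharP (ResidueField ↥A) q] [PerfectField (ResidueField ↥A)]

/-- the field `B_φ` of `DichHyp` -/
theorem B_φ (g : ↥(redDatum H).O) (hg : g ∈ B hA hqM H) :
    ∃ g' ∈ B hA hqM H, (redDatum H).red g' =
      Fermat.Agent.S34.FrobK.phi (ResidueField ↥A) M q ((redDatum H).red g) := by
  refine exists_mem_B_red_eq hA hqM H _ fun Q hQ => ?_
  by_cases h0 : (redDatum H).red g = 0
  · left
    rw [h0, map_zero]
  · right
    rw [Fermat.Agent.S34.FrobK.ord_phi]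
    have h1 : (Fermat.Agent.S34.FrobK.Fr (ResidueField ↥A) M q Q).adicValuation
        ((redDatum H).red g) ≤ 1 :=
      red_regular (redDatum H) g _ (hg _ (nc_fr Q hQ))
    have h2 : 0 ≤ (Fermat.Agent.S34.FrobK.Fr (ResidueField ↥A) M q Q).ord ((redDatum H).red g) :=
      (ord_nonneg_iff _ h0).mpr h1
    have hq0 : (0 : ℤ) < q := by exact_mod_cast hq.out.pos
    positivity

/-- the field `B_sep` of `DichHyp` -/
theorem B_sep (Q₁ : Place (ResidueField ↥A) ↥(modularFunctionFieldFullC (ResidueField ↥A) M))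
    (hQ₁ : Q₁ ∈ NC A M)
    (Q₂ : Place (ResidueField ↥A) ↥(modularFunctionFieldFullC (ResidueField ↥A) M))
    (hQ₂ : Q₂ ∈ NC A M)
    (h : ∀ g ∈ B hA hqM H, ∀ γ : ResidueField ↥A,
      HasVal Q₁ ((redDatum H).red g) γ → HasVal Q₂ ((redDatum H).red g) γ) : Q₁ = Q₂ := by
  by_contra hne
  haveI := Fermat.Agent.S18.ResidueBasics.isAlgClosed_residueField A
  obtain ⟨Q₀, hQ₀⟩ := Fermat.Agent.S34.Euler.HoloBridge.exists_mem_P0 (ResidueField ↥A) M
  have hn₁ : Q₁ ∉ Fermat.Agent.S34.Euler.FrobSide.P0 (ResidueField ↥A) M := fun h' => by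
    have h1 : Q₁.ord (jk (ResidueField ↥A) M) < 0 := h'
    have h2 : 0 ≤ Q₁.ord (jk (ResidueField ↥A) M) := hQ₁
    omega
  have hn₂ : Q₂ ∉ Fermat.Agent.S34.Euler.FrobSide.P0 (ResidueField ↥A) M := fun h' => by
    have h1 : Q₂.ord (jk (ResidueField ↥A) M) < 0 := h'
    have h2 : 0 ≤ Q₂.ord (jk (ResidueField ↥A) M) := hQ₂
    omega
  obtain ⟨y, hy, hy0, hy1, hy2⟩ := Fermat.Agent.S34.FrobKSep.exists_holo_sep (ResidueField ↥A) M
    H.riemannK hQ₀ hn₁ hn₂ hne
  obtain ⟨g, hgB, hg⟩ := exists_mem_B_red_eq hA hqM H y fun Q hQ => by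
    right
    refine (Fermat.Agent.S34.FrobK.mem_holo_iff_ord (ResidueField ↥A) M).mp hy Q fun h' => ?_
    have h1 : Q.ord (jk (ResidueField ↥A) M) < 0 := h'
    have h2 : 0 ≤ Q.ord (jk (ResidueField ↥A) M) := hQ
    omega
  have hv₁ : HasVal Q₁ ((redDatum H).red g) 0 := by
    unfold HasVal
    rw [hg, map_zero, sub_zero]
    exact (ord_pos_iff Q₁ hy0).mp hy1
  have hv₂ := h g hgB 0 hv₁
  unfold HasVal at hv₂
  rw [hg, map_zero, sub_zero] at hv₂
  have := (ord_pos_iff Q₂ hy0).mpr hv₂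
  omega

end Lift

/-! ### Level `qM`: the reduction dictionary in congruence form, and the full `DichHyp` -/

section LevelQM

open Fermat.Agent.S34.GaussPairX0 Fermat.Agent.S34.Generic.RestrAlong
  Fermat.Agent.S34.Generic.Compat

variable [NeZero q]

/-- `red₁ (β g) = φ (red g)` -/
theorem red₁_beta [CharP (ResidueField ↥A) q] [PerfectField (ResidueField ↥A)]
    (g : ↥(gaussDatum M A hA hqM).O) :
    red₁ hA hqM ⟨heckeBetaBar Kb M q (g : ↥(modularFunctionFieldBar M)),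
      beta_mem_V₁ hA hqM g.2⟩ =
      Fermat.Agent.S34.FrobK.phi (ResidueField ↥A) M q ((gaussDatum M A hA hqM).red g) := by
  apply Subtype.ext
  rw [Fermat.Agent.S34.FrobK.coe_phi]
  exact coe_red₁_beta hA hqM g

/-- `red₂ (α g) = φ (red g)` -/
theorem red₂_alpha [CharP (ResidueField ↥A) q] [PerfectField (ResidueField ↥A)]
    (g : ↥(gaussDatum M A hA hqM).O) :
    red₂ hA hqM ⟨heckeAlphaBar Kb M q (g : ↥(modularFunctionFieldBar M)),
      (alpha_mem_V₂_iff hA hqM g).mpr g.2⟩ =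
      Fermat.Agent.S34.FrobK.phi (ResidueField ↥A) M q ((gaussDatum M A hA hqM).red g) := by
  apply Subtype.ext
  rw [Fermat.Agent.S34.FrobK.coe_phi]
  exact coe_red₂_alpha hA hqM g

/-- the field `cong₁` of `DichHyp` -/
theorem cong₁ [CharP (ResidueField ↥A) q] [PerfectField (ResidueField ↥A)]
    (g g' : ↥(gaussDatum M A hA hqM).O)
    (h : (gaussDatum M A hA hqM).red g' =
      Fermat.Agent.S34.FrobK.phi (ResidueField ↥A) M q ((gaussDatum M A hA hqM).red g)) :
    heckeBetaBar Kb M q (g : ↥(modularFunctionFieldBar M)) -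
      heckeAlphaBar Kb M q (g' : ↥(modularFunctionFieldBar M)) ∈ (V₁ hA hqM).nonunits := by
  have hb := beta_mem_V₁ hA hqM g.2
  have ha := (alpha_mem_V₁_iff hA hqM g').mpr g'.2
  have hmem : heckeBetaBar Kb M q (g : ↥(modularFunctionFieldBar M)) -
      heckeAlphaBar Kb M q (g' : ↥(modularFunctionFieldBar M)) ∈ V₁ hA hqM := sub_mem hb ha
  have hsub : (⟨_, hmem⟩ : ↥(V₁ hA hqM)) =
      ⟨heckeBetaBar Kb M q (g : ↥(modularFunctionFieldBar M)), hb⟩ -
        ⟨heckeAlphaBar Kb M q (g' : ↥(modularFunctionFieldBar M)), ha⟩ := rfl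
  have h0 : red₁ hA hqM ⟨_, hmem⟩ = 0 := by
    rw [hsub, map_sub, red₁_beta hA hqM g, red₁_alpha hA hqM g', h, sub_self]
  exact (red₁_eq_zero_iff_mem_nonunits hA hqM ⟨_, hmem⟩).mp h0

/-- the field `cong₂` of `DichHyp` -/
theorem cong₂ [CharP (ResidueField ↥A) q] [PerfectField (ResidueField ↥A)]
    (g g' : ↥(gaussDatum M A hA hqM).O)
    (h : (gaussDatum M A hA hqM).red g' =
      Fermat.Agent.S34.FrobK.phi (ResidueField ↥A) M q ((gaussDatum M A hA hqM).red g)) :
    heckeAlphaBar Kb M q (g : ↥(modularFunctionFieldBar M)) -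
      heckeBetaBar Kb M q (g' : ↥(modularFunctionFieldBar M)) ∈ (V₂ hA hqM).nonunits := by
  have ha := (alpha_mem_V₂_iff hA hqM g).mpr g.2
  have hb := (beta_mem_V₂_iff hA hqM g').mpr g'.2
  have hmem : heckeAlphaBar Kb M q (g : ↥(modularFunctionFieldBar M)) -
      heckeBetaBar Kb M q (g' : ↥(modularFunctionFieldBar M)) ∈ V₂ hA hqM := sub_mem ha hb
  have hsub : (⟨_, hmem⟩ : ↥(V₂ hA hqM)) =
      ⟨heckeAlphaBar Kb M q (g : ↥(modularFunctionFieldBar M)), ha⟩ -
        ⟨heckeBetaBar Kb M q (g' : ↥(modularFunctionFieldBar M)), hb⟩ := rfl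
  have h0 : red₂ hA hqM ⟨_, hmem⟩ = 0 := by
    rw [hsub, map_sub, red₂_alpha hA hqM g, red₂_beta hA hqM g', h, sub_self]
  exact (red₂_eq_zero_iff_mem_nonunits hA hqM ⟨_, hmem⟩).mp h0

/-- value group of a Gauss datum: attained on constants -/
theorem valuation_eq_const
    (G : Fermat.Agent.S37.Deuring.Core.GaussDatum A (residue ↥A)
      ↥(modularFunctionFieldBar (M * q)) ↥(modularFunctionFieldFullC (ResidueField ↥A) M))
    (f : ↥(modularFunctionFieldBar (M * q))) (hf : f ≠ 0) :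
    ∃ c : Kb, G.O.valuation f =
      G.O.valuation (algebraMap Kb ↥(modularFunctionFieldBar (M * q)) c) := by
  obtain ⟨c, -, u, hu⟩ := G.exists_const_mul_unit f hf
  refine ⟨c, ?_⟩
  rw [hu, map_mul, ValuationSubring.valuation_unit, mul_one]

theorem algebraMap_mem_iff
    (G : Fermat.Agent.S37.Deuring.Core.GaussDatum A (residue ↥A)
      ↥(modularFunctionFieldBar (M * q)) ↥(modularFunctionFieldFullC (ResidueField ↥A) M))
    (c : Kb) : algebraMap Kb ↥(modularFunctionFieldBar (M * q)) c ∈ G.O ↔ c ∈ A :=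
  ⟨G.mem_of_algebraMap_mem c, fun hc => G.algebraMap_mem ⟨c, hc⟩⟩

variable [HasPrincipalDivisors Kb ↥(modularFunctionFieldBar M)]
  [HasPrincipalDivisors (ResidueField ↥A) ↥(modularFunctionFieldFullC (ResidueField ↥A) M)]
  [Infinite (ResidueField ↥A)]
variable {gL gk : ℕ} (H : Hyp (gaussDatum M A hA hqM) gL gk)

include H in
/-- the field `hm12` of `DichHyp`: `𝔪₁ ∩ 𝔪₂ = 𝔪_A (V₁ ∩ V₂)` -/
theorem hm12 (h₀ : ↥(modularFunctionFieldBar (M * q))) (h1 : h₀ ∈ (V₁ hA hqM).nonunits)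
    (h2 : h₀ ∈ (V₂ hA hqM).nonunits) :
    ∃ c : ↥A, residue ↥A c = 0 ∧ ∃ h : ↥(modularFunctionFieldBar (M * q)),
      h ∈ V₁ hA hqM ∧ h ∈ V₂ hA hqM ∧
        h₀ = algebraMap Kb ↥(modularFunctionFieldBar (M * q)) (c : Kb) * h :=
  hm12_of_valuation (redDatum H) (V₁ hA hqM) (V₂ hA hqM)
    (valuation_eq_const (gaussDatumV₁ hA hqM)) (valuation_eq_const (gaussDatumV₂ hA hqM))
    (algebraMap_mem_iff (gaussDatumV₁ hA hqM)) (algebraMap_mem_iff (gaussDatumV₂ hA hqM))
    h₀ h1 h2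

variable [CharP (ResidueField ↥A) q] [PerfectField (ResidueField ↥A)]

/-- **`DichHyp` at `X₀(qM)`** for the pair `(V₁, V₂)` of `GaussPairX0`. -/
theorem dichHyp_X0 (hα : (heckeAlphaBar Kb M q).toRingHom.IsIntegral)
    (hβ : (heckeBetaBar Kb M q).toRingHom.IsIntegral) :
    DichHyp (redDatum H)
      ((heckeAlphaBar Kb M q : ↥(modularFunctionFieldBar M) →ₐ[Kb]
        ↥(modularFunctionFieldBar (M * q))) : ↥(modularFunctionFieldBar M) →+*
        ↥(modularFunctionFieldBar (M * q)))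
      ((heckeBetaBar Kb M q : ↥(modularFunctionFieldBar M) →ₐ[Kb]
        ↥(modularFunctionFieldBar (M * q))) : ↥(modularFunctionFieldBar M) →+*
        ↥(modularFunctionFieldBar (M * q)))
      (restrAlong (heckeAlphaBar Kb M q) hα) (restrAlong (heckeBetaBar Kb M q) hβ)
      (V₁ hA hqM) (V₂ hA hqM)
      ((Fermat.Agent.S34.FrobK.phi (ResidueField ↥A) M q :
        ↥(modularFunctionFieldFullC (ResidueField ↥A) M) →ₐ[ResidueField ↥A]
          ↥(modularFunctionFieldFullC (ResidueField ↥A) M)) :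
        ↥(modularFunctionFieldFullC (ResidueField ↥A) M) →+*
          ↥(modularFunctionFieldFullC (ResidueField ↥A) M))
      (fun Q => Fermat.Agent.S34.FrobK.Fr (ResidueField ↥A) M q Q)
      (NC A M) (B hA hqM H) where
  α_const c := (heckeAlphaBar Kb M q).commutes c
  β_const c := (heckeBetaBar Kb M q).commutes c
  degM P := Fermat.Agent.S24.Ord.deg_eq_one (Fermat.Agent.S18.A.Instances.isFF_jgen M) P
  degk Q := by
    haveI := Fermat.Agent.S18.ResidueBasics.isAlgClosed_residueField A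
    exact Fermat.Agent.S24.Ord.deg_eq_one (Fermat.Agent.S18.B.FkBasics.isFF (ResidueField ↥A) M) Q
  nc_fr Q hQ := nc_fr Q hQ
  fr_inj := fr_inj
  nc_β P hP := Fermat.Agent.S34.Generic.NcBetaX0.nc_beta_X0 hA hqM H hα hβ P hP
  B_add g hg g' hg' := B_add hA hqM H g hg g' hg'
  B_reg g hg Q hQ := B_reg hA hqM H g hg Q hQ
  B_φ g hg := B_φ hA hqM H g hg
  B_sep Q₁ hQ₁ Q₂ hQ₂ h := B_sep hA hqM H Q₁ hQ₁ Q₂ hQ₂ h
  φ_val Q _ y γ h := φ_val Q y γ h
  α_mem₁ g := (alpha_mem_V₁_iff hA hqM g).mpr g.2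
  β_mem₁ g := beta_mem_V₁ hA hqM g.2
  α_mem₂ g := (alpha_mem_V₂_iff hA hqM g).mpr g.2
  β_mem₂ g := (beta_mem_V₂_iff hA hqM g).mpr g.2
  cong₁ g g' h := cong₁ hA hqM g g' h
  cong₂ g g' h := cong₂ hA hqM g g' h
  hm12 := hm12 hA hqM H

end LevelQM

end Fermat.Agent.S34.Generic.DichFieldsX0
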