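/-
PROJECT U (S34), ROUTE G, helper13 (assigned by helper10): **helper18's `Dich.DichHyp` AT `X₀(qM)`**.

Setting of `TwoGaussX0` / `Generic/Assembly`: `FM = ℚ̄(X₀(M))`, `F = ℚ̄(X₀(Mq))`, `α = algebraMap FM F`
(along `heckeAlphaBar`), `β = heckeBetaBar`, `R = redDatum H` Deuring's reduction datum of `X₀(M)`
at `A ∣ q`, `κ = modularFunctionFieldFullC k M`, `φ = FrobK.phi`, `Fr = FrobK.Fr`,

* `NC` = the non-cuspidal places of `κ` (`0 ≤ ord j̄`);
* `B`  = the Gauss-integral functions of level `M` which are regular on every non-cuspidal disc.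

Every field of `DichHyp` is discharged from results on `main`, EXCEPT the reduction dictionary of
the pair `(V₁, V₂)` (`hβ₁ hβ₂ hcong₁ hcong₂`, from `GaussPairX0`), which stays a hypothesis, and the
two level-`M` facts `hregj`, `hreginv` (`CuspRedX0`).
-/
import Mathlib
import Fermat.Agent.S34.Generic.Dich
import Fermat.Agent.S34.Generic.RestrAlong
import Fermat.Agent.S34.Generic.FibAlphaX0
import Fermat.Agent.S34.Generic.FibBetaX0
import Fermat.Agent.S34.FrobK
import Fermat.Agent.S34.FrobKSep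
import Fermat.Agent.S34.LevelMLiftX0
import Fermat.Agent.S34.Z1X0
import Fermat.Agent.S18.A.PoleBridge
import Fermat.Agent.S34.EulerX0

set_option autoImplicit false
set_option linter.unusedSectionVars false
set_option linter.style.haveILetI false

noncomputable section

namespace Fermat.Agent.S34.Generic.DichX0

open AlgebraicCurve ModularCurve IsLocalRing
open Fermat.Agent.S24.Ord Fermat.Agent.S18.CoreDefs Fermat.Agent.S18.Disc
open Fermat.Agent.S37.Deuring.Core Fermat.Agent.S37.Gauss.Datum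
open Fermat.Agent.S34.Generic.Compat Fermat.Agent.S34.Generic.Dich
open Fermat.Agent.S34.PowerBasisX0 Fermat.Agent.S34.TwoGaussX0 Fermat.Agent.S34.FrobK
open Fermat.Agent.S18.B.FkBasics (jk)
open Fermat.Agent.S24.DegreeAlg (jgen)

local notation "Kb" => AlgebraicClosure ℚ

set_option synthInstance.maxHeartbeats 400000
set_option maxHeartbeats 1000000

/-! ### `k`-side: the non-cuspidal places and the Frobenius -/

section KSide

variable (k : Type*) [Field k] (N : ℕ) [NeZero N]
variable (q : ℕ) [hq : Fact q.Prime] [CharP k q] [PerfectField k]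

/-- the non-cuspidal places of `κ = modularFunctionFieldFullC k N` -/
def NC : Set (Place k ↥(modularFunctionFieldFullC k N)) := {Q | 0 ≤ Q.ord (jk k N)}

theorem mem_NC_iff (Q : Place k ↥(modularFunctionFieldFullC k N)) :
    Q ∈ NC k N ↔ 0 ≤ Q.ord (jk k N) := Iff.rfl

/-- `Fr` preserves the non-cuspidal places -/
theorem Fr_mem_NC_iff (Q : Place k ↥(modularFunctionFieldFullC k N)) :
    Fr k N q Q ∈ NC k N ↔ Q ∈ NC k N := by
  rw [mem_NC_iff, mem_NC_iff, ord_Fr_of_psi_eq k N q Q (psi_jk k N q)]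

/-- the value rule `(φ y)(Q) = y(Fr Q)` -/
theorem hasVal_phi (Q : Place k ↥(modularFunctionFieldFullC k N))
    (y : ↥(modularFunctionFieldFullC k N)) (γ : k) (h : HasVal (Fr k N q Q) y γ) :
    HasVal Q (phi k N q y) γ := by
  unfold HasVal at *
  have e : phi k N q y - algebraMap k _ γ = phi k N q (y - algebraMap k _ γ) := by
    rw [map_sub, phi_algebraMap]
  rw [e]
  rcases eq_or_ne (y - algebraMap k ↥(modularFunctionFieldFullC k N) γ) 0 with h0 | h0
  · rw [h0, map_zero, map_zero]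
    exact zero_lt_one
  · have h1 : 0 < (Fr k N q Q).ord (y - algebraMap k _ γ) := (ord_pos_iff _ h0).mpr h
    rw [← ord_pos_iff Q (phi_ne_zero k N q h0), ord_phi]
    exact mul_pos (by exact_mod_cast hq.out.pos) h1

/-- `φ y` is regular at `Q` when `y` is regular at `Fr Q` -/
theorem adicValuation_phi_le_one (Q : Place k ↥(modularFunctionFieldFullC k N))
    (y : ↥(modularFunctionFieldFullC k N)) (h : (Fr k N q Q).adicValuation y ≤ 1) :
    Q.adicValuation (phi k N q y) ≤ 1 := by
  rw [← mem_iff] at h ⊢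
  exact (phi_mem_iff k N q Q y).mpr h

end KSide

/-! ### the level-`M` side: the test functions `B` -/

section X0

variable {q : ℕ} [hq : Fact q.Prime] {M : ℕ} [NeZero M] [NeZero q] {A : ValuationSubring Kb}
variable (hA : A.LiesOverPrime q) (hqM : ¬ q ∣ M) {gL gk : ℕ}
variable [HasPrincipalDivisors Kb ↥(modularFunctionFieldBar M)]
  [HasPrincipalDivisors (ResidueField ↥A) ↥(modularFunctionFieldFullC (ResidueField ↥A) M)]
  [Infinite (ResidueField ↥A)] [CharP (ResidueField ↥A) q] [IsAlgClosed (ResidueField ↥A)]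
variable (H : Hyp (gaussDatum M A hA hqM) gL gk)

attribute [local instance] algFE

/-- the test functions: Gauss-integral functions of level `M`, regular on every non-cuspidal
residue disc -/
def B : Set ↥(redDatum H).O :=
  {g | ∀ Q ∈ NC (ResidueField ↥A) M,
    RegOn (placeMap H) ((g : ↥(redDatum H).O) : ↥(modularFunctionFieldBar M)) Q}

theorem mem_B_iff (g : ↥(redDatum H).O) :
    g ∈ B hA hqM H ↔ ∀ Q ∈ NC (ResidueField ↥A) M,
      RegOn (placeMap H) ((g : ↥(redDatum H).O) : ↥(modularFunctionFieldBar M)) Q := Iff.rfl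

/-- there is a cusp -/
theorem exists_not_mem_NC :
    ∃ Q₀ : Place (ResidueField ↥A) ↥(modularFunctionFieldFullC (ResidueField ↥A) M),
      Q₀ ∉ NC (ResidueField ↥A) M := by
  obtain ⟨Q₀, hQ₀⟩ := Fermat.Agent.S18.A.PoleBridge.exists_pole
    (Fermat.Agent.S18.B.FkBasics.isFF (ResidueField ↥A) M)
    (Fermat.Agent.S18.B.SeparableFk.isSeparable_jk (ResidueField ↥A) M)
  exact ⟨Q₀, fun h => absurd ((mem_NC_iff _ _ Q₀).mp h) (not_le.mpr hQ₀)⟩

/-- **lifting**: every function of `κ` regular off the cusps is the reduction of a test function -/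
theorem exists_lift_mem_B (y : ↥(modularFunctionFieldFullC (ResidueField ↥A) M))
    (hy : ∀ Q ∈ NC (ResidueField ↥A) M, Q.adicValuation y ≤ 1) :
    ∃ g ∈ B hA hqM H, (redDatum H).red g = y := by
  obtain ⟨Q₀, hQ₀⟩ := exists_not_mem_NC (M := M) (A := A)
  have hy' : ∀ Q ∈ NC (ResidueField ↥A) M, y = 0 ∨ 0 ≤ Q.ord y := by
    intro Q hQ
    rcases eq_or_ne y 0 with h0 | h0
    · exact Or.inl h0
    · exact Or.inr ((ord_nonneg_iff Q h0).mpr (hy Q hQ))
  obtain ⟨f, hf, hreg⟩ := Fermat.Agent.S34.LevelMLiftX0.exists_lift_regular_over_X0 hA hqM H y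
    (NC (ResidueField ↥A) M) Q₀ hQ₀ hy'
  refine ⟨f, ?_, hf⟩
  intro Q hQ P hP
  rcases hreg P (hP ▸ hQ) with h0 | h0
  · rw [h0, map_zero]
    exact zero_le_one
  · by_cases hf0 : (f : ↥(modularFunctionFieldBar M)) = 0
    · rw [hf0, map_zero]
      exact zero_le_one
    · exact (ord_nonneg_iff P hf0).mp h0

/-- the reduction of a test function is regular off the cusps -/
theorem red_regular_of_mem_B {g : ↥(redDatum H).O} (hg : g ∈ B hA hqM H)
    {Q : Place (ResidueField ↥A) ↥(modularFunctionFieldFullC (ResidueField ↥A) M)}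
    (hQ : Q ∈ NC (ResidueField ↥A) M) : Q.adicValuation ((redDatum H).red g) ≤ 1 :=
  red_regular (redDatum H) g Q (hg Q hQ)

/-- `B` is stable under lifting of `φ` -/
theorem B_phi (g : ↥(redDatum H).O) (hg : g ∈ B hA hqM H) :
    ∃ g' ∈ B hA hqM H, (redDatum H).red g' = phi (ResidueField ↥A) M q ((redDatum H).red g) := by
  refine exists_lift_mem_B hA hqM H _ (fun Q hQ => ?_)
  refine adicValuation_phi_le_one _ M q Q _ ?_
  exact red_regular_of_mem_B hA hqM H hg ((Fr_mem_NC_iff _ M q Q).mpr hQ)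

/-- the reductions of the test functions separate the non-cuspidal places -/
theorem B_sep (Q₁ : Place (ResidueField ↥A) ↥(modularFunctionFieldFullC (ResidueField ↥A) M))
    (hQ₁ : Q₁ ∈ NC (ResidueField ↥A) M)
    (Q₂ : Place (ResidueField ↥A) ↥(modularFunctionFieldFullC (ResidueField ↥A) M))
    (hQ₂ : Q₂ ∈ NC (ResidueField ↥A) M)
    (h : ∀ g ∈ B hA hqM H, ∀ γ : ResidueField ↥A,
      HasVal Q₁ ((redDatum H).red g) γ → HasVal Q₂ ((redDatum H).red g) γ) : Q₁ = Q₂ := by
  by_contra hne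
  obtain ⟨Q₀, hQ₀⟩ := exists_not_mem_NC (M := M) (A := A)
  obtain ⟨y, hy, hy0, hy1, hy2⟩ := Fermat.Agent.S34.FrobKSep.exists_holo_sep (ResidueField ↥A) M
    H.riemannK (S := (NC (ResidueField ↥A) M)ᶜ) (Q0 := Q₀) hQ₀
    (fun h' => h' hQ₁) (fun h' => h' hQ₂) hne
  obtain ⟨g, hg, hgy⟩ := exists_lift_mem_B hA hqM H y (fun Q hQ =>
    (mem_iff Q y).mp (hy Q (fun h' => h' hQ)))
  have h1 : HasVal Q₁ ((redDatum H).red g) 0 := by
    unfold HasVal
    rw [hgy, map_zero, sub_zero]
    exact (ord_pos_iff Q₁ hy0).mp hy1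
  have h2 := h g hg 0 h1
  unfold HasVal at h2
  rw [hgy, map_zero, sub_zero] at h2
  have h3 := (ord_pos_iff Q₂ hy0).mpr h2
  rw [hy2] at h3
  exact lt_irrefl _ h3

/-! ### the pair `(V₁, V₂)`: `hm12` -/

section Pair

variable {V : ValuationSubring ↥(modularFunctionFieldBar (M * q))}
  (hV : V.comap (algebraMap ↥(modularFunctionFieldBar M) ↥(modularFunctionFieldBar (M * q))) =
    (gaussDatum M A hA hqM).O)

include hV in
/-- a valuation ring of `F` over the Gauss ring contains `α(O)` -/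
theorem alpha_mem_of_comap (g : ↥(gaussDatum M A hA hqM).O) :
    algebraMap ↥(modularFunctionFieldBar M) ↥(modularFunctionFieldBar (M * q))
      (g : ↥(modularFunctionFieldBar M)) ∈ V := by
  exact ValuationSubring.mem_comap.mp (hV.symm ▸ g.2)

include hV in
/-- `V ∩ ℚ̄ = A` for a valuation ring of `F` over the Gauss ring -/
theorem algebraMap_mem_iff_of_comap (c : Kb) :
    algebraMap Kb ↥(modularFunctionFieldBar (M * q)) c ∈ V ↔ c ∈ A := by
  haveI := Fermat.Agent.S34.Z1X0.isScalarTower_FE (M := M) (q := q)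
  have e : algebraMap Kb ↥(modularFunctionFieldBar (M * q)) c
      = algebraMap ↥(modularFunctionFieldBar M) ↥(modularFunctionFieldBar (M * q))
        (algebraMap Kb ↥(modularFunctionFieldBar M) c) :=
    IsScalarTower.algebraMap_apply _ _ _ c
  rw [e]
  constructor
  · intro h
    have h' : algebraMap Kb ↥(modularFunctionFieldBar M) c ∈ V.comap
        (algebraMap ↥(modularFunctionFieldBar M) ↥(modularFunctionFieldBar (M * q))) :=
      ValuationSubring.mem_comap.mpr h
    rw [hV] at h'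
    exact (gaussDatum M A hA hqM).mem_of_algebraMap_mem c h'
  · intro h
    exact alpha_mem_of_comap hA hqM hV ⟨_, (gaussDatum M A hA hqM).algebraMap_mem ⟨c, h⟩⟩

end Pair

include H in
/-- **`𝔪₁ ∩ 𝔪₂ = 𝔪_A (V₁ ∩ V₂)`** for two valuation rings of `F` over the Gauss ring -/
theorem hm12_X0 {V₁ V₂ : ValuationSubring ↥(modularFunctionFieldBar (M * q))}
    (hV₁ : V₁.comap (algebraMap ↥(modularFunctionFieldBar M) ↥(modularFunctionFieldBar (M * q))) =
      (gaussDatum M A hA hqM).O)
    (hV₂ : V₂.comap (algebraMap ↥(modularFunctionFieldBar M) ↥(modularFunctionFieldBar (M * q))) =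
      (gaussDatum M A hA hqM).O) :
    ∀ h₀ : ↥(modularFunctionFieldBar (M * q)), h₀ ∈ V₁.nonunits → h₀ ∈ V₂.nonunits →
      ∃ c : A, residue ↥A c = 0 ∧ ∃ h : ↥(modularFunctionFieldBar (M * q)), h ∈ V₁ ∧ h ∈ V₂ ∧
        h₀ = algebraMap Kb ↥(modularFunctionFieldBar (M * q)) (c : Kb) * h := by
  refine hm12_of_valuation (redDatum H) V₁ V₂ ?_ ?_
    (algebraMap_mem_iff_of_comap hA hqM hV₁) (algebraMap_mem_iff_of_comap hA hqM hV₂)
  · intro f hf
    obtain ⟨a, -, ha⟩ := Fermat.Agent.S34.Z1X0.exists_valuation_eq_const hA hqM hV₁ hf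
    exact ⟨a, ha⟩
  · intro f hf
    obtain ⟨a, -, ha⟩ := Fermat.Agent.S34.Z1X0.exists_valuation_eq_const hA hqM hV₂ hf
    exact ⟨a, ha⟩

/-! ### `nc_β`: a place over a non-cuspidal `α`-disc lies over a non-cuspidal `β`-disc -/

/-- `β` is `ℚ̄`-linear -/
theorem beta_const (c : Kb) :
    (heckeBetaBar Kb M q : ↥(modularFunctionFieldBar M) →+* ↥(modularFunctionFieldBar (M * q)))
      (algebraMap Kb ↥(modularFunctionFieldBar M) c)
      = algebraMap Kb ↥(modularFunctionFieldBar (M * q)) c :=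
  (heckeBetaBar Kb M q).commutes c

/-- `α` is `ℚ̄`-linear -/
theorem alpha_const (c : Kb) :
    algebraMap ↥(modularFunctionFieldBar M) ↥(modularFunctionFieldBar (M * q))
      (algebraMap Kb ↥(modularFunctionFieldBar M) c)
      = algebraMap Kb ↥(modularFunctionFieldBar (M * q)) c :=
  (heckeAlphaBar Kb M q).commutes c

include hA in
/-- **`nc_β`** from the two level-`M` facts `hregj` (`j` is regular on the non-cuspidal discs) and
`hreginv` (`1/j` is regular on the cuspidal discs). -/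
theorem nc_beta
    (ra : Restr Kb (algebraMap ↥(modularFunctionFieldBar M) ↥(modularFunctionFieldBar (M * q))))
    (rb : Restr Kb (heckeBetaBar Kb M q :
      ↥(modularFunctionFieldBar M) →+* ↥(modularFunctionFieldBar (M * q))))
    (hra : ∀ P : Place Kb ↥(modularFunctionFieldBar (M * q)),
      (ra.res P).toValuationSubring = P.toValuationSubring.comap
        (algebraMap ↥(modularFunctionFieldBar M) ↥(modularFunctionFieldBar (M * q))))
    (hregj : ∀ Q ∈ NC (ResidueField ↥A) M, RegOn (placeMap H) (jgen M) Q)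
    (hreginv : ∀ Q : Place (ResidueField ↥A) ↥(modularFunctionFieldFullC (ResidueField ↥A) M),
      Q.ord (jk (ResidueField ↥A) M) < 0 → RegOn (placeMap H) (jgen M)⁻¹ Q)
    (P : Place Kb ↥(modularFunctionFieldBar (M * q)))
    (hP : placeMap H (ra.res P) ∈ NC (ResidueField ↥A) M) :
    placeMap H (rb.res P) ∈ NC (ResidueField ↥A) M := by
  -- the value `c ∈ A` of `j` at `P ∘ α`
  obtain ⟨c, hc, -⟩ := exists_hasVal_of_regOn (redDatum H) H.riemannL.deg_one (jO hA hqM)
    (hregj _ hP) (P := ra.res P) rfl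
  -- the value `x' ∈ A` of `j_q` at `P`
  have hP' : P.restrictAlong (heckeAlphaBar Kb M q)
      (Fermat.Agent.S34.Generic.FibAlphaX0.isIntegral_alpha hqM) = ra.res P :=
    Place.ext (hra P).symm
  obtain ⟨x', -, -, hx'⟩ := Fermat.Agent.S34.Generic.FibAlphaX0.exists_value_of_restrict hA hqM
    (ra.res P) c hc P hP'
  have hx'' : HasVal P (jl M q) (x' : Kb) := hx'
  -- suppose `r (P ∘ β)` is a cusp
  rw [mem_NC_iff]
  by_contra hneg
  have hlt : (placeMap H (rb.res P)).ord (jk (ResidueField ↥A) M) < 0 := not_le.mp hneg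
  have hu : (gaussDatum M A hA hqM).red (jO hA hqM) ≠ 0 := by
    rw [red_jO]; exact Fermat.Agent.S34.LevelMSurjX0.jk_ne_zero
  set ji : ↥(redDatum H).O := Fermat.Agent.S34.LevelMSurj.invOf (gaussDatum M A hA hqM)
    (jO hA hqM) hu with hji
  have hjic : ((ji : ↥(redDatum H).O) : ↥(modularFunctionFieldBar M)) = (jgen M)⁻¹ :=
    Fermat.Agent.S34.LevelMSurj.coe_invOf (jO hA hqM) hu
  have hjir : (redDatum H).red ji = (jk (ResidueField ↥A) M)⁻¹ := by
    have := Fermat.Agent.S34.LevelMSurj.red_invOf (jO hA hqM) hu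
    rw [red_jO] at this
    exact this
  have hreg' : RegOn (placeMap H) ((ji : ↥(redDatum H).O) : ↥(modularFunctionFieldBar M))
      (placeMap H (rb.res P)) := by
    rw [hjic]; exact hreginv _ hlt
  obtain ⟨a, ha1, ha2⟩ := exists_hasVal_of_regOn (redDatum H) H.riemannL.deg_one ji hreg'
    (P := rb.res P) rfl
  -- the value of `1/j̄` at a cusp is `0`
  have hπa : residue ↥A a = 0 := by
    have h0 : HasVal (placeMap H (rb.res P)) ((redDatum H).red ji) (0 : ResidueField ↥A) := by
      unfold HasVal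
      rw [map_zero, sub_zero, hjir]
      have hne : (jk (ResidueField ↥A) M)⁻¹ ≠ 0 :=
        inv_ne_zero Fermat.Agent.S34.LevelMSurjX0.jk_ne_zero
      rw [← ord_pos_iff _ hne, Place.ord_inv]
      omega
    exact ha2.unique h0
  -- transfer to `P`: `(1/j_q)(P) = a`, `j_q(P) = x'`, so `a x' = 1`
  have h1 : HasVal P ((heckeBetaBar Kb M q : ↥(modularFunctionFieldBar M) →+*
      ↥(modularFunctionFieldBar (M * q))) ((ji : ↥(redDatum H).O) : ↥(modularFunctionFieldBar M)))
      (a : Kb) := hasVal_of_restr rb beta_const ha1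
  have h2 : (heckeBetaBar Kb M q : ↥(modularFunctionFieldBar M) →+*
      ↥(modularFunctionFieldBar (M * q))) ((ji : ↥(redDatum H).O) : ↥(modularFunctionFieldBar M))
      = (jl M q)⁻¹ := by
    rw [hjic, map_inv₀]
    rfl
  rw [h2] at h1
  have hjl0 : jl M q ≠ 0 := Fermat.Agent.S34.EulerX0.jl_ne_zero
  have h3 : HasVal P (1 : ↥(modularFunctionFieldBar (M * q))) ((a : Kb) * (x' : Kb)) := by
    have := h1.mul hx''
    rwa [inv_mul_cancel₀ hjl0] at this
  have h4 : (a : Kb) * (x' : Kb) = 1 := h3.unique (hasVal_one P)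
  have h5 : a * x' = 1 := Subtype.ext h4
  have h6 := congrArg (residue ↥A) h5
  rw [map_mul, hπa, zero_mul, map_one] at h6
  exact zero_ne_one h6

/-! ### the assembly -/

include hA in
/-- **`DichHyp` at `X₀(qM)`** for two valuation rings `V₁`, `V₂` of `ℚ̄(X₀(Mq))` over the Gauss ring
of `ℚ̄(X₀(M))`, from the reduction dictionary of the pair in congruence form
(`hβ₁ hβ₂ hcong₁ hcong₂`, `GaussPairX0`) and the two level-`M` facts `hregj`, `hreginv`
(`CuspRedX0`). -/
theorem dichHyp_X0 {V₁ V₂ : ValuationSubring ↥(modularFunctionFieldBar (M * q))}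
    (hV₁ : V₁.comap (algebraMap ↥(modularFunctionFieldBar M) ↥(modularFunctionFieldBar (M * q))) =
      (gaussDatum M A hA hqM).O)
    (hV₂ : V₂.comap (algebraMap ↥(modularFunctionFieldBar M) ↥(modularFunctionFieldBar (M * q))) =
      (gaussDatum M A hA hqM).O)
    (ra : Restr Kb (algebraMap ↥(modularFunctionFieldBar M) ↥(modularFunctionFieldBar (M * q))))
    (rb : Restr Kb (heckeBetaBar Kb M q :
      ↥(modularFunctionFieldBar M) →+* ↥(modularFunctionFieldBar (M * q))))
    (hra : ∀ P : Place Kb ↥(modularFunctionFieldBar (M * q)),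
      (ra.res P).toValuationSubring = P.toValuationSubring.comap
        (algebraMap ↥(modularFunctionFieldBar M) ↥(modularFunctionFieldBar (M * q))))
    (hβ₁ : ∀ g : ↥(redDatum H).O, (heckeBetaBar Kb M q : ↥(modularFunctionFieldBar M) →+*
      ↥(modularFunctionFieldBar (M * q))) (g : ↥(modularFunctionFieldBar M)) ∈ V₁)
    (hβ₂ : ∀ g : ↥(redDatum H).O, (heckeBetaBar Kb M q : ↥(modularFunctionFieldBar M) →+*
      ↥(modularFunctionFieldBar (M * q))) (g : ↥(modularFunctionFieldBar M)) ∈ V₂)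
    (hcong₁ : ∀ g g' : ↥(redDatum H).O,
      (redDatum H).red g' = phi (ResidueField ↥A) M q ((redDatum H).red g) →
      (heckeBetaBar Kb M q : ↥(modularFunctionFieldBar M) →+* ↥(modularFunctionFieldBar (M * q)))
        (g : ↥(modularFunctionFieldBar M)) -
      algebraMap ↥(modularFunctionFieldBar M) ↥(modularFunctionFieldBar (M * q))
        (g' : ↥(modularFunctionFieldBar M)) ∈ V₁.nonunits)
    (hcong₂ : ∀ g g' : ↥(redDatum H).O,
      (redDatum H).red g' = phi (ResidueField ↥A) M q ((redDatum H).red g) →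
      algebraMap ↥(modularFunctionFieldBar M) ↥(modularFunctionFieldBar (M * q))
        (g : ↥(modularFunctionFieldBar M)) -
      (heckeBetaBar Kb M q : ↥(modularFunctionFieldBar M) →+* ↥(modularFunctionFieldBar (M * q)))
        (g' : ↥(modularFunctionFieldBar M)) ∈ V₂.nonunits)
    (hregj : ∀ Q ∈ NC (ResidueField ↥A) M, RegOn (placeMap H) (jgen M) Q)
    (hreginv : ∀ Q : Place (ResidueField ↥A) ↥(modularFunctionFieldFullC (ResidueField ↥A) M),
      Q.ord (jk (ResidueField ↥A) M) < 0 → RegOn (placeMap H) (jgen M)⁻¹ Q) :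
    DichHyp (redDatum H)
      (algebraMap ↥(modularFunctionFieldBar M) ↥(modularFunctionFieldBar (M * q)))
      (heckeBetaBar Kb M q : ↥(modularFunctionFieldBar M) →+* ↥(modularFunctionFieldBar (M * q)))
      ra rb V₁ V₂
      (phi (ResidueField ↥A) M q : ↥(modularFunctionFieldFullC (ResidueField ↥A) M) →+*
        ↥(modularFunctionFieldFullC (ResidueField ↥A) M))
      (Fr (ResidueField ↥A) M q) (NC (ResidueField ↥A) M) (B hA hqM H) where
  α_const := alpha_const
  β_const := beta_const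
  degM := H.riemannL.deg_one
  degk := H.riemannK.deg_one
  nc_fr Q hQ := (Fr_mem_NC_iff _ M q Q).mpr hQ
  fr_inj := (Fr (ResidueField ↥A) M q).injective
  nc_β := nc_beta hA hqM H ra rb hra hregj hreginv
  B_add _ hg _ hg' Q hQ := (hg Q hQ).add (hg' Q hQ)
  B_reg _ hg Q hQ := hg Q hQ
  B_φ := B_phi hA hqM H
  B_sep := B_sep hA hqM H
  φ_val Q _ y γ h := hasVal_phi _ M q Q y γ h
  α_mem₁ g := alpha_mem_of_comap hA hqM hV₁ g
  β_mem₁ := hβ₁
  α_mem₂ g := alpha_mem_of_comap hA hqM hV₂ g
  β_mem₂ := hβ₂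
  cong₁ := hcong₁
  cong₂ := hcong₂
  hm12 := hm12_X0 hA hqM H hV₁ hV₂

end X0

end Fermat.Agent.S34.Generic.DichX0
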