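/-
PROJECT U (S34), helper10: THE TWO FIBRE FIELDS OF `Generic/Compat.GenericAt`.

* `fibα_of_value` : from the value form of the fibre statement (helper7's
  `FibAlphaX0.exists_typeOne_place`: the unique unramified place over `PM` at which `β g` takes a
  value reducing to `γF`) and helper18's type criterion `Dich.DichHyp.type_iff_exists`, the field
  `fibα` of `GenericAt`.
* `fibβ_of_fibα` : the field `fibβ` at `(Q, Qm)` is the transport of `fibα` at `(Qm, Q)` along an
  automorphism `w` of `F` which exchanges `α` and `β` (`w = w_q`).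
-/
import Mathlib
import Fermat.Agent.S34.Generic.Dich
import Fermat.Prelude.Def_AlgebraicCurve_BaseChangeGalois

set_option autoImplicit false
set_option linter.unusedSectionVars false

noncomputable section

namespace Fermat.Agent.S34.Generic.FibSwap

open AlgebraicCurve Fermat.Agent.S24.Ord Fermat.Agent.S18.CoreDefs Fermat.Agent.S18.Disc
  Fermat.Agent.S34.Generic.Compat Fermat.Agent.S34.Generic.Dich

variable {L : Type*} [Field L] {FM : Type*} [Field FM] [Algebra L FM]
variable {k : Type*} [Field k] {Fk : Type*} [Field Fk] [Algebra k Fk]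
variable {A : ValuationSubring L} {π : A →+* k} {r : Place L FM → Place k Fk}
variable {F : Type*} [Field F] [Algebra L F]
variable {R : RedDatum A π r} {α β : FM →+* F} {ra : Restr L α} {rb : Restr L β}
  {O₁ O₂ : ValuationSubring F} {φ : Fk →+* Fk} {Fr : Place k Fk → Place k Fk}
  {NC : Set (Place k Fk)} {B : Set R.O}

/-- the field `fibα` from its value form -/
theorem fibα_of_value [HasPrincipalDivisors L FM] (H : DichHyp R α β ra rb O₁ O₂ φ Fr NC B) {Q FQ Qm : Place k Fk}
    (hQ : Q ∈ NC) (hFQ : Fr Q = FQ) (hQm : Fr Qm = Q)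
    (hval : ∀ h : F, h ∈ O₁ → h ∈ O₂ →
      (∀ P' : Place L F, r (ra.res P') = Q → P'.adicValuation h ≤ 1) →
      ∀ P : Place L F, r (ra.res P) = Q → ∃ d : A, HasVal P h (d : L))
    {g : R.O} (hg : g ∈ B) {γF γm : k} (hγF : HasVal FQ (R.red g) γF)
    (hγm : HasVal Qm (R.red g) γm) (hne : γF ≠ γm)
    (hfib : ∀ PM : Place L FM, r PM = Q → ∃ P : Place L F, ra.res P = PM ∧ ra.e P = 1 ∧
      (∃ x : A, π x = γF ∧ HasVal P (β (g : FM)) (x : L)) ∧
      ∀ P' : Place L F, ra.res P' = PM →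
        (∃ x' : A, π x' = γF ∧ HasVal P' (β (g : FM)) (x' : L)) → P' = P) :
    ∀ PM : Place L FM, r PM = Q → ∃ P : Place L F, ra.res P = PM ∧ r (rb.res P) = FQ ∧
      ra.e P = 1 ∧ ∀ P' : Place L F, ra.res P' = PM → r (rb.res P') = FQ → P' = P := by
  intro PM hPM
  obtain ⟨P, hres, he, ⟨x, hx, hxv⟩, huniq⟩ := hfib PM hPM
  have hP : r (ra.res P) = Q := by rw [hres]; exact hPM
  refine ⟨P, hres, ?_, he, fun P' hP'res hP'FQ => ?_⟩
  · exact (H.type_iff_exists hQ hFQ hQm hval hg hγF hγm hne hP).mpr ⟨x, hxv, hx⟩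
  · have hP' : r (ra.res P') = Q := by rw [hP'res]; exact hPM
    obtain ⟨b, hb, hπb⟩ := (H.type_iff_exists hQ hFQ hQm hval hg hγF hγm hne hP').mp hP'FQ
    exact huniq P' hP'res ⟨b, hπb, hb⟩

/-- ramification indices correspond under an automorphism exchanging `α` and `β` -/
theorem e_swap (gw : SemilinearAut L F)
    (hres₂ : ∀ P : Place L F, rb.res (gw • P) = ra.res P)
    (hord : ∀ (P : Place L F) (g : FM), (gw • P).ord (β g) = P.ord (α g)) (P : Place L F) :
    rb.e (gw • P) = ra.e P := by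
  obtain ⟨ϖ, hϖ⟩ := IsDiscreteValuationRing.exists_irreducible (ra.res P).toValuationSubring
  have h1 : (ra.res P).ord ((ϖ : (ra.res P).toValuationSubring) : FM) = 1 :=
    (ra.res P).ord_coe_irreducible hϖ
  have h2 := rb.ord_map (gw • P) ((ϖ : (ra.res P).toValuationSubring) : FM)
  rw [hord, ra.ord_map, hres₂, h1, mul_one, mul_one] at h2
  exact_mod_cast h2.symm

/-- the field `fibβ` at `(Q, Qm)` from the field `fibα` at `(Qm, Q)` -/
theorem fibβ_of_fibα (gw : SemilinearAut L F)
    (hres₁ : ∀ P : Place L F, ra.res (gw • P) = rb.res P)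
    (hres₂ : ∀ P : Place L F, rb.res (gw • P) = ra.res P)
    (hord : ∀ (P : Place L F) (g : FM), (gw • P).ord (β g) = P.ord (α g))
    {Q Qm : Place k Fk}
    (hfib : ∀ PM : Place L FM, r PM = Qm → ∃ P : Place L F, ra.res P = PM ∧ r (rb.res P) = Q ∧
      ra.e P = 1 ∧ ∀ P' : Place L F, ra.res P' = PM → r (rb.res P') = Q → P' = P) :
    ∀ PM : Place L FM, r PM = Qm → ∃ P : Place L F, rb.res P = PM ∧ r (ra.res P) = Q ∧
      rb.e P = 1 ∧ ∀ P' : Place L F, rb.res P' = PM → r (ra.res P') = Q → P' = P := by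
  intro PM hPM
  obtain ⟨P, hres, hQ, he, huniq⟩ := hfib PM hPM
  refine ⟨gw • P, ?_, ?_, ?_, fun P' hP'res hP'Q => ?_⟩
  · rw [hres₂, hres]
  · rw [hres₁, hQ]
  · rw [e_swap gw hres₂ hord, he]
  · have h1 : ra.res (gw⁻¹ • P') = rb.res P' := by
      have := hres₂ (gw⁻¹ • P')
      rw [smul_inv_smul] at this
      exact this.symm
    have h2 : rb.res (gw⁻¹ • P') = ra.res P' := by
      have := hres₁ (gw⁻¹ • P')
      rw [smul_inv_smul] at this
      exact this.symm
    have h3 : gw⁻¹ • P' = P := huniq (gw⁻¹ • P') (by rw [h1, hP'res]) (by rw [h2, hP'Q])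
    rw [← h3, smul_inv_smul]

end Fermat.Agent.S34.Generic.FibSwap
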