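/-
PROJECT U (S34): **the fibre hypotheses of `Generic/FibSwap.fibα_of_value` at `X₀(qM)`**, literally.

For a place `Q` of the special fibre of `X₀(M)` at which `j̄` has the value `γ` with
`γ^(q²) ≠ γ` (a generic non-cuspidal place), every place `PM` of `X₀(M)` in the disc of `Q` has
exactly one place `P` of `X₀(qM)` above it (along `α`) at which the value of `β j` reduces to `γ^q`
(= the value of `j̄` at `Fr Q`); it is unramified.  Likewise along `β` with the value of `α j`.

Glue between `FibAlphaX0.exists_typeOne_place` / `FibBetaX0.exists_typeTwo_place` (which take the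
`j`-value `c ∈ A` of `PM`) and the level-`M` reduction theory (`CuspRedX0.regOn_jgen`,
`Dich.exists_hasVal_of_regOn`: the `j`-value of `PM` is `A`-integral and reduces to `γ`).
-/
import Mathlib
import Fermat.Agent.S34.Generic.NcBetaX0

set_option autoImplicit false

noncomputable section

namespace Fermat.Agent.S34.Generic.FibValueX0

open ModularCurve AlgebraicCurve IsLocalRing
open Fermat.Agent.S24.DegreeAlg (jgen)
open Fermat.Agent.S18.B.FkBasics (jk)
open Fermat.Agent.S34.PowerBasisX0 Fermat.Agent.S34.Generic.RestrAlong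
  Fermat.Agent.S34.Generic.Dich Fermat.Agent.S34.Generic.Compat
open Fermat.Agent.S37.Deuring.Core Fermat.Agent.S37.Deuring.HypX0 Fermat.Agent.S37.Gauss.Datum
  Fermat.Agent.S34.CuspRedX0

local notation "Kb" => AlgebraicClosure ℚ

set_option synthInstance.maxHeartbeats 400000

variable {q : ℕ} [hq : Fact q.Prime] {M : ℕ} [NeZero M] [NeZero q] {A : ValuationSubring Kb}
variable (hA : A.LiesOverPrime q) (hqM : ¬ q ∣ M)
variable [HasPrincipalDivisors Kb ↥(modularFunctionFieldBar M)]
  [HasPrincipalDivisors (ResidueField ↥A) ↥(modularFunctionFieldFullC (ResidueField ↥A) M)]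
  [Infinite (ResidueField ↥A)]
variable {gL gk : ℕ} (H : Hyp (gaussDatum M A hA hqM) gL gk)

omit [NeZero q] in
/-- the `j`-value of a place in the disc of a non-cuspidal `Q` is `A`-integral and reduces to the
value of `j̄` at `Q` -/
theorem exists_jvalue {Q : Place (ResidueField ↥A) ↥(modularFunctionFieldFullC (ResidueField ↥A) M)}
    {γ : ResidueField ↥A} (hγ : HasVal Q (jk (ResidueField ↥A) M) γ)
    {PM : Place Kb ↥(modularFunctionFieldBar M)} (hPM : placeMap H PM = Q) :
    ∃ c : ↥A, PM.adicValuation (jgen M - algebraMap Kb _ (c : Kb)) < 1 ∧ residue ↥A c = γ := by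
  have h0 : 0 ≤ Q.ord (jk (ResidueField ↥A) M) := by
    rcases eq_or_ne (jk (ResidueField ↥A) M) 0 with h | h
    · rw [h, Place.ord_zero]
    · exact (Fermat.Agent.S24.Ord.ord_nonneg_iff Q h).mpr hγ.le_one
  have hreg := regOn_jgen hA hqM H Q h0
  have hreg' : Fermat.Agent.S18.Disc.RegOn (placeMap H)
      (((jO hA hqM : (redDatum H).O)) : ↥(modularFunctionFieldBar M)) Q := hreg
  obtain ⟨c, hc1, hc2⟩ := exists_hasVal_of_regOn (redDatum H)
    (fun P => Fermat.Agent.S24.Ord.deg_eq_one (Fermat.Agent.S24.Degree.isFF M) P)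
    (jO hA hqM) hreg' hPM
  have hc1' : PM.adicValuation (jgen M - algebraMap Kb _ (c : Kb)) < 1 := hc1
  have hred : (redDatum H).red (jO hA hqM) = jk (ResidueField ↥A) M := red_jO hA hqM
  have hc2' : HasVal Q (jk (ResidueField ↥A) M) (residue ↥A c) := hred ▸ hc2
  have h3 : residue ↥A c = γ := HasVal.unique hc2' hγ
  exact ⟨c, hc1', h3⟩

/-- **The hypothesis `hfib` of `FibSwap.fibα_of_value` at `X₀(qM)`.** -/
theorem hfib_alpha_X0 (hα : (heckeAlphaBar Kb M q).toRingHom.IsIntegral)
    {Q : Place (ResidueField ↥A) ↥(modularFunctionFieldFullC (ResidueField ↥A) M)}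
    {γ : ResidueField ↥A} (hγ : HasVal Q (jk (ResidueField ↥A) M) γ) (hgen : γ ^ (q ^ 2) ≠ γ) :
    ∀ PM : Place Kb ↥(modularFunctionFieldBar M), placeMap H PM = Q →
      ∃ P : Place Kb ↥(modularFunctionFieldBar (M * q)),
        (restrAlong (heckeAlphaBar Kb M q) hα).res P = PM ∧
        (restrAlong (heckeAlphaBar Kb M q) hα).e P = 1 ∧
        (∃ x : ↥A, residue ↥A x = γ ^ q ∧
          HasVal P (heckeBetaBar Kb M q (jgen M)) (x : Kb)) ∧
        ∀ P' : Place Kb ↥(modularFunctionFieldBar (M * q)),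
          (restrAlong (heckeAlphaBar Kb M q) hα).res P' = PM →
          (∃ x' : ↥A, residue ↥A x' = γ ^ q ∧
            HasVal P' (heckeBetaBar Kb M q (jgen M)) (x' : Kb)) → P' = P := by
  intro PM hPM
  obtain ⟨c, hc, hcγ⟩ := exists_jvalue hA hqM H hγ hPM
  have hgen' : residue ↥A c ^ (q ^ 2) ≠ residue ↥A c := by rw [hcγ]; exact hgen
  obtain ⟨P, h1, h2, -, h4, h5⟩ := FibAlphaX0.exists_typeOne_place hA hqM PM c hc hgen'
  rw [hcγ] at h4 h5
  exact ⟨P, h1, h2, h4, h5⟩

/-- **The `β`-twin**: over `PM` in the disc of `Qm` (along `β`), the unique unramified place at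
which the value of `α j` reduces to `γm^q`. -/
theorem hfib_beta_X0 (hβ : (heckeBetaBar Kb M q).toRingHom.IsIntegral)
    {Qm : Place (ResidueField ↥A) ↥(modularFunctionFieldFullC (ResidueField ↥A) M)}
    {γm : ResidueField ↥A} (hγ : HasVal Qm (jk (ResidueField ↥A) M) γm)
    (hgen : γm ^ (q ^ 2) ≠ γm) :
    ∀ PM : Place Kb ↥(modularFunctionFieldBar M), placeMap H PM = Qm →
      ∃ P : Place Kb ↥(modularFunctionFieldBar (M * q)),
        (restrAlong (heckeBetaBar Kb M q) hβ).res P = PM ∧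
        (restrAlong (heckeBetaBar Kb M q) hβ).e P = 1 ∧
        (∃ x : ↥A, residue ↥A x = γm ^ q ∧
          HasVal P (heckeAlphaBar Kb M q (jgen M)) (x : Kb)) ∧
        ∀ P' : Place Kb ↥(modularFunctionFieldBar (M * q)),
          (restrAlong (heckeBetaBar Kb M q) hβ).res P' = PM →
          (∃ x' : ↥A, residue ↥A x' = γm ^ q ∧
            HasVal P' (heckeAlphaBar Kb M q (jgen M)) (x' : Kb)) → P' = P := by
  intro PM hPM
  obtain ⟨c, hc, hcγ⟩ := exists_jvalue hA hqM H hγ hPM
  have hgen' : residue ↥A c ^ (q ^ 2) ≠ residue ↥A c := by rw [hcγ]; exact hgen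
  obtain ⟨P, h1, h2, -, h4, h5⟩ := FibBetaX0.exists_typeTwo_place hA hqM PM c hc hgen'
  rw [hcγ] at h4 h5
  exact ⟨P, h1, h2, h4, h5⟩

end Fermat.Agent.S34.Generic.FibValueX0
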