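/-
PROJECT U (S34), Route G, `k`-side: **the three-part non-generic set of `κ_M` is finite**.

`k` an algebraically closed field of characteristic `q`,
`κ := modularFunctionFieldFullC k N ⊆ k((t))`, `j := jk k N`.  The set of *non-generic* places
(helper10's predicate, the complement of `good` in `NodalDefs.SmoothRed` at `X₀(qM)`):

  `nonGeneric = {Q | Q.ord j < 0 ∨ (∃ c, c ^ (q ^ 2) = c ∧ 0 < Q.ord (j - c)) ∨
                    ¬ ∃ γ, Q.ord (j - γ) = 1}`

(cusps, places with `j`-value in `𝔽_(q²)`, places where `j` is not a local parameter up to a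
constant).

* `nonGeneric k N q`, `mem_nonGeneric_iff`;
* `finite_nonGeneric3` : the literal three-part union is finite;
* `nonGeneric_finite`, `finite_compl_good` (`good := (nonGeneric)ᶜ`);
* `good_iff` : `Q ∈ good ↔ IsGeneric Q ∧ ∃ γ, Q.ord (j - γ) = 1`, and the consequences for a good
  place: `exists_param_of_good` (the `j`-value `γ` with `ord_Q (j - γ) = 1`, `γ ∉ 𝔽_(q²)`),
  `Fr_Fr_ne_of_good`;
* `good_Fr_iff` : `good` is `Fr`-stable (`k` perfect);
* the instances at `k = ResidueField A`.
-/
import Mathlib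
import Fermat.Agent.S34.Generic.FiniteNonGeneric
import Fermat.Agent.S18.A.UnramFinal
import Fermat.Agent.S18.B.SeparableFk

set_option autoImplicit false
set_option linter.unusedSectionVars false
set_option linter.style.haveILetI false

noncomputable section

namespace Fermat.Agent.S34.Generic.NonGenericSet

open AlgebraicCurve ModularCurve IsLocalRing IntermediateField
open Fermat.Agent.S34.FrobK Fermat.Agent.S34.Generic.FiniteNonGeneric
open Fermat.Agent.S18.B.FkBasics (jk)

variable (k : Type*) [Field k] (N : ℕ) [NeZero N]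
variable (q : ℕ) [hq : Fact q.Prime] [CharP k q] [PerfectField k]

/-- **The non-generic places** of `κ = F_k(N)`: cusps, `j`-value in `𝔽_(q²)`, or `j` not a
parameter up to a constant. -/
def nonGeneric : Set (Place k ↥(modularFunctionFieldFullC k N)) :=
  {Q | Q.ord (jk k N) < 0 ∨
    (∃ c : k, c ^ (q ^ 2) = c ∧ 0 < Q.ord (jk k N - algebraMap k _ c)) ∨
    ¬ ∃ γ : k, Q.ord (jk k N - algebraMap k _ γ) = 1}

theorem mem_nonGeneric_iff (Q : Place k ↥(modularFunctionFieldFullC k N)) :
    Q ∈ nonGeneric k N q ↔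
      (Q.ord (jk k N) < 0 ∨
        (∃ c : k, c ^ (q ^ 2) = c ∧ 0 < Q.ord (jk k N - algebraMap k _ c)) ∨
        ¬ ∃ γ : k, Q.ord (jk k N - algebraMap k _ γ) = 1) := Iff.rfl

/-- the good places: the complement of the non-generic ones -/
def good : Set (Place k ↥(modularFunctionFieldFullC k N)) := (nonGeneric k N q)ᶜ

theorem good_iff (Q : Place k ↥(modularFunctionFieldFullC k N)) :
    Q ∈ good k N q ↔
      IsGeneric k N q Q ∧ ∃ γ : k, Q.ord (jk k N - algebraMap k _ γ) = 1 := by
  unfold good
  rw [Set.mem_compl_iff, mem_nonGeneric_iff, ← or_assoc, not_or, not_not,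
    ← not_generic_iff k N q Q, not_not]

section Finite

variable [IsAlgClosed k] [HasPrincipalDivisors k ↥(modularFunctionFieldFullC k N)]

/-- **The literal three-part non-generic set is finite.** -/
theorem finite_nonGeneric3 :
    {Q : Place k ↥(modularFunctionFieldFullC k N) |
      Q.ord (jk k N) < 0 ∨
        (∃ c : k, c ^ (q ^ 2) = c ∧ 0 < Q.ord (jk k N - algebraMap k _ c)) ∨
        ¬ ∃ γ : k, Q.ord (jk k N - algebraMap k _ γ) = 1}.Finite := by
  have h12 := finite_nonGeneric k N q
  have h3 := Fermat.Agent.S18.A.Unram.finite_not_simple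
    (Fermat.Agent.S18.B.FkBasics.isFF k N)
    (Fermat.Agent.S18.B.SeparableFk.isSeparable_jk k N)
  refine (h12.union h3).subset fun Q hQ => ?_
  rcases hQ with h | h | h
  · exact Or.inl (Or.inl h)
  · exact Or.inl (Or.inr h)
  · exact Or.inr h

theorem nonGeneric_finite : (nonGeneric k N q).Finite := finite_nonGeneric3 k N q

/-- **`finite_compl_good`** -/
theorem finite_compl_good : (good k N q)ᶜ.Finite := by
  unfold good
  rw [compl_compl]
  exact nonGeneric_finite k N q

end Finite

/-! ### consequences at a good place -/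

/-- at a good place `j - γ` is a parameter for the (unique) `j`-value `γ`, and `γ ∉ 𝔽_(q²)` -/
theorem exists_param_of_good {Q : Place k ↥(modularFunctionFieldFullC k N)}
    (hQ : Q ∈ good k N q) :
    ∃ γ : k, Q.ord (jk k N - algebraMap k _ γ) = 1 ∧ γ ^ (q ^ 2) ≠ γ := by
  obtain ⟨hgen, γ, hγ⟩ := (good_iff k N q Q).mp hQ
  refine ⟨γ, hγ, fun hγq => ?_⟩
  have := hgen.2 γ hγq
  omega

theorem ord_jk_nonneg_of_good {Q : Place k ↥(modularFunctionFieldFullC k N)}
    (hQ : Q ∈ good k N q) : 0 ≤ Q.ord (jk k N) :=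
  ((good_iff k N q Q).mp hQ).1.1

theorem isGeneric_of_good {Q : Place k ↥(modularFunctionFieldFullC k N)}
    (hQ : Q ∈ good k N q) : IsGeneric k N q Q :=
  ((good_iff k N q Q).mp hQ).1

section Frob

variable [HasPrincipalDivisors k ↥(modularFunctionFieldFullC k N)]

/-- **good places are not fixed by `Fr²`** -/
theorem Fr_Fr_ne_of_good [IsAlgClosed k] {Q : Place k ↥(modularFunctionFieldFullC k N)}
    (hQ : Q ∈ good k N q) : Fr k N q (Fr k N q Q) ≠ Q :=
  Fr_Fr_ne_of_generic k N q Q (isGeneric_of_good k N q hQ)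

/-- the parameter condition is `Fr`-stable -/
theorem exists_param_Fr_iff (Q : Place k ↥(modularFunctionFieldFullC k N)) :
    (∃ γ : k, (Fr k N q Q).ord (jk k N - algebraMap k _ γ) = 1) ↔
      ∃ γ : k, Q.ord (jk k N - algebraMap k _ γ) = 1 := by
  constructor
  · rintro ⟨γ, hγ⟩
    -- `γ = c ^ q` with `c := frobenius⁻¹ γ`
    obtain ⟨c, hc⟩ := PerfectField.toPerfectRing q |>.bijective_frobenius.2 γ
    replace hc : c ^ q = γ := hc
    refine ⟨c, ?_⟩
    rw [← ord_Fr_jk_sub k N q Q c, hc]
    exact hγ
  · rintro ⟨γ, hγ⟩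
    exact ⟨γ ^ q, by rw [ord_Fr_jk_sub]; exact hγ⟩

/-- **`good` is `Fr`-stable** -/
theorem good_Fr_iff (Q : Place k ↥(modularFunctionFieldFullC k N)) :
    Fr k N q Q ∈ good k N q ↔ Q ∈ good k N q := by
  rw [good_iff, good_iff, generic_Fr_iff, exists_param_Fr_iff]

end Frob

/-! ### the instance at `k = ResidueField A` -/

section Residue

local notation "Kb" => AlgebraicClosure ℚ

set_option synthInstance.maxHeartbeats 400000

variable {A : ValuationSubring Kb} (hA : A.LiesOverPrime q) (M : ℕ) [NeZero M]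

include hA in
/-- **The non-generic places of `F_k(M)`, `k = κ(A)` (literal three-part union), are finitely
many.** -/
theorem finite_nonGeneric3_residue :
    {Q : Place (ResidueField ↥A) ↥(modularFunctionFieldFullC (ResidueField ↥A) M) |
      Q.ord (jk (ResidueField ↥A) M) < 0 ∨
        (∃ c : ResidueField ↥A, c ^ (q ^ 2) = c ∧
          0 < Q.ord (jk (ResidueField ↥A) M - algebraMap (ResidueField ↥A) _ c)) ∨
        ¬ ∃ γ : ResidueField ↥A,
          Q.ord (jk (ResidueField ↥A) M - algebraMap (ResidueField ↥A) _ γ) = 1}.Finite := by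
  haveI := Fermat.Agent.S18.ResidueBasics.isAlgClosed_residueField A
  haveI := Fermat.Agent.S37.ReductionInputs.hasPrincipalDivisors_Fk A M
  haveI : CharP (ResidueField ↥A) q := Fermat.Agent.S18.ResidueBasics.charP_residueField A hA
  exact finite_nonGeneric3 (ResidueField ↥A) M q

include hA in
/-- `finite_compl_good` at `k = κ(A)` -/
theorem finite_compl_good_residue :
    haveI := Fermat.Agent.S18.ResidueBasics.isAlgClosed_residueField A
    haveI : CharP (ResidueField ↥A) q := Fermat.Agent.S18.ResidueBasics.charP_residueField A hA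
    (good (ResidueField ↥A) M q)ᶜ.Finite := by
  haveI := Fermat.Agent.S18.ResidueBasics.isAlgClosed_residueField A
  haveI := Fermat.Agent.S37.ReductionInputs.hasPrincipalDivisors_Fk A M
  haveI : CharP (ResidueField ↥A) q := Fermat.Agent.S18.ResidueBasics.charP_residueField A hA
  exact finite_compl_good (ResidueField ↥A) M q

end Residue

end Fermat.Agent.S34.Generic.NonGenericSet
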